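import Fermat.Agent.Lifting.Algebra.Frame

/-!
# Local coordinates of a component at one site
-/

set_option autoImplicit false
set_option linter.unusedSectionVars false

noncomputable section

namespace Fermat.Agent.Lifting.Algebra

open IsLocalRing Matrix Fermat.Agent.RT.LocalRing

variable {O : Type} [CommRing O] [IsLocalRing O] [IsAdicComplete (maximalIdeal O) O]
  {J τ : Type} [Finite J] [Finite τ] {S : J → Site O} {c : J → Ty}
  {D : Type} [CommRing D] [Algebra O D]

/-- The pair at `j` of the universal family. -/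
abbrev univPair (S : J → Site O) (τ : Type) (j : J) : Mat (PSR J τ O) × Mat (PSR J τ O) :=
  (universalFamily S τ).1 j

theorem univPair_map (π : PSR J τ O →ₐ[O] D) (j : J) :
    ((univPair S τ j).1.map π, (univPair S τ j).2.map π) =
      (familyOf S (π ∘ MvPowerSeries.X)).1 j :=
  congrFun (congrArg Prod.fst (mapCfg_universalFamily (τ := τ) S π)) j

theorem univPair_map_fst (π : PSR J τ O →ₐ[O] D) (j : J) :
    (univPair S τ j).1.map π = ((familyOf S (π ∘ MvPowerSeries.X)).1 j).1 :=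
  congrArg Prod.fst (univPair_map π j)

theorem univPair_map_snd (π : PSR J τ O →ₐ[O] D) (j : J) :
    (univPair S τ j).2.map π = ((familyOf S (π ∘ MvPowerSeries.X)).1 j).2 :=
  congrArg Prod.snd (univPair_map π j)

theorem univPair_map_centre (π : PSR J τ O →ₐ[O] D) (j : J)
    (h0 : ∀ s a b, π (MvPowerSeries.X (Sum.inl (j, s, a, b))) = 0) :
    ((univPair S τ j).1.map π, (univPair S τ j).2.map π) = centreCfg S D j := by
  rw [univPair_map]
  refine Prod.ext ?_ ?_ <;> ext a b <;> simp [familyOf, h0]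

theorem map_chartHom_univPair {F : PSR J τ O →ₐ[O] D} {x : Cfg J τ D}
    (hF : ∀ i, F (MvPowerSeries.X i) = coordsOf S x i) (j : J) :
    ((univPair S τ j).1.map F, (univPair S τ j).2.map F) = x.1 j := by
  rw [univPair_map]
  have : F ∘ MvPowerSeries.X = coordsOf S x := funext hF
  rw [this, familyOf_coordsOf]

variable (h2 : IsUnit (2 : O)) (hc : ∀ j, (S j).Allowed (c j))
include h2 hc

theorem chartPair_centre (hm : ∀ a ∈ maximalIdeal O, algebraMap O D a = 0) (j : J) :
    chartPair (S j) (c j) (fun _ => (0 : D)) = centreCfg S D j := by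
  refine chartPair_zero (S j) (c j) h2 (fun h => ?_) (fun h => ?_)
  · exact hm _ (by have := hc j; rwa [h] at this)
  · have hcj := hc j
    rw [h] at hcj
    refine ⟨hm _ hcj.1, ?_⟩
    have := hm _ hcj.2
    rw [map_add, map_natCast, map_one] at this
    linear_combination this

theorem frame_of_centre (hm : ∀ a ∈ maximalIdeal O, algebraMap O D a = 0) {j : J}
    (hty : c j ≠ .unram) (π : PSR J τ O →ₐ[O] D)
    (h0 : ∀ s a b, π (MvPowerSeries.X (Sum.inl (j, s, a, b))) = 0) :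
    (frameA (S j) (c j) (univPair S τ j)).map π =
        !![algebraMap O D ((S j).gap (c j)), algebraMap O D ((S j).corner (c j)); 0, 0] ∧
      (frameN (S j) (c j) (univPair S τ j)).map π =
        !![0, algebraMap O D ((S j).mono (c j)); 0, 0] := by
  rw [map_frameA, map_frameN, univPair_map_centre π j h0, ← chartPair_centre h2 hc hm,
    frameA_chartPair hty, frameN_chartPair hty]
  simp

theorem frameRel_of_kernel_le {j : J} (hty : c j ≠ .unram) (π : PSR J τ O →ₐ[O] D)
    (hπ : kernel S τ c ≤ RingHom.ker π) :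
    FrameRel (algebraMap O D ((S j).gap (c j))) ((frameA (S j) (c j) (univPair S τ j)).map π)
      ((frameN (S j) (c j) (univPair S τ j)).map π) := by
  obtain ⟨C, hC⟩ := exists_chartHom (τ := τ) h2 hc
  rw [kernel_eq_ker h2 hc C hC] at hπ
  have h := FrameRel.of_ker_le (F := (C : PSR J τ O →+* Om J τ O))
    (G := (π : PSR J τ O →+* D)) hπ (c := algebraMap O _ ((S j).gap (c j)))
    (M := frameA (S j) (c j) (univPair S τ j)) (N := frameN (S j) (c j) (univPair S τ j)) (by
      simp only [RingHom.coe_coe, AlgHom.commutes]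
      rw [map_frameA, map_frameN, map_chartHom_univPair hC]
      exact frameRel_chartPair hty _)
  simpa only [RingHom.coe_coe, AlgHom.commutes] using h

theorem unram_relations {j : J} (hty : c j = .unram) (π : PSR J τ O →ₐ[O] D)
    (hπ : kernel S τ c ≤ RingHom.ker π) :
    (univPair S τ j).2.map π = 1 ∧ ((univPair S τ j).1.map π).det = ((S j).q : D) := by
  obtain ⟨C, hC⟩ := exists_chartHom (τ := τ) h2 hc
  rw [kernel_eq_ker h2 hc C hC] at hπ
  have key : ∀ {x y : PSR J τ O}, C x = C y → π x = π y := fun {x y} e => by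
    have : x - y ∈ RingHom.ker π := hπ (by rw [RingHom.mem_ker, map_sub, e, sub_self])
    rwa [RingHom.mem_ker, map_sub, sub_eq_zero] at this
  have hC' := map_chartHom_univPair hC j
  simp only [chartCfg, hty, chartPair] at hC'
  have e1 := congrArg Prod.fst hC'
  have e2 := congrArg Prod.snd hC'
  dsimp only at e1 e2
  constructor
  · ext a b
    have := key (x := (univPair S τ j).2 a b) (y := (1 : Mat (PSR J τ O)) a b) (by
      have h := congrFun (congrFun e2 a) b
      rw [Matrix.map_apply] at h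
      rw [h]; fin_cases a <;> fin_cases b <;> simp)
    rw [Matrix.map_apply, this]
    fin_cases a <;> fin_cases b <;> simp
  · have := isLocalHom_algebraMap_mv (O := O) (σ := (J × Fin 3) ⊕ τ)
    have hu := isUnit_chart_zero (A := Om J τ O) (S j) (X_mem_om (Sum.inl (j, 0)))
    have h : C (univPair S τ j).1.det = C ((S j).q : PSR J τ O) := by
      rw [AlgHom.map_det]
      show ((univPair S τ j).1.map C).det = _
      rw [e1, Matrix.det_fin_two_of, map_natCast]
      have hh := Ring.mul_inverse_cancel _ hu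
      linear_combination (((S j).q : Om J τ O) +
        (algebraMap O (Om J τ O) (S j).y₀ + MvPowerSeries.X (Sum.inl (j, 1))) *
          MvPowerSeries.X (Sum.inl (j, 2))) * hh
    have := key h
    rwa [AlgHom.map_det, map_natCast] at this

/-- Three functions at the site `j` whose vanishing on `kernel` over the closed point of `O` cuts
out the centre. -/
theorem exists_siteGens (j : J) :
    ∃ g : Fin 3 → PSR J τ O, (∀ i, g i ∈ maximalIdeal (PSR J τ O)) ∧
      ∀ 𝔭 : Ideal (PSR J τ O), 𝔭.IsPrime → kernel S τ c ≤ 𝔭 →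
        (maximalIdeal O).map (algebraMap O (PSR J τ O)) ≤ 𝔭 →
        ((∀ i, g i ∈ 𝔭) → ∀ s a b, MvPowerSeries.X (Sum.inl (j, s, a, b)) ∈ 𝔭) ∧
        (c j = .same → (S j).b₀ ∈ maximalIdeal O →
          (∀ a b, MvPowerSeries.X (Sum.inl (j, true, a, b)) ∈ 𝔭) → g 2 ∈ 𝔭) := by
  classical
  have hmk : ∀ (𝔭 : Ideal (PSR J τ O)), (maximalIdeal O).map (algebraMap O (PSR J τ O)) ≤ 𝔭 →
      ∀ a ∈ maximalIdeal O, algebraMap O (PSR J τ O ⧸ 𝔭) a = 0 := fun 𝔭 h a ha =>
    Ideal.Quotient.eq_zero_iff_mem.mpr (h (Ideal.mem_map_of_mem _ ha))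
  have hunit : ∀ (𝔭 : Ideal (PSR J τ O)), 𝔭.IsPrime → ∀ a : O, a ∉ maximalIdeal O →
      algebraMap O (PSR J τ O ⧸ 𝔭) a ≠ 0 := fun 𝔭 h a ha he =>
    h.ne_top (Ideal.eq_top_of_isUnit_mem _ (Ideal.Quotient.eq_zero_iff_mem.mp he)
      ((notMem_maximalIdeal.mp ha).map _))
  have hloc := isLocalHom_algebraMap_psr (J := J) (τ := τ) (O := O)
  have hmP : (maximalIdeal O).map (algebraMap O (PSR J τ O)) ≤ maximalIdeal _ :=
    Ideal.map_le_iff_le_comap.mpr fun a ha => map_nonunit (algebraMap O (PSR J τ O)) a ha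
  let ρ := Ideal.Quotient.mkₐ O (maximalIdeal (PSR J τ O))
  have hρ : ∀ s a b, ρ (MvPowerSeries.X (Sum.inl (j, s, a, b))) = 0 := fun s a b =>
    Ideal.Quotient.eq_zero_iff_mem.mpr (X_mem_maximalIdeal _)
  by_cases hty : c j = .unram
  · refine ⟨fun i => MvPowerSeries.X (Sum.inl (![(j, false, 0, 0), (j, false, 0, 1), (j, false, 1, 0)] i)),
      fun i => X_mem_maximalIdeal _, fun 𝔭 h𝔭 hk hm => ⟨fun hg => ?_, fun h => ?_⟩⟩
    swap
    · rw [hty] at h; cases h
    let π := Ideal.Quotient.mkₐ O 𝔭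
    obtain ⟨hS, hd⟩ := unram_relations h2 hc hty π (by
      intro x hx; exact Ideal.Quotient.eq_zero_iff_mem.mpr (hk hx))
    have g0 : π (MvPowerSeries.X (Sum.inl (j, false, 0, 0))) = 0 :=
      Ideal.Quotient.eq_zero_iff_mem.mpr (hg 0)
    have g1 : π (MvPowerSeries.X (Sum.inl (j, false, 0, 1))) = 0 :=
      Ideal.Quotient.eq_zero_iff_mem.mpr (hg 1)
    have g2 : π (MvPowerSeries.X (Sum.inl (j, false, 1, 0))) = 0 :=
      Ideal.Quotient.eq_zero_iff_mem.mpr (hg 2)
    have hb0 : algebraMap O (PSR J τ O ⧸ 𝔭) (S j).b₀ = 0 :=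
      hmk 𝔭 hm _ (by have := hc j; rwa [hty] at this)
    have e1 := univPair_map_fst (S := S) π j
    have e2 := univPair_map_snd (S := S) π j
    intro s a b
    refine Ideal.Quotient.eq_zero_iff_mem.mp ?_
    show π _ = 0
    cases s
    · have g3 : π (MvPowerSeries.X (Sum.inl (j, false, 1, 1))) = 0 := by
        rw [e1, Matrix.det_fin_two] at hd
        simp [familyOf, centreCfg, Site.centre, upT, g0, g1, g2] at hd
        have hs := congrArg (algebraMap O (PSR J τ O ⧸ 𝔭)) (S j).sgn_sq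
        rw [map_mul, map_one] at hs
        have hq : IsUnit (algebraMap O (PSR J τ O ⧸ 𝔭) (((S j).q : O) * (S j).sgn)) :=
          ((S j).q_unit.mul (IsUnit.of_mul_eq_one _ (S j).sgn_sq)).map _
        rw [map_mul, map_natCast] at hq
        refine hq.mul_right_eq_zero.mp ?_
        linear_combination hd - ((S j).q : PSR J τ O ⧸ 𝔭) * hs
      fin_cases a <;> fin_cases b
      · exact g0
      · exact g1
      · exact g2
      · exact g3
    · rw [e2] at hS
      have := congrFun (congrFun hS a) b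
      simp [familyOf, centreCfg, Site.centre, upT] at this
      fin_cases a <;> fin_cases b <;> simpa [hb0] using this
  -- special components
  set M := frameA (S j) (c j) (univPair S τ j) with hM
  set N := frameN (S j) (c j) (univPair S τ j) with hN
  set y₁ := algebraMap O (PSR J τ O) ((S j).corner (c j))
  set b₁ := algebraMap O (PSR J τ O) ((S j).mono (c j))
  set γ := algebraMap O (PSR J τ O) ((S j).gap (c j))
  obtain ⟨rM, rN⟩ := frame_of_centre h2 hc
    (fun a ha => hmk _ hmP a ha) hty ρ hρ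
  have inm : ∀ x, ρ x = 0 → x ∈ maximalIdeal (PSR J τ O) := fun x h =>
    Ideal.Quotient.eq_zero_iff_mem.mp h
  have rM' : ∀ a b, ρ (M a b) = _ := fun a b => congrFun (congrFun rM a) b
  have rN' : ∀ a b, ρ (N a b) = _ := fun a b => congrFun (congrFun rN a) b
  -- it suffices to find the centre in the frame
  have suff : ∀ 𝔭 : Ideal (PSR J τ O), (maximalIdeal O).map (algebraMap O (PSR J τ O)) ≤ 𝔭 →
      (M.map (Ideal.Quotient.mkₐ O 𝔭) = !![Ideal.Quotient.mkₐ O 𝔭 γ, Ideal.Quotient.mkₐ O 𝔭 y₁; 0, 0] ∧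
        N.map (Ideal.Quotient.mkₐ O 𝔭) = !![0, Ideal.Quotient.mkₐ O 𝔭 b₁; 0, 0]) →
      ∀ s a b, MvPowerSeries.X (Sum.inl (j, s, a, b)) ∈ 𝔭 := by
    intro 𝔭 hm ⟨h1, h2'⟩
    let π := Ideal.Quotient.mkₐ O 𝔭
    have hp : ((univPair S τ j).1.map π, (univPair S τ j).2.map π) =
        centreCfg S (PSR J τ O ⧸ 𝔭) j := by
      rw [← chartPair_centre h2 hc (hmk 𝔭 hm)]
      refine frame_injective (σ := S j) (ty := c j) ?_ ?_
      · rw [← map_frameA, frameA_chartPair hty, ← hM, h1]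
        simp [γ, y₁]
      · rw [← map_frameN, frameN_chartPair hty, ← hN, h2']
        simp [b₁]
    rw [univPair_map] at hp
    obtain ⟨e1, e2⟩ := Prod.ext_iff.mp hp
    intro s a b
    refine Ideal.Quotient.eq_zero_iff_mem.mp ?_
    cases s
    · simpa [familyOf, π] using congrFun (congrFun e1 a) b
    · simpa [familyOf, π] using congrFun (congrFun e2 a) b
  have rel : ∀ 𝔭 : Ideal (PSR J τ O), kernel S τ c ≤ 𝔭 →
      FrameRel (Ideal.Quotient.mkₐ O 𝔭 γ) (M.map (Ideal.Quotient.mkₐ O 𝔭))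
        (N.map (Ideal.Quotient.mkₐ O 𝔭)) := fun 𝔭 hk => by
    rw [AlgHom.commutes]
    exact frameRel_of_kernel_le h2 hc hty _ fun x hx => Ideal.Quotient.eq_zero_iff_mem.mpr (hk hx)
  -- monodromy at a prime where `Σ` is central
  have hNzero : ∀ 𝔭 : Ideal (PSR J τ O), (maximalIdeal O).map (algebraMap O (PSR J τ O)) ≤ 𝔭 →
      (S j).b₀ ∈ maximalIdeal O →
      (∀ a b, MvPowerSeries.X (Sum.inl (j, true, a, b)) ∈ 𝔭) → ∀ a b, N a b ∈ 𝔭 := by
    intro 𝔭 hm hb hX
    let π := Ideal.Quotient.mkₐ O 𝔭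
    have h1 : (univPair S τ j).2.map π = 1 := by
      rw [univPair_map_snd]
      have hb' := hmk 𝔭 hm _ hb
      have hX' : ∀ a b, π (MvPowerSeries.X (Sum.inl (j, true, a, b))) = 0 := fun a b =>
        Ideal.Quotient.eq_zero_iff_mem.mpr (hX a b)
      ext a b
      fin_cases a <;> fin_cases b <;> simp [familyOf, centreCfg, Site.centre, upT, hX', hb']
    have h2' : N.map π = 0 := by
      rw [hN, map_frameN, frameN]
      simp only [h1, cj_one', sub_self]
    intro a b
    exact Ideal.Quotient.eq_zero_iff_mem.mp (congrFun (congrFun h2' a) b)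
  have b₁mem : ∀ 𝔭 : Ideal (PSR J τ O), (maximalIdeal O).map (algebraMap O (PSR J τ O)) ≤ 𝔭 →
      (S j).mono (c j) ∈ maximalIdeal O → b₁ ∈ 𝔭 := fun 𝔭 hm h =>
    hm (Ideal.mem_map_of_mem _ h)
  by_cases hy : (S j).corner (c j) ∈ maximalIdeal O
  swap
  · refine ⟨![M 0 1 - y₁, M 0 0 - γ, N 0 1 - b₁], fun i => inm _ ?_,
      fun 𝔭 h𝔭 hk hm => ⟨fun hg => suff 𝔭 hm ?_, fun hcj hb hX => ?_⟩⟩
    · fin_cases i <;> simp [rM', rN', γ, y₁, b₁, AlgHom.commutes]
    · have hz := fun i => Ideal.Quotient.eq_zero_iff_mem.mpr (hg i)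
      refine (rel 𝔭 hk).centre_of_corner_ne (hunit 𝔭 h𝔭 _ hy) ?_ ?_ ?_
      · simpa [sub_eq_zero] using hz 0
      · simpa [sub_eq_zero] using hz 1
      · simpa [sub_eq_zero] using hz 2
    · show N 0 1 - b₁ ∈ 𝔭
      exact sub_mem (hNzero 𝔭 hm hb hX 0 1) (b₁mem 𝔭 hm (by rw [hcj]; exact hb))
  have hy0 : ρ y₁ = 0 := Ideal.Quotient.eq_zero_iff_mem.mpr (hmP (Ideal.mem_map_of_mem _ hy))
  by_cases hbm : (S j).mono (c j) ∈ maximalIdeal O
  swap
  · refine ⟨![M 0 1 - y₁, N 0 0, N 0 1 - b₁], fun i => inm _ ?_,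
      fun 𝔭 h𝔭 hk hm => ⟨fun hg => suff 𝔭 hm ?_, fun hcj hb _ => absurd (by rw [hcj]; exact hb) hbm⟩⟩
    · fin_cases i <;> simp [rM', rN', y₁, b₁, AlgHom.commutes]
    · have hz := fun i => Ideal.Quotient.eq_zero_iff_mem.mpr (hg i)
      refine (rel 𝔭 hk).centre_of_mono_ne (hunit 𝔭 h𝔭 _ hbm) ?_ ?_ ?_
      · simpa [sub_eq_zero] using hz 0
      · simpa [sub_eq_zero] using hz 2
      · simpa using hz 1
  have hb0 : ρ b₁ = 0 := Ideal.Quotient.eq_zero_iff_mem.mpr (hmP (Ideal.mem_map_of_mem _ hbm))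
  have zy : ∀ 𝔭 : Ideal (PSR J τ O), (maximalIdeal O).map (algebraMap O (PSR J τ O)) ≤ 𝔭 →
      Ideal.Quotient.mkₐ O 𝔭 y₁ = 0 ∧ Ideal.Quotient.mkₐ O 𝔭 b₁ = 0 := fun 𝔭 hm =>
    ⟨Ideal.Quotient.eq_zero_iff_mem.mpr (hm (Ideal.mem_map_of_mem _ hy)),
      Ideal.Quotient.eq_zero_iff_mem.mpr (hm (Ideal.mem_map_of_mem _ hbm))⟩
  have hM01 : ρ (M 0 1) = 0 := by rw [rM' 0 1]; simpa [y₁, AlgHom.commutes] using hy0
  have hN01 : ρ (N 0 1) = 0 := by rw [rN' 0 1]; simpa [b₁, AlgHom.commutes] using hb0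
  by_cases hγ : (S j).gap (c j) ∈ maximalIdeal O
  swap
  · refine ⟨![M 0 1, M 1 0, N 0 1], fun i => inm _ ?_,
      fun 𝔭 h𝔭 hk hm => ⟨fun hg => suff 𝔭 hm ?_, fun hcj hb hX => hNzero 𝔭 hm hb hX 0 1⟩⟩
    · fin_cases i
      · exact hM01
      · simp [rM']
      · exact hN01
    · have hz := fun i => Ideal.Quotient.eq_zero_iff_mem.mpr (hg i)
      rw [(zy 𝔭 hm).1, (zy 𝔭 hm).2]
      refine (rel 𝔭 hk).centre_of_gap_ne (hunit 𝔭 h𝔭 _ hγ) ?_ ?_ ?_ ?_
      · intro h00
        have : M 0 0 ∈ maximalIdeal _ :=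
          IsLocalRing.le_maximalIdeal h𝔭.ne_top (Ideal.Quotient.eq_zero_iff_mem.mp h00)
        have := (rM' 0 0).symm.trans (Ideal.Quotient.eq_zero_iff_mem.mpr this)
        exact hunit _ (IsLocalRing.maximalIdeal.isMaximal _).isPrime _ hγ (by simpa using this)
      · simpa using hz 0
      · simpa using hz 2
      · simpa using hz 1
  · refine ⟨![M 0 1, M 1 0 + N 0 1, N 1 0], fun i => inm _ ?_,
      fun 𝔭 h𝔭 hk hm => ⟨fun hg => suff 𝔭 hm ?_, fun hcj hb hX => hNzero 𝔭 hm hb hX 1 0⟩⟩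
    · fin_cases i
      · exact hM01
      · simp [rM', hN01]
      · simp [rN']
    · have hz := fun i => Ideal.Quotient.eq_zero_iff_mem.mpr (hg i)
      rw [(zy 𝔭 hm).1, (zy 𝔭 hm).2]
      refine (rel 𝔭 hk).centre_of_zero
        (Ideal.Quotient.eq_zero_iff_mem.mpr (hm (Ideal.mem_map_of_mem _ hγ))) ?_ ?_ ?_
      · simpa using hz 0
      · simpa using hz 1
      · simpa using hz 2

end Fermat.Agent.Lifting.Algebra
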