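import Fermat.Agent.RT.Patch.Support
import Mathlib.LinearAlgebra.Matrix.Adjugate
import Mathlib.RingTheory.Localization.AtPrime.Basic
import Mathlib.RingTheory.Ideal.MinimalPrime.Localization

/-!
# Supports of patched modules and the flip lemma

Everything is phrased with annihilators: a module vanishes at a prime `𝔔` when its annihilator
is not contained in `𝔔`, and a component `V(K)` is hit when the annihilator is contained in `K`.
-/

set_option autoImplicit false

open Module

namespace Fermat.Agent.Lifting.Algebra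

section Support

variable {S : Type*} [CommRing S] [IsDomain S] [IsLocalRing S] [IsNoetherianRing S]
  {P : Type*} [CommRing P]
  {X : Type*} [AddCommGroup X] [Module S X] [Module P X]
  [Module.Finite S X] [Module.Free S X] [SMulCommClass S P X]

/-- The support of a module which is finite free over `S` and killed by candidates of dimension at
most that of `S` consists of whole candidates. -/
theorem exists_hit_le (φ : S →+* P) (hφ : ∀ (s : S) (x : X), φ s • x = s • x)
    {ι : Type*} (T : Finset ι) (K : ι → Ideal P) (hKp : ∀ i ∈ T, (K i).IsPrime)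
    (hK : ∀ i ∈ T, ∃ ψ : S →+* P ⧸ K i, ψ.IsIntegral)
    (hsupp : (∏ i ∈ T, K i) ≤ Module.annihilator P X)
    {𝔔 : Ideal P} (h𝔔 : 𝔔.IsPrime) (hQ : Module.annihilator P X ≤ 𝔔) :
    ∃ i ∈ T, Module.annihilator P X ≤ K i ∧ K i ≤ 𝔔 := by
  obtain ⟨Q, hQmin, hQ𝔔⟩ := Ideal.exists_minimalPrimes_le hQ
  have hQp : Q.IsPrime := hQmin.isPrime
  obtain ⟨i, hi, hiQ⟩ := (Ideal.IsPrime.prod_le hQp).1 (hsupp.trans hQmin.le)
  have := hKp i hi
  suffices Q = K i from ⟨i, hi, this ▸ hQmin.le, this ▸ hQ𝔔⟩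
  refine le_antisymm ?_ hiQ
  -- `S → P ⧸ Q` is injective: nonzero scalars are regular on `X`
  have hinj : Function.Injective ((Ideal.Quotient.mk Q).comp φ) := by
    refine (injective_iff_map_eq_zero _).2 fun s hs => by_contra fun hs0 => ?_
    rw [RingHom.comp_apply, Ideal.Quotient.eq_zero_iff_mem] at hs
    refine IsSMulRegular.notMem_of_mem_minimalPrimes (M := X) (fun a b h => ?_) hQmin hs
    have h' : s • a = s • b := by simpa [hφ] using h
    exact smul_right_injective X hs0 h'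
  -- and integral
  have := SMulCommClass.symm S P X
  let e : P →+* Module.End S X :=
    { toFun := fun a =>
        { toFun := fun x => a • x
          map_add' := smul_add a
          map_smul' := fun c x => smul_comm a c x }
      map_one' := by ext; simp
      map_mul' := fun a b => by ext; simp [mul_smul]
      map_zero' := by ext; simp
      map_add' := fun a b => by ext; simp [add_smul] }
  have he : e.comp φ = algebraMap S (Module.End S X) := by
    ext s x
    exact hφ s x
  have hint : ((Ideal.Quotient.mk Q).comp φ).IsIntegral := by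
    intro b
    obtain ⟨b, rfl⟩ := Ideal.Quotient.mk_surjective b
    obtain ⟨q, hq, hq0⟩ := IsIntegral.of_finite S (e b)
    refine ⟨q, hq, ?_⟩
    rw [← Polynomial.hom_eval₂, Ideal.Quotient.eq_zero_iff_mem]
    refine hQmin.le (Module.mem_annihilator.2 fun x => ?_)
    have : e (q.eval₂ φ b) = 0 := by rw [Polynomial.hom_eval₂, he, hq0]
    exact LinearMap.congr_fun this x
  obtain ⟨ψ, hψint⟩ := hK i hi
  let : Algebra S (P ⧸ Q) := ((Ideal.Quotient.mk Q).comp φ).toAlgebra
  have : Algebra.IsIntegral S (P ⧸ Q) := ⟨hint⟩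
  have e1 : ringKrullDim (P ⧸ Q) = ringKrullDim S := RT.Patch.ringKrullDim_eq_of_integral hinj
  -- the same dimension is reached inside `P ⧸ K i`
  let g : P ⧸ K i →+* P ⧸ Q := Ideal.Quotient.factor hiQ
  have hg : Function.Surjective g := Ideal.Quotient.factor_surjective hiQ
  set 𝔭 := RingHom.ker (g.comp ψ) with h𝔭
  have : 𝔭.IsPrime := RingHom.ker_isPrime _
  have hbot : 𝔭 = ⊥ := by
    by_contra hne
    have hlt := RT.Patch.ringKrullDim_quotient_lt hne
    have hint2 : (g.comp ψ).IsIntegral :=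
      RingHom.IsIntegral.trans _ _ hψint (g.isIntegral_of_surjective hg)
    let h : S ⧸ 𝔭 →+* P ⧸ Q := RingHom.kerLift (g.comp ψ)
    have hh : h.comp (Ideal.Quotient.mk 𝔭) = g.comp ψ := RingHom.ext fun s => rfl
    have hint3 : h.IsIntegral :=
      RingHom.IsIntegral.tower_top (Ideal.Quotient.mk 𝔭) h (by rw [hh]; exact hint2)
    let : Algebra (S ⧸ 𝔭) (P ⧸ Q) := h.toAlgebra
    have : Algebra.IsIntegral (S ⧸ 𝔭) (P ⧸ Q) := ⟨hint3⟩
    have e2 : ringKrullDim (P ⧸ Q) = ringKrullDim (S ⧸ 𝔭) :=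
      RT.Patch.ringKrullDim_eq_of_integral (RingHom.kerLift_injective _)
    rw [← e2, e1] at hlt
    exact lt_irrefl _ hlt
  have hQ' : (Q.map (Ideal.Quotient.mk (K i))).comap ψ = ⊥ := by
    rw [← hbot, h𝔭, ← RingHom.comap_ker]
    congr 1
    ext b
    obtain ⟨b, rfl⟩ := Ideal.Quotient.mk_surjective b
    rw [RingHom.mem_ker, Ideal.Quotient.factor_mk, Ideal.Quotient.eq_zero_iff_mem,
      Ideal.mem_quotient_iff_mem hiQ]
  let : Algebra S (P ⧸ K i) := ψ.toAlgebra
  have : Algebra.IsIntegral S (P ⧸ K i) := ⟨hψint⟩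
  have hmap := Ideal.eq_bot_of_comap_eq_bot (R := S) hQ'
  rwa [Ideal.map_eq_bot_iff_le_ker, Ideal.mk_ker] at hmap

/-- If every hit candidate avoids `𝔔`, the module vanishes at `𝔔`. -/
theorem not_annihilator_le_of_forall_hit (φ : S →+* P) (hφ : ∀ (s : S) (x : X), φ s • x = s • x)
    {ι : Type*} (T : Finset ι) (K : ι → Ideal P) (hKp : ∀ i ∈ T, (K i).IsPrime)
    (hK : ∀ i ∈ T, ∃ ψ : S →+* P ⧸ K i, ψ.IsIntegral)
    (hsupp : (∏ i ∈ T, K i) ≤ Module.annihilator P X)
    {𝔔 : Ideal P} (h𝔔 : 𝔔.IsPrime)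
    (h : ∀ i ∈ T, Module.annihilator P X ≤ K i → ¬ K i ≤ 𝔔) :
    ¬ Module.annihilator P X ≤ 𝔔 := fun hle => by
  obtain ⟨i, hi, h1, h2⟩ := exists_hit_le φ hφ T K hKp hK hsupp h𝔔 hle
  exact h i hi h1 h2

end Support

section Flip

variable {P : Type*} [CommRing P] {M : Type*} [AddCommGroup M] [Module P M] [Module.Finite P M]
  {𝔔 : Ideal P}

/-- Nakayama at a prime, with annihilators. -/
theorem not_annihilator_le_of_smul_mem (h𝔔 : 𝔔.IsPrime) {c : P} (hc : c ∉ 𝔔)
    (h : ∀ m : M, c • m ∈ 𝔔 • (⊤ : Submodule P M)) : ¬ Module.annihilator P M ≤ 𝔔 := by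
  obtain ⟨q, hqm, hqdeg, hqc, hq0⟩ :=
    LinearMap.exists_monic_and_natDegree_eq_and_coeff_mem_pow_and_aeval_eq_zero P
      (c • (LinearMap.id : M →ₗ[P] M)) 𝔔 (by
        rintro _ ⟨x, rfl⟩
        exact h x)
  intro hann
  have hqann : q.eval c ∈ Module.annihilator P M := by
    refine Module.mem_annihilator.2 fun x => ?_
    have := LinearMap.congr_fun hq0 x
    rw [show (c • (LinearMap.id : M →ₗ[P] M)) = algebraMap P (Module.End P M) c by
      rw [Algebra.algebraMap_eq_smul_one]; rfl, Polynomial.aeval_algebraMap_apply] at this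
    simpa [Polynomial.coe_aeval_eq_eval] using this
  have hcoeff : ∀ j < q.natDegree, q.coeff j ∈ 𝔔 := fun j hj =>
    Ideal.pow_le_self (Nat.sub_ne_zero_of_lt hj) (hqc j)
  have he := q.eval_eq_sum_range (x := c)
  rw [Finset.sum_range_succ, hqm.coeff_natDegree, one_mul] at he
  have hsum : ∑ j ∈ Finset.range q.natDegree, q.coeff j * c ^ j ∈ 𝔔 :=
    sum_mem fun j hj => 𝔔.mul_mem_right _ (hcoeff j (Finset.mem_range.1 hj))
  have := 𝔔.sub_mem (hann hqann) hsum
  rw [he, add_sub_cancel_left] at this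
  exact hc (h𝔔.mem_of_pow_mem _ this)

variable {A : Type*} [AddCommGroup A] [Module P A]

/-- Flip lemma, congruence form: `α : M → A` is surjective at `𝔔`, `β : A → M` is surjective at
`𝔔` and `β ∘ α` vanishes modulo `𝔔`; then `M` vanishes at `𝔔`. -/
theorem not_annihilator_le_of_flip (h𝔔 : 𝔔.IsPrime) (α : M →ₗ[P] A) (β : A →ₗ[P] M)
    {a b : P} (ha : a ∉ 𝔔) (hb : b ∉ 𝔔)
    (hα : ∀ y : A, a • y ∈ LinearMap.range α) (hβ : ∀ m : M, b • m ∈ LinearMap.range β)
    (hc : ∀ m : M, β (α m) ∈ 𝔔 • (⊤ : Submodule P M)) :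
    ¬ Module.annihilator P M ≤ 𝔔 := by
  refine not_annihilator_le_of_smul_mem h𝔔 (c := a * b)
    (fun h => (h𝔔.mem_or_mem h).elim ha hb) fun m => ?_
  obtain ⟨y, hy⟩ := hβ m
  obtain ⟨x, hx⟩ := hα y
  rw [mul_smul, ← hy, ← map_smul, ← hx]
  exact hc x

/-- Flip lemma, determinant form: the composite on `M²` is a `2 × 2` matrix over `P` whose
determinant lies in `𝔔`. -/
theorem not_annihilator_le_of_flip_det (h𝔔 : 𝔔.IsPrime) (α : (Fin 2 → M) →ₗ[P] A)
    (β : A →ₗ[P] (Fin 2 → M)) (C : Matrix (Fin 2) (Fin 2) P) (hC : C.det ∈ 𝔔)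
    {a b : P} (ha : a ∉ 𝔔) (hb : b ∉ 𝔔)
    (hα : ∀ y : A, a • y ∈ LinearMap.range α)
    (hβ : ∀ m : Fin 2 → M, b • m ∈ LinearMap.range β)
    (hc : ∀ m : Fin 2 → M, ∀ i, β (α m) i = ∑ j, C i j • m j) :
    ¬ Module.annihilator P M ≤ 𝔔 := by
  set N : Submodule P M := 𝔔 • ⊤ with hN
  -- `a * b` times anything is in the image of `C`
  have himg : ∀ m : Fin 2 → M, ∃ x : Fin 2 → M, ∀ i, ∑ j, C i j • x j = (a * b) • m i := by
    intro m
    obtain ⟨y, hy⟩ := hβ m
    obtain ⟨x, hx⟩ := hα y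
    refine ⟨x, fun i => ?_⟩
    rw [← hc, hx, map_smul, hy, Pi.smul_apply, Pi.smul_apply, smul_smul]
  have hent : ∀ i j (m : M), ((a * b) * C i j) • m ∈ N := by
    intro i j m
    have key : ∀ n : Fin 2 → M, ∀ i, (a * b) • ∑ j, C.adjugate i j • n j ∈ N := by
      intro n i
      obtain ⟨x, hx⟩ := himg n
      have e : (a * b) • ∑ j, C.adjugate i j • n j = C.det • x i := by
        rw [Finset.smul_sum]
        calc ∑ j, (a * b) • C.adjugate i j • n j
            = ∑ j, C.adjugate i j • ∑ l, C j l • x l :=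
              Finset.sum_congr rfl fun j _ => by rw [hx, smul_comm]
          _ = ∑ l, (C.adjugate * C) i l • x l := by
              simp only [Finset.smul_sum, smul_smul, Matrix.mul_apply, Finset.sum_smul]
              exact Finset.sum_comm
          _ = C.det • x i := by
              simp [Matrix.adjugate_mul, Matrix.smul_apply, Matrix.one_apply]
      rw [e]
      exact Submodule.smul_mem_smul hC trivial
    have hadj : ∀ k l (m : M), ((a * b) * C.adjugate k l) • m ∈ N := fun k l m => by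
      simpa [Finset.smul_sum, smul_smul, Pi.single_apply] using key (Pi.single l m) k
    rw [Matrix.adjugate_fin_two] at hadj
    fin_cases i <;> fin_cases j
    · simpa using hadj 1 1 m
    · simpa using hadj 0 1 m
    · simpa using hadj 1 0 m
    · simpa using hadj 0 0 m
  refine not_annihilator_le_of_smul_mem h𝔔 (c := (a * b) * (a * b)) ?_ fun m => ?_
  · exact fun h => ((h𝔔.mem_or_mem h).elim id id |> h𝔔.mem_or_mem).elim ha hb
  · obtain ⟨x, hx⟩ := himg fun _ => m
    rw [mul_smul, ← hx 0, Finset.smul_sum]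
    exact sum_mem fun j _ => by rw [smul_smul]; exact hent 0 j _

end Flip

end Fermat.Agent.Lifting.Algebra
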