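import Fermat.Agent.RT.Patch.IntegralDim
import Fermat.Prelude.Thm_IsAdicComplete_of_module_finite
import Mathlib.RingTheory.AdicCompletion.Functoriality
import Mathlib.RingTheory.AdicCompletion.RingHom
import Mathlib.RingTheory.Ideal.Quotient.Index
import Mathlib.RingTheory.Ideal.KrullsHeightTheorem
import Mathlib.RingTheory.Noetherian.Basic
import Mathlib.Algebra.BigOperators.Finsupp.Basic

/-!
# Finiteness over a complete local ring, and bounds for the dimension
-/

set_option autoImplicit false

noncomputable section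

namespace Fermat.Agent.Lifting.Algebra

open IsLocalRing

section Finite

variable {S P : Type} [CommRing S] [IsLocalRing S] [IsNoetherianRing S]
  [IsAdicComplete (maximalIdeal S) S] [CommRing P] [IsLocalRing P] [IsNoetherianRing P]
  [Finite (ResidueField P)]

/-- `P ⧸ K` is finite over the complete ring `S` when the closed point is the only prime
containing `K` and the image of the maximal ideal of `S`. -/
theorem finite_mk_comp_of_forall_prime (φ : S →+* P)
    (hφ : (maximalIdeal S).map φ ≤ maximalIdeal P) (K : Ideal P)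
    (h : ∀ 𝔭 : Ideal P, 𝔭.IsPrime → K ≤ 𝔭 → (maximalIdeal S).map φ ≤ 𝔭 →
      maximalIdeal P ≤ 𝔭) :
    ((Ideal.Quotient.mk K).comp φ).Finite := by
  classical
  letI : Algebra S P := φ.toAlgebra
  set J := K ⊔ (maximalIdeal S).map φ with hJ
  have hrad : maximalIdeal P ≤ J.radical := by
    rw [Ideal.radical_eq_sInf]
    refine le_sInf fun 𝔭 h𝔭 => h 𝔭 h𝔭.2 ?_ ?_
    · exact le_sup_left.trans h𝔭.1
    · exact le_sup_right.trans h𝔭.1
  obtain ⟨N, hN⟩ := Ideal.exists_pow_le_of_le_radical_of_fg hrad (IsNoetherian.noetherian _)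
  have : Finite (P ⧸ maximalIdeal P) := inferInstanceAs (Finite (ResidueField P))
  have := Ideal.finite_quotient_pow (IsNoetherian.noetherian (maximalIdeal P)) N
  -- representatives
  let rep : (P ⧸ maximalIdeal P ^ N) → P ⧸ K := fun x => Ideal.Quotient.mk K x.out
  have : Fintype (P ⧸ maximalIdeal P ^ N) := Fintype.ofFinite _
  let f : ((P ⧸ maximalIdeal P ^ N) → S) →ₗ[S] P ⧸ K := Fintype.linearCombination S rep
  have : IsPrecomplete (maximalIdeal S) ((P ⧸ maximalIdeal P ^ N) → S) :=
    (IsAdicComplete.of_module_finite (maximalIdeal S) _).toIsPrecomplete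
  have : IsHausdorff (maximalIdeal S) (P ⧸ K) := by
    refine IsHausdorff.map_algebraMap_iff (S := P).mp (IsHausdorff.of_isLocalRing _ (P ⧸ K) ?_)
    exact ne_top_of_le_ne_top (IsLocalRing.maximalIdeal.isMaximal P).ne_top hφ
  have hsurj : Function.Surjective f := by
    refine surjective_of_mkQ_comp_surjective (I := maximalIdeal S) fun q => ?_
    obtain ⟨q', rfl⟩ := Submodule.mkQ_surjective _ q
    obtain ⟨p, rfl⟩ := Ideal.Quotient.mk_surjective q'
    refine ⟨Pi.single (Ideal.Quotient.mk _ p) 1, ?_⟩
    have hmem : (Ideal.Quotient.mk (maximalIdeal P ^ N) p).out - p ∈ J := hN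
      (Ideal.Quotient.eq.mp (Quotient.out_eq _))
    rw [LinearMap.comp_apply, Submodule.mkQ_apply, Submodule.mkQ_apply, Submodule.Quotient.eq,
      Ideal.smul_top_eq_map, Submodule.restrictScalars_mem,
      IsScalarTower.algebraMap_eq S P (P ⧸ K), ← Ideal.map_map]
    have : f (Pi.single (Ideal.Quotient.mk (maximalIdeal P ^ N) p) 1) =
        rep (Ideal.Quotient.mk (maximalIdeal P ^ N) p) := by
      simp [f, Fintype.linearCombination_apply_single]
    rw [this, ← map_sub]
    obtain ⟨a, ha, b, hb, hab⟩ := Submodule.mem_sup.mp hmem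
    rw [← hab, map_add, Ideal.Quotient.eq_zero_iff_mem.mpr ha, zero_add]
    exact Ideal.mem_map_of_mem _ hb
  have hfin : Module.Finite S (P ⧸ K) := Module.Finite.of_surjective f hsurj
  show RingHom.Finite (algebraMap S (P ⧸ K))
  exact RingHom.finite_algebraMap.mpr hfin

end Finite

section Dimension

/-- A finite extension of a local ring whose maximal ideal is generated modulo the kernel by `x`
has dimension at most the number of generators. -/
theorem ringKrullDim_le_card_of_finite {S A : Type} [CommRing S] [IsLocalRing S]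
    [IsNoetherianRing S] [CommRing A] [Nontrivial A] {φ : S →+* A} (hφ : φ.Finite) {ι : Type}
    [Finite ι] (x : ι → S) (hxm : ∀ i, x i ∈ maximalIdeal S)
    (hx : maximalIdeal S ≤ RingHom.ker φ ⊔ Ideal.span (Set.range x)) :
    ringKrullDim A ≤ (Nat.card ι : ℕ) := by
  let B := S ⧸ RingHom.ker φ
  have : Nontrivial B := Ideal.Quotient.nontrivial_iff.mpr (RingHom.ker_ne_top φ)
  have : IsLocalRing B := IsLocalRing.of_surjective' _ Ideal.Quotient.mk_surjective
  letI : Algebra B A := φ.kerLift.toAlgebra
  have hint : Algebra.IsIntegral B A := by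
    constructor
    have h : ((algebraMap B A).comp (Ideal.Quotient.mk (RingHom.ker φ))).IsIntegral :=
      hφ.to_isIntegral
    exact RingHom.IsIntegral.tower_top _ _ h
  rw [RT.Patch.ringKrullDim_eq_of_integral (A := B) φ.kerLift_injective]
  refine (ringKrullDim_le_spanFinrank_maximalIdeal B).trans ?_
  have hspan : maximalIdeal B = Ideal.span
      (Set.range fun i => Ideal.Quotient.mk (RingHom.ker φ) (x i)) := by
    refine le_antisymm (fun b hb => ?_) (Ideal.span_le.mpr ?_)
    · obtain ⟨s, rfl⟩ := Ideal.Quotient.mk_surjective b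
      have hs : s ∈ maximalIdeal S := fun hu => hb (hu.map (Ideal.Quotient.mk (RingHom.ker φ)))
      have h1 := Ideal.mem_map_of_mem (Ideal.Quotient.mk (RingHom.ker φ)) (hx hs)
      rw [Ideal.map_sup, Ideal.map_quotient_self, bot_sup_eq, Ideal.map_span, ← Set.range_comp] at h1
      exact h1
    · rintro _ ⟨i, rfl⟩
      have := IsLocalHom.of_surjective (Ideal.Quotient.mk (RingHom.ker φ))
        Ideal.Quotient.mk_surjective
      exact map_nonunit (Ideal.Quotient.mk (RingHom.ker φ)) _ (hxm i)
  cases nonempty_fintype ι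
  rw [hspan]
  refine Nat.cast_le.mpr ((Submodule.spanFinrank_span_le_ncard_of_finite (Set.finite_range _)).trans
    ?_)
  rw [← Nat.card_coe_set_eq]
  exact Finite.card_range_le _

/-- A strictly increasing kill-one-variable chain bounds the dimension from below. -/
theorem card_le_krullDim {α : Type} [Preorder α] {V : Type} [Finite V] [DecidableEq V]
    (p : Finset V → α) (Good : Finset V → Prop) (h0 : Good ∅)
    (h : ∀ K : Finset V, Good K → (∃ v, v ∉ K) →
      ∃ i ∉ K, Good (insert i K) ∧ p K < p (insert i K)) :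
    ((Nat.card V : ℕ) : WithBot ℕ∞) ≤ Order.krullDim α := by
  cases nonempty_fintype V
  suffices key : ∀ (n : ℕ) (K : Finset V), Good K → Kᶜ.card = n →
      ∃ l : LTSeries α, l.head = p K ∧ l.length = n by
    obtain ⟨l, -, hl⟩ := key (Fintype.card V) ∅ h0 (by simp)
    rw [Nat.card_eq_fintype_card, ← hl]
    exact Order.LTSeries.length_le_krullDim l
  intro n
  induction n with
  | zero => exact fun K _ _ => ⟨RelSeries.singleton _ (p K), rfl, rfl⟩
  | succ n ih =>
    intro K hG hK
    obtain ⟨v, hv⟩ : ∃ v, v ∈ Kᶜ := Finset.card_pos.mp (by omega)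
    obtain ⟨i, hi, hG', hlt⟩ := h K hG ⟨v, Finset.mem_compl.mp hv⟩
    obtain ⟨l, hl, hn⟩ := ih (insert i K) hG' (by
      rw [Finset.compl_insert, Finset.card_erase_of_mem (Finset.mem_compl.mpr hi), hK]
      rfl)
    exact ⟨l.cons (p K) (hl ▸ hlt), rfl, by simp [hn]⟩

end Dimension

end Fermat.Agent.Lifting.Algebra
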