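import Fermat.Agent.Lifting.Algebra.SiteGens
import Fermat.Agent.Lifting.Algebra.Finite
import Fermat.Agent.RT.Global.FrameRing
import Mathlib.RingTheory.DiscreteValuationRing.Basic
import Mathlib.RingTheory.MvPowerSeries.Equiv

/-!
# Finiteness of a component over power series in local coordinates
-/

set_option autoImplicit false
set_option linter.unusedSectionVars false

noncomputable section

namespace Fermat.Agent.Lifting.Algebra

open IsLocalRing Fermat.Agent.RT.LocalRing Fermat.Agent.Deformation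

variable {O : Type} [CommRing O] [IsLocalRing O] [IsNoetherianRing O]
  [IsAdicComplete (maximalIdeal O) O] [Finite (ResidueField O)]
  {J τ : Type} [Finite J] [Finite τ] {S : J → Site O} {c : J → Ty}

theorem finite_residueField_psr {σ : Type} [Finite σ] :
    Finite (ResidueField (MvPowerSeries σ O)) := by
  have : IsLocalHom (algebraMap O (MvPowerSeries σ O)) := isLocalHom_algebraMap_mv
  refine Finite.of_surjective (ResidueField.map (algebraMap O (MvPowerSeries σ O))) fun z => ?_
  obtain ⟨f, rfl⟩ := residue_surjective z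
  obtain ⟨a, ha⟩ := RT.residue_surjective_mvPowerSeries (σ := σ) (R := O) (L := O)
    (fun x => residue_surjective x) (residue _ f)
  exact ⟨residue O a, by rw [← ha]; rfl⟩

/-- The maximal ideal is contained in an ideal containing the maximal ideal of `O` and the
variables. -/
theorem maximalIdeal_le_of_X_mem {σ : Type} [Finite σ] (I : Ideal (MvPowerSeries σ O))
    (hm : (maximalIdeal O).map (algebraMap O (MvPowerSeries σ O)) ≤ I)
    (hX : ∀ i, MvPowerSeries.X i ∈ I) : maximalIdeal (MvPowerSeries σ O) ≤ I :=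
  (RT.maximalIdeal_mvPowerSeries (σ := σ) (R := O)).trans
    (sup_le (Ideal.span_le.mpr (by rintro _ ⟨i, rfl⟩; exact hX i)) hm)

theorem exists_finite_kernel' (h2 : IsUnit (2 : O)) (hc : ∀ j, (S j).Allowed (c j)) :
    ∃ ψ : MvPowerSeries ((J × Fin 3) ⊕ τ) O →ₐ[O] PSR J τ O,
      ((Ideal.Quotient.mk (kernel S τ c)).comp ψ.toRingHom).Finite := by
  choose g hg hsite using exists_siteGens (τ := τ) h2 hc
  have := mvPowerSeries_isAdicComplete (O := O) (σ := Idx J τ)
  have := mvPowerSeries_isAdicComplete (O := O) (σ := (J × Fin 3) ⊕ τ)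
  have := isLocalHom_algebraMap_psr (J := J) (τ := τ) (O := O)
  have := finite_residueField_psr (O := O) (σ := Idx J τ)
  obtain ⟨ψ, hψ⟩ := RT.exists_eval (L := O) (R := PSR J τ O) (σ := (J × Fin 3) ⊕ τ)
    (Sum.elim (fun i => g i.1 i.2) fun t => MvPowerSeries.X (Sum.inr t)) (by
      rintro (⟨j, i⟩ | t)
      · exact hg j i
      · exact X_mem_maximalIdeal _)
  refine ⟨ψ, finite_mk_comp_of_forall_prime _ ?_ _ fun 𝔭 h𝔭 hk hmap => ?_⟩
  · rw [Ideal.map_le_iff_le_comap]
    refine maximalIdeal_le_of_X_mem _ ?_ fun i => ?_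
    · rw [Ideal.map_le_iff_le_comap]
      intro a ha
      show ψ (algebraMap O _ a) ∈ maximalIdeal _
      rw [ψ.commutes]
      exact map_nonunit (algebraMap O (PSR J τ O)) a ha
    · show ψ (MvPowerSeries.X i) ∈ maximalIdeal _
      rw [hψ]
      rcases i with ⟨j, i⟩ | t
      · exact hg j i
      · exact X_mem_maximalIdeal _
  · have hX : ∀ i, Sum.elim (fun i : J × Fin 3 => g i.1 i.2) (fun t => MvPowerSeries.X (Sum.inr t)) i ∈ 𝔭 :=
      fun i => hψ i ▸ hmap (Ideal.mem_map_of_mem _ (by
        rw [RT.mem_maximalIdeal_mvPowerSeries, MvPowerSeries.constantCoeff_X]; exact zero_mem _))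
    have hm : (maximalIdeal O).map (algebraMap O (PSR J τ O)) ≤ 𝔭 := by
      rw [Ideal.map_le_iff_le_comap]
      intro a ha
      show algebraMap O _ a ∈ 𝔭
      rw [← ψ.commutes]
      exact hmap (Ideal.mem_map_of_mem _ (map_nonunit
        (algebraMap O (MvPowerSeries ((J × Fin 3) ⊕ τ) O)) a ha))
    refine maximalIdeal_le_of_X_mem 𝔭 hm ?_
    rintro (⟨j, s, a, b⟩ | t)
    · exact (hsite j 𝔭 h𝔭 hk hm).1 (fun i => hX (Sum.inl (j, i))) s a b
    · exact hX (Sum.inr t)

end Fermat.Agent.Lifting.Algebra
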