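import Fermat.Agent.RT.LocalRing.Triangular
import Mathlib.Tactic.Ring

/-!
# Triangular forms of pairs `Φ Σ = Σ^q Φ` with unipotent `Σ`
-/

set_option autoImplicit false

namespace Fermat.Agent.Lifting.Algebra

open Matrix IsLocalRing Fermat.Agent.RT.LocalRing

section Basic

variable {R : Type*} [CommRing R]

theorem sub_one_sq {M : Mat R} (hd : M.det = 1) (ht : M.trace = 2) : (M - 1) * (M - 1) = 0 := by
  have h := shift_sq (S := M) (z := 1) (z' := 1) (by rw [ht]; ring) (by rw [hd]; ring)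
  simpa using h

theorem pow_eq_one_add_smul {M : Mat R} (hd : M.det = 1) (ht : M.trace = 2) (n : ℕ) :
    M ^ n = 1 + (n : R) • (M - 1) := by
  induction n with
  | zero => simp
  | succ n ih =>
    have hM : M = 1 + (M - 1) := by abel
    rw [pow_succ, ih]
    nth_rewrite 2 [hM]
    rw [mul_add, mul_one, add_mul, one_mul, smul_mul_assoc, sub_one_sq hd ht, smul_zero, add_zero,
      Nat.cast_succ, add_smul, one_smul, add_assoc]

theorem cj_one' (g : (Mat R)ˣ) : cj g (1 : Mat R) = 1 := by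
  have := cj_smul_one g (1 : R)
  simpa using this

theorem upT_one : upT (1 : R) 1 0 = 1 := by
  ext a b; fin_cases a <;> fin_cases b <;> simp [upT]

theorem upT_scalar (w : R) : upT w w 0 = w • (1 : Mat R) := by
  ext a b; fin_cases a <;> fin_cases b <;> simp [upT]

theorem cj_uU_upT (e w w' y : R) : cj (uU e) (upT w w' y) = upT w w' (y + e * (w' - w)) := by
  ext i j
  fin_cases i <;> fin_cases j <;> simp [cj, uU, upT, Matrix.mul_apply, Fin.sum_univ_two]
  ring

theorem cj_uD_upT (d₁ d₂ : Rˣ) (w w' y : R) :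
    cj (uD d₁ d₂) (upT w w' y) = upT w w' ((d₁ : R) * y * ((d₂⁻¹ : Rˣ) : R)) := by
  ext i j
  fin_cases i <;> fin_cases j <;>
    simp [cj, uD, upT, Matrix.mul_apply, Fin.sum_univ_two, mul_comm, mul_assoc, mul_left_comm]

theorem cj_uL_upT (u w w' y : R) :
    cj (uL u) (upT w w' y) =
      !![w - u * y, y; u * (w - w') - u * u * y, w' + u * y] := by
  ext i j
  fin_cases i <;> fin_cases j <;> simp [cj, uL, upT, Matrix.mul_apply, Fin.sum_univ_two] <;> ring

/-- The basis with lines `(v, 1)` and `(-1, 0)`. -/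
def uV (v : R) : (Mat R)ˣ where
  val := !![v, -1; 1, 0]
  inv := !![0, 1; -1, v]
  val_inv := by ext i j; fin_cases i <;> fin_cases j <;> simp [Matrix.mul_apply, Fin.sum_univ_two]
  inv_val := by ext i j; fin_cases i <;> fin_cases j <;> simp [Matrix.mul_apply, Fin.sum_univ_two]

theorem cj_uV_upT (v w w' y : R) :
    cj (uV v) (upT w w' y) =
      !![w' - v * y, v * (w - w') + v * v * y; -y, w + v * y] := by
  ext i j
  fin_cases i <;> fin_cases j <;> simp [cj, uV, upT, Matrix.mul_apply, Fin.sum_univ_two] <;> ring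

end Basic

section DVR

variable {V : Type*} [CommRing V] [IsDomain V] [IsDiscreteValuationRing V]

theorem eq_upT_of_conj {M : Mat V} {g : (Mat V)ˣ} {w w' b : V}
    (h : cj g⁻¹ M = upT w w' b) : M = cj g (upT w w' b) := by
  rw [← h, ← cj_mul, mul_inv_cancel, cj_one]

/-- A nontrivial unipotent with `Φ Σ = Σ^q Φ`, `det Φ = q` is triangular, with Frobenius
eigenvalues `q t, t` and `t = ±1`. -/
theorem exists_form_of_ne_one {q : ℕ} (hq : (q : V) ≠ 0) {F M : Mat V}
    (hrel : F * M = M ^ q * F) (hdet : F.det = (q : V)) (hMd : M.det = 1) (hMt : M.trace = 2)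
    (hM : M ≠ 1) :
    ∃ (g : (Mat V)ˣ) (t y b : V), t * t = 1 ∧ F = cj g (upT ((q : V) * t) t y) ∧
      M = cj g (upT 1 1 b) := by
  obtain ⟨k, hk⟩ : ∃ k, (M - 1) 0 k ≠ 0 ∨ (M - 1) 1 k ≠ 0 := by
    by_contra hcon
    push Not at hcon
    refine hM (sub_eq_zero.mp (Matrix.ext fun i j => ?_))
    fin_cases i
    · exact (hcon j).1
    · exact (hcon j).2
  obtain ⟨g, c, hc, hx, hy⟩ := exists_normalised _ _ hk
  set N := cj g⁻¹ (M - 1) with hN
  set F' := cj g⁻¹ F with hF'
  have hNN : N * N = 0 := by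
    rw [hN, cj_mul_cj, sub_one_sq hMd hMt]; simp [cj]
  have hcol : ∀ i, ((M - 1) * (g : Mat V)) i 0 = 0 := by
    intro i
    refine mul_left_cancel₀ hc ?_
    have h1 := congrFun (congrFun (sub_one_sq hMd hMt) i) k
    rw [Matrix.mul_apply, Fin.sum_univ_two, hx, hy, Matrix.zero_apply] at h1
    rw [mul_zero, Matrix.mul_apply, Fin.sum_univ_two]
    linear_combination h1
  have hN0 : ∀ i, N i 0 = 0 := by
    intro i
    rw [hN, cj, inv_inv, mul_assoc, Matrix.mul_apply]
    simp [hcol]
  have hN11 : N 1 1 = 0 := by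
    have h := trace_cj g⁻¹ (M - 1)
    rw [← hN, Matrix.trace_fin_two, hN0 0, zero_add, Matrix.trace_sub, hMt, Matrix.trace_one] at h
    simpa using h
  have hb : N 0 1 ≠ 0 := fun h0 => hM (sub_eq_zero.mp (by
    have : N = 0 := by
      ext i j
      fin_cases i <;> fin_cases j <;> simp [hN0, hN11, h0]
    have h' : M - 1 = cj g N := by rw [hN, ← cj_mul, mul_inv_cancel, cj_one]
    rw [h', this]; simp [cj]))
  have hrel' : F' * N = (q : V) • (N * F') := by
    rw [hF', hN, cj_mul_cj, cj_mul_cj]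
    have : F * (M - 1) = (q : V) • ((M - 1) * F) := by
      rw [mul_sub, mul_one, hrel, pow_eq_one_add_smul hMd hMt, add_mul, one_mul, smul_mul_assoc]
      abel
    rw [this]
    simp only [cj, mul_smul_comm, smul_mul_assoc]
  have e00 := congrFun (congrFun hrel' 0) 0
  have e01 := congrFun (congrFun hrel' 0) 1
  simp only [Matrix.mul_apply, Fin.sum_univ_two, Matrix.smul_apply, smul_eq_mul, hN0, hN11,
    mul_zero, zero_mul, add_zero, zero_add] at e00 e01
  have hF10 : F' 1 0 = 0 := by
    rcases mul_eq_zero.mp e00.symm with h | h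
    · exact absurd h hq
    · exact (mul_eq_zero.mp h).resolve_left hb
  have hF00 : F' 0 0 = (q : V) * F' 1 1 :=
    mul_right_cancel₀ hb (by linear_combination e01)
  have hsq : F' 1 1 * F' 1 1 = 1 := by
    refine mul_left_cancel₀ hq ?_
    have h := det_cj g⁻¹ F
    rw [← hF', hdet, Matrix.det_fin_two, hF10, hF00, mul_zero, sub_zero] at h
    linear_combination h
  refine ⟨g, F' 1 1, F' 0 1, N 0 1, hsq, eq_upT_of_conj ?_, eq_upT_of_conj ?_⟩
  · rw [← hF']
    ext i j
    fin_cases i <;> fin_cases j <;> simp [upT, hF10, hF00]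
  · have : cj g⁻¹ M = 1 + N := by
      rw [hN, cj_sub, cj_one']; abel
    rw [this]
    ext i j
    fin_cases i <;> fin_cases j <;> simp [upT, hN0, hN11]

/-- The same with the sign prescribed by the trace, allowing `Σ = 1`. -/
theorem exists_form {q : ℕ} (hq : (q : V) ≠ 0) (hq1 : (q : V) ≠ 1) (hqn : (q : V) + 1 ≠ 0)
    {t : V} (ht : t * t = 1) {F M : Mat V}
    (hrel : F * M = M ^ q * F) (hdet : F.det = (q : V)) (hMd : M.det = 1) (hMt : M.trace = 2)
    (htr : F.trace = t * ((q : V) + 1)) :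
    ∃ (g : (Mat V)ˣ) (y b : V), F = cj g (upT ((q : V) * t) t y) ∧ M = cj g (upT 1 1 b) := by
  by_cases hM : M = 1
  · obtain ⟨g, a, a', b, y, hup, -, -⟩ := exists_up (F := (1 : Mat V)) (S := F)
      (z := (q : V) * t) (z' := t)
      (fun h => hq1 (by linear_combination t * h + (1 - (q : V)) * ht))
      (by simp) (by rw [htr]; ring) (by rw [hdet]; linear_combination (-(q : V)) * ht)
    refine ⟨g, b, 0, congrArg Prod.snd hup, ?_⟩
    rw [hM, upT_one, cj_one']
  · obtain ⟨g, t', y, b, -, h1, h2⟩ := exists_form_of_ne_one hq hrel hdet hMd hMt hM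
    have : t' = t := by
      rw [h1, trace_cj, trace_upT] at htr
      exact mul_right_cancel₀ hqn (by linear_combination htr)
    exact ⟨g, y, b, this ▸ h1, h2⟩

end DVR

end Fermat.Agent.Lifting.Algebra
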