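import Fermat.Agent.RT.LocalRing.Eval
import Fermat.Agent.RT.LocalRing.Basic
import Mathlib.RingTheory.PowerSeries.Basic

/-!
# Moving points along polynomial families

If the coordinates of a family of points are polynomials with coefficients in the maximal ideal,
then an element vanishing at the parameters of one residue class vanishes at all parameters.
-/

set_option autoImplicit false

noncomputable section

namespace Fermat.Agent.Lifting.Algebra

open IsLocalRing Fermat.Agent.RT.LocalRing Fermat.Agent.Deformation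

variable {O : Type} [CommRing O] [IsLocalRing O] {ι : Type} [Finite ι]
  {V : Type} [CommRing V] [IsDomain V] [IsDiscreteValuationRing V]
  [IsAdicComplete (maximalIdeal V) V] [Algebra O V] [IsLocalHom (algebraMap O V)]

omit [IsLocalRing O] [Finite ι] [IsDomain V] [IsDiscreteValuationRing V]
  [IsAdicComplete (maximalIdeal V) V] [IsLocalHom (algebraMap O V)] in
theorem algHom_coe_polynomial {A : Type} [CommRing A] [Algebra O A]
    (F : MvPowerSeries ι O →ₐ[O] A) (p : MvPolynomial ι O) :
    F (p : MvPowerSeries ι O) = MvPolynomial.aeval (fun i => F (MvPowerSeries.X i)) p := by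
  induction p using MvPolynomial.induction_on with
  | C a =>
    rw [MvPolynomial.coe_C, MvPolynomial.aeval_C]
    exact F.commutes a
  | add p q hp hq => rw [MvPolynomial.coe_add, map_add, map_add, hp, hq]
  | mul_X p i hp => rw [MvPolynomial.coe_mul, MvPolynomial.coe_X, map_mul, map_mul, hp,
      MvPolynomial.aeval_X]

/-- Vanishing on the maximal ideal propagates to all parameters. -/
theorem eval_eq_zero_of_forall_mem (c : ι → Polynomial V) (hc : ∀ i n, (c i).coeff n ∈ maximalIdeal V)
    (f : MvPowerSeries ι O)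
    (hcl : ∀ t ∈ maximalIdeal V, ∀ F : MvPowerSeries ι O →ₐ[O] V,
      (∀ i, F (MvPowerSeries.X i) = (c i).eval t) → F f = 0)
    (a : V) (F : MvPowerSeries ι O →ₐ[O] V) (hF : ∀ i, F (MvPowerSeries.X i) = (c i).eval a) :
    F f = 0 := by
  classical
  have := mvPowerSeries_isAdicComplete (O := V) (σ := Unit)
  let T : MvPowerSeries Unit V := MvPowerSeries.X ()
  let cV : V →+* MvPowerSeries Unit V := algebraMap V _
  have : IsLocalHom (algebraMap V (MvPowerSeries Unit V)) := ⟨fun v hv => by
    rw [MvPowerSeries.algebraMap_apply, MvPowerSeries.isUnit_iff_constantCoeff,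
      MvPowerSeries.constantCoeff_C] at hv
    simpa using hv⟩
  set 𝔍 : Ideal (MvPowerSeries Unit V) := (maximalIdeal V).map cV with h𝔍
  have h𝔍le : 𝔍 ≤ maximalIdeal (MvPowerSeries Unit V) := Ideal.map_le_iff_le_comap.mpr
    fun v hv => map_nonunit (algebraMap V _) v hv
  let ev : Polynomial V →ₐ[V] MvPowerSeries Unit V := Polynomial.aeval T
  have hcJ : ∀ i, ev (c i) ∈ 𝔍 := fun i => by
    show Polynomial.aeval T (c i) ∈ 𝔍
    rw [Polynomial.aeval_eq_sum_range]
    refine sum_mem fun n _ => ?_
    rw [Algebra.smul_def]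
    exact Ideal.mul_mem_right _ _ (Ideal.mem_map_of_mem _ (hc i n))
  obtain ⟨H, hH⟩ := RT.exists_eval (L := O) (R := MvPowerSeries Unit V) (fun i => ev (c i))
    fun i => h𝔍le (hcJ i)
  have hHf : H f = 0 := by
    obtain ⟨ϖ, hϖ⟩ := IsDiscreteValuationRing.exists_irreducible V
    refine powerSeries_eq_zero_of_eval hϖ (H f) 1 fun k hk E hE => ?_
    refine hcl (ϖ ^ k) ?_ ((E.restrictScalars O).comp H) fun i => ?_
    · rw [hϖ.maximalIdeal_eq, Ideal.mem_span_singleton]
      exact dvd_pow_self ϖ (by omega)
    · rw [AlgHom.comp_apply, hH, AlgHom.restrictScalars_apply]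
      show E (Polynomial.aeval T (c i)) = _
      rw [← Polynomial.aeval_algHom_apply, hE, Polynomial.coe_aeval_eq_eval]
  refine IsHausdorff.haus' (I := maximalIdeal V) (M := V) _ fun n => ?_
  rw [SModEq.zero, smul_eq_mul, Ideal.mul_top]
  -- split `f` as a polynomial and a remainder in a high power of the maximal ideal
  set fn : MvPolynomial ι O := MvPowerSeries.truncTotal n f with hfn
  have hr := sub_truncTotal_mem f n
  have hsplit : f = (f - (fn : MvPowerSeries ι O)) + (fn : MvPowerSeries ι O) := by ring
  have hFm : ∀ i, F (MvPowerSeries.X i) ∈ maximalIdeal V := fun i => by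
    rw [hF, Polynomial.eval_eq_sum_range]
    exact sum_mem fun m _ => Ideal.mul_mem_right _ _ (hc i m)
  have hvar : ∀ {A : Type} [CommRing A] [Algebra O A] (G : MvPowerSeries ι O →ₐ[O] A)
      (I : Ideal A), (∀ i, G (MvPowerSeries.X i) ∈ I) → ∀ z ∈ varsIdeal ι O ^ n, G z ∈ I ^ n := by
    intro A _ _ G I hG z hz
    refine Ideal.pow_right_mono ?_ n (Ideal.map_pow G _ n ▸ Ideal.mem_map_of_mem G hz)
    rw [Ideal.map_span, Ideal.span_le]
    rintro _ ⟨_, ⟨i, rfl⟩, rfl⟩
    exact hG i
  rw [hsplit, map_add]
  refine add_mem (hvar F _ hFm _ hr) ?_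
  -- the polynomial part
  let h : Polynomial V := MvPolynomial.aeval c fn
  have hev : (ev.restrictScalars O) h ∈ 𝔍 ^ n := by
    have e : H (fn : MvPowerSeries ι O) = (ev.restrictScalars O) h := by
      rw [algHom_coe_polynomial]
      show _ = (ev.restrictScalars O) (MvPolynomial.aeval c fn)
      rw [MvPolynomial.comp_aeval_apply]
      simp only [hH]
      rfl
    have : H f = H (f - (fn : MvPowerSeries ι O)) + H (fn : MvPowerSeries ι O) := by
      rw [← map_add, ← hsplit]
    rw [hHf, e] at this
    rw [eq_neg_of_add_eq_zero_right this.symm]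
    exact neg_mem (hvar H 𝔍 (fun i => by rw [hH]; exact hcJ i) _ hr)
  have hcoeff : ∀ m, h.coeff m ∈ maximalIdeal V ^ n := by
    have hspan : ∀ x ∈ 𝔍 ^ n, ∀ d : Unit →₀ ℕ, MvPowerSeries.coeff d x ∈ maximalIdeal V ^ n := by
      rw [h𝔍, ← Ideal.map_pow]
      intro x hx
      refine Submodule.span_induction (p := fun x _ => ∀ d, MvPowerSeries.coeff d x ∈ _)
        ?_ ?_ ?_ ?_ hx
      · rintro _ ⟨v, hv, rfl⟩ d
        show MvPowerSeries.coeff d (algebraMap V (MvPowerSeries Unit V) v) ∈ _
        rw [MvPowerSeries.algebraMap_apply, MvPowerSeries.coeff_C]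
        split_ifs
        · simpa using hv
        · exact zero_mem _
      · intro d; simp
      · intro x y _ _ hx hy d
        rw [map_add]
        exact add_mem (hx d) (hy d)
      · intro a x _ hx d
        rw [smul_eq_mul, MvPowerSeries.coeff_mul]
        exact sum_mem fun e _ => Ideal.mul_mem_left _ _ (hx e.2)
    intro m
    have h2 := hspan _ hev (Finsupp.single () m)
    have h3 : MvPowerSeries.coeff (Finsupp.single () m) ((ev.restrictScalars O) h) = h.coeff m := by
      show PowerSeries.coeff m (Polynomial.aeval (PowerSeries.X : PowerSeries V) h) = _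
      have hx : ∀ q : Polynomial V, Polynomial.aeval (PowerSeries.X : PowerSeries V) q = (q : PowerSeries V) := by
        intro q
        induction q using Polynomial.induction_on with
        | C v => simp [PowerSeries.algebraMap_eq]
        | add q r hq hr => rw [map_add, hq, hr, Polynomial.coe_add]
        | monomial n v hv => simp [pow_succ, ← mul_assoc, PowerSeries.algebraMap_eq]
      rw [hx, Polynomial.coeff_coe]
    rwa [h3] at h2
  have e2 : F (fn : MvPowerSeries ι O) = h.eval a := by
    rw [algHom_coe_polynomial, ← Polynomial.coe_aeval_eq_eval]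
    show _ = ((Polynomial.aeval a).restrictScalars O) (MvPolynomial.aeval c fn)
    rw [MvPolynomial.comp_aeval_apply]
    simp only [hF]
    rfl
  rw [e2, Polynomial.eval_eq_sum_range]
  exact sum_mem fun m _ => Ideal.mul_mem_right _ _ (hcoeff m)

end Fermat.Agent.Lifting.Algebra
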