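import Fermat.Agent.Lifting.Algebra.Chart
import Fermat.Agent.Lifting.Algebra.Movement
import Fermat.Agent.Lifting.Algebra.Forms

/-!
# Points of a component kill the kernel of its chart
-/

set_option autoImplicit false
set_option linter.unusedSectionVars false

noncomputable section

namespace Fermat.Agent.Lifting.Algebra

open IsLocalRing Matrix Fermat.Agent.RT.LocalRing

variable {O : Type} [CommRing O] [IsLocalRing O] [IsAdicComplete (maximalIdeal O) O]
  {J τ : Type} [Finite J] [Finite τ] {S : J → Site O}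
  {V : Type} [CommRing V] [IsDomain V] [IsDiscreteValuationRing V]
  [IsAdicComplete (maximalIdeal V) V] [Algebra O V] [IsLocalHom (algebraMap O V)]

/-- In the residual disc. -/
def Near (S : J → Site O) (j : J) (p : Mat V × Mat V) : Prop :=
  MemMax (p.1 - (centreCfg S V j).1) ∧ MemMax (p.2 - (centreCfg S V j).2)

theorem map_units_frameIn_mul {A B : Type} [CommRing A] [CommRing B] [Algebra O A] [Algebra O B]
    (f : A →ₐ[O] B) (σ : Site O) (ty : Ty) (g : (Mat A)ˣ) :
    Units.map f.toRingHom.mapMatrix.toMonoidHom (frameIn σ ty A * g) =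
      frameIn σ ty B * Units.map f.toRingHom.mapMatrix.toMonoidHom g := by
  rw [map_mul, map_units_frameIn]

section Classify

variable (h2 : IsUnit (2 : O)) (hinj : Function.Injective (algebraMap O V)) [CharZero O]
include h2 hinj

omit [IsLocalRing O] [IsAdicComplete (maximalIdeal O) O] [IsDiscreteValuationRing V]
  [IsAdicComplete (maximalIdeal V) V] [IsLocalHom (algebraMap O V)] h2 in
theorem natCast_facts (σ : Site O) :
    (σ.q : V) ≠ 0 ∧ (σ.q : V) ≠ 1 ∧ (σ.q : V) + 1 ≠ 0 := by
  have key : ∀ n : ℕ, (n : V) = 0 → n = 0 := fun n h => by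
    rw [← map_natCast (algebraMap O V), ← map_zero (algebraMap O V)] at h
    exact Nat.cast_eq_zero.mp (hinj h)
  have := σ.q_two_le
  refine ⟨fun h => ?_, fun h => ?_, fun h => ?_⟩
  · have := key _ h; omega
  · have hc : ((σ.q : ℕ) : O) = ((1 : ℕ) : O) := hinj (by simpa using h)
    have := Nat.cast_inj.mp hc; omega
  · have := key (σ.q + 1) (by simpa using h); omega

omit [Finite J] [IsAdicComplete (maximalIdeal O) O] [IsDiscreteValuationRing V]
  [IsAdicComplete (maximalIdeal V) V] h2 hinj [CharZero O] [IsDomain V] in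
theorem mem_of_algebraMap_mem [IsLocalRing V] {a : O} (h : algebraMap O V a ∈ maximalIdeal V) :
    a ∈ maximalIdeal O :=
  fun ha => h (ha.map (algebraMap O V))

/-- A special pair is triangular. -/
theorem exists_specialPair {σ : Site O} {ty : Ty} (hty : ty ≠ .unram) {p : Mat V × Mat V}
    (h : σ.IsType ty p) : ∃ (g : (Mat V)ˣ) (y b : V), p = specialPair σ ty g y b := by
  obtain ⟨hdet, h'⟩ := h
  obtain ⟨hq, hq1, hqn⟩ := natCast_facts hinj σ
  have ht : algebraMap O V (σ.sign ty) * algebraMap O V (σ.sign ty) = 1 := by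
    rw [← map_mul]
    cases ty <;> simp [Site.sign, σ.sgn_sq]
  obtain ⟨hrel, hd, htt, htr⟩ : p.1 * p.2 = p.2 ^ σ.q * p.1 ∧ p.2.det = 1 ∧ p.2.trace = 2 ∧
      p.1.trace = algebraMap O V (σ.sign ty) * ((σ.q : V) + 1) := by
    cases ty
    · exact absurd rfl hty
    · exact h'
    · exact h'
  obtain ⟨g, y, b, h1, h2'⟩ := exists_form hq hq1 hqn ht hrel hdet hd htt htr
  exact ⟨g, y, b, Prod.ext h1 h2'⟩

/-- The opposite component only meets the disc when `q ≡ -1` and `b₀ ≡ 0`. -/
theorem allowed_opp {j : J} {p : Mat V × Mat V} (hp : Near S j p) (h : (S j).IsType .opp p) :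
    (S j).b₀ ∈ maximalIdeal O ∧ ((S j).q : O) + 1 ∈ maximalIdeal O := by
  obtain ⟨g, y, b, hgp⟩ := exists_specialPair h2 hinj (by decide) h
  set σ := S j
  let π := Ideal.Quotient.mkₐ O (maximalIdeal V)
  let κ := V ⧸ maximalIdeal V
  set t := algebraMap O V (σ.sign .opp) with ht
  have hNΦ : (p.2 - 1) * p.1 = t • (p.2 - 1) := by
    have hs : p.2 - 1 = cj g (upT 1 1 b - 1) := by
      rw [cj_sub, cj_one', hgp]; rfl
    have hF : p.1 = cj g (upT ((σ.q : V) * t) t y) := by rw [hgp]; rfl
    rw [hs, hF, cj_mul_cj]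
    have e : (upT 1 1 b - 1) * upT ((σ.q : V) * t) t y = t • (upT (1 : V) 1 b - 1) := by
      ext i k
      fin_cases i <;> fin_cases k <;>
        simp [upT, Matrix.mul_apply, Fin.sum_univ_two, mul_comm]
    rw [e]
    simp [cj]
  have e1 : p.1.map π = ((centreCfg S V j).1).map π := Matrix.ext fun a b' =>
    Ideal.Quotient.eq.mpr (hp.1 a b')
  have e2 : p.2.map π = ((centreCfg S V j).2).map π := Matrix.ext fun a b' =>
    Ideal.Quotient.eq.mpr (hp.2 a b')
  have e1' : p.1.map π = σ.centre.1.map (algebraMap O κ) := e1.trans (Matrix.ext fun a b' =>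
    π.commutes _)
  have e2' : p.2.map π = σ.centre.2.map (algebraMap O κ) := e2.trans (Matrix.ext fun a b' =>
    π.commutes _)
  have eσ : π (algebraMap O V (σ.sign .opp)) = -algebraMap O κ σ.sgn := by
    rw [π.commutes]; simp [Site.sign, κ]
  have htr : π (p.1.trace) = (p.1.map π).trace := AddMonoidHom.map_trace π.toRingHom.toAddMonoidHom _
  have hu : IsUnit (algebraMap O κ σ.sgn * 2) := by
    rw [show (2 : κ) = algebraMap O κ 2 from (map_ofNat _ 2).symm, ← map_mul]
    exact ((IsUnit.of_mul_eq_one _ σ.sgn_sq).mul h2).map _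
  constructor
  · refine mem_of_algebraMap_mem (V := V) (Ideal.Quotient.eq_zero_iff_mem.mp ?_)
    have h01 := congrFun (congrFun (congrArg (fun M : Mat V => M.map π) hNΦ) 0) 1
    show π (algebraMap O V σ.b₀) = 0
    rw [π.commutes]
    have a1 : π.toRingHom.mapMatrix ((p.2 - 1) * p.1) = π.toRingHom.mapMatrix (t • (p.2 - 1)) := by
      rw [hNΦ]
    rw [map_mul, map_sub, map_one] at a1
    have a01 := congrFun (congrFun a1 0) 1
    simp only [RingHom.mapMatrix_apply, AlgHom.toRingHom_eq_coe, RingHom.coe_coe] at a01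
    rw [e1', e2'] at a01
    have a2 : (t • (p.2 - 1)).map π 0 1 = π t * (σ.centre.2.map (algebraMap O κ)) 0 1 := by
      rw [← e2']; simp
    rw [a2, ht, eσ] at a01
    simp [Site.centre, upT, Matrix.mul_apply, Fin.sum_univ_two] at a01
    refine hu.mul_right_eq_zero.mp ?_
    linear_combination a01
  · refine mem_of_algebraMap_mem (V := V) (Ideal.Quotient.eq_zero_iff_mem.mp ?_)
    show π (algebraMap O V ((σ.q : O) + 1)) = 0
    rw [π.commutes]
    have h3 : p.1.trace = algebraMap O V (σ.sign .opp) * ((σ.q : V) + 1) := h.2.2.2.2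
    have h4 := congrArg π h3
    rw [htr, e1', map_mul, eσ, map_add, map_natCast, map_one] at h4
    simp [Site.centre, upT, Matrix.trace_fin_two] at h4
    refine hu.mul_right_eq_zero.mp ?_
    simp only [map_add, map_natCast, map_one]
    linear_combination h4

theorem allowed_of_isType' {j : J} {ty : Ty} {p : Mat V × Mat V} (hp : Near S j p)
    (h : (S j).IsType ty p) : (S j).Allowed ty := by
  cases ty
  · refine mem_of_algebraMap_mem (V := V) ?_
    have h1 : p.2 = 1 := h.2
    have := hp.2 0 1
    rw [h1] at this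
    simpa [centreCfg, Site.centre, upT] using this
  · trivial
  · exact allowed_opp h2 hinj hp h

theorem exists_type' {j : J} {p : Mat V × Mat V} (hp : Near S j p) (h : (S j).IsLocalPair p) :
    ∃ ty, (S j).Allowed ty ∧ (S j).IsType ty p := by
  obtain ⟨hrel, hdet, hd, ht⟩ := h
  suffices ∃ ty, (S j).IsType ty p by
    obtain ⟨ty, hty⟩ := this
    exact ⟨ty, allowed_of_isType' h2 hinj hp hty, hty⟩
  obtain ⟨hq, -, -⟩ := natCast_facts hinj (S j)
  by_cases hM : p.2 = 1
  · exact ⟨.unram, hdet, hM⟩
  obtain ⟨g, t, y, b, htt, hF, -⟩ := exists_form_of_ne_one hq hrel hdet hd ht hM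
  have htr : p.1.trace = t * (((S j).q : V) + 1) := by
    rw [hF, trace_cj, trace_upT]; ring
  set s := algebraMap O V (S j).sgn
  have hs : s * s = 1 := by rw [← map_mul, (S j).sgn_sq, map_one]
  rcases mul_eq_zero.mp (show (t - s) * (t + s) = 0 by linear_combination htt - hs) with e | e
  · exact ⟨.same, hdet, hrel, hd, ht, by rw [htr, sub_eq_zero.mp e]; rfl⟩
  · exact ⟨.opp, hdet, hrel, hd, ht, by rw [htr, eq_neg_of_add_eq_zero_left e, ← map_neg]; rfl⟩

end Classify

section Killed

/-- The point with the given coordinates kills the kernel of `c`. -/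
def Killed (S : J → Site O) (c : J → Ty) (x : Cfg J τ V) : Prop :=
  ∀ F : PSR J τ O →ₐ[O] V, (∀ i, F (MvPowerSeries.X i) = coordsOf S x i) →
    kernel S τ c ≤ RingHom.ker F

variable {c : J → Ty} (h2 : IsUnit (2 : O)) (hc : ∀ j, (S j).Allowed (c j))
include h2 hc

theorem killed_of_chart {x : Cfg J τ V} (ht : ∀ t, x.2 t ∈ maximalIdeal V)
    (hx : ∀ j, ∃ a : Fin 3 → V, (∀ i, a i ∈ maximalIdeal V) ∧ x.1 j = chartPair (S j) (c j) a) :
    Killed S c x := by
  choose a ha hxa using hx
  intro F hF
  obtain ⟨G, hG⟩ := RT.exists_eval (L := O) (R := V) (σ := (J × Fin 3) ⊕ τ)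
    (Sum.elim (fun i => a i.1 i.2) x.2) (by
      rintro (⟨j, i⟩ | t)
      · exact ha j i
      · exact ht t)
  obtain ⟨C, hC⟩ := exists_chartHom (τ := τ) h2 hc
  have hmap : mapCfg G (chartCfg S τ c) = x := by
    refine Prod.ext (funext fun j => ?_) (funext fun t => hG _)
    show ((chartPair (S j) (c j) _).1.map G, (chartPair (S j) (c j) _).2.map G) = _
    rw [map_chartPair G (S j) (c j) _ fun _ => ?_, hxa j]
    · congr 1
      exact funext fun i => hG _
    · have := isLocalHom_algebraMap_mv (O := O) (σ := (J × Fin 3) ⊕ τ)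
      exact isUnit_chart_zero (S j) (X_mem_om (Sum.inl (j, 0)))
  have hFG : F = G.comp C := by
    refine algHom_ext_X (fun i => ?_) fun i => ?_
    · rw [hF]
      refine coordsOf_mem (fun j => ?_) ht i
      rw [hxa j]
      exact chartPair_mem S j (c j) h2 (hc j) _ (ha j)
    · rw [hF, AlgHom.comp_apply, hC, map_coordsOf, hmap]
  intro f hf
  rw [kernel_eq_ker h2 hc C hC, RingHom.mem_ker] at hf
  rw [RingHom.mem_ker, hFG, AlgHom.comp_apply, hf, map_zero]

omit h2 hc in
/-- Moving along a polynomial family. -/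
theorem killed_of_family (P : Cfg J τ (Polynomial V))
    (hP : ∀ i n, (coordsOf S P i).coeff n ∈ maximalIdeal V)
    (h : ∀ t ∈ maximalIdeal V, Killed S c (mapCfg ((Polynomial.aeval t).restrictScalars O) P))
    (a : V) : Killed S c (mapCfg ((Polynomial.aeval a).restrictScalars O) P) := by
  have hev : ∀ (t : V) i, coordsOf S (mapCfg ((Polynomial.aeval t).restrictScalars O) P) i =
      (coordsOf S P i).eval t := fun t i => by
    rw [← map_coordsOf, AlgHom.restrictScalars_apply, Polynomial.coe_aeval_eq_eval]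
  intro F hF f hf
  rw [RingHom.mem_ker]
  refine eval_eq_zero_of_forall_mem (fun i => coordsOf S P i) hP f (fun t ht G hG => ?_) a F
    fun i => by rw [hF, hev]
  exact RingHom.mem_ker.mp (h t ht G (fun i => by rw [hG, hev]) hf)

/-- The residual shape of the chart of a special component. -/
theorem near_frame {j : J} (hty : c j ≠ .unram) :
    Near S j (specialPair (S j) (c j) (frameIn (S j) (c j) V)
      (algebraMap O V ((S j).corner (c j))) (algebraMap O V ((S j).mono (c j)))) := by
  have h := chartPair_mem (A := V) S j (c j) h2 (hc j) (fun _ => 0) fun _ => zero_mem _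
  have e : chartPair (S j) (c j) (fun _ => (0 : V)) = specialPair (S j) (c j) (frameIn (S j) (c j) V)
      (algebraMap O V ((S j).corner (c j))) (algebraMap O V ((S j).mono (c j))) := by
    have huL : uL (0 : V) = 1 := by
      ext a b; fin_cases a <;> fin_cases b <;> simp [uL]
    cases hty' : c j
    · exact absurd hty' hty
    all_goals simp only [chartPair, add_zero, huL, mul_one]
  rwa [e] at h

/-- A polynomial family of residually scalar special pairs has coordinates in the maximal ideal. -/
theorem coeff_family_mem {j : J} (hty : c j ≠ .unram) (g : (Mat (Polynomial V))ˣ)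
    {y b : V} (hy : y ∈ maximalIdeal V) (hb : b ∈ maximalIdeal V)
    (hw : ((S j).q : V) * algebraMap O V ((S j).sign (c j)) - algebraMap O V ((S j).sign (c j)) ∈
      maximalIdeal V)
    (hy₁ : algebraMap O V ((S j).corner (c j)) ∈ maximalIdeal V)
    (hb₁ : algebraMap O V ((S j).mono (c j)) ∈ maximalIdeal V) (u v : Fin 2) (n : ℕ) :
    ((specialPair (S j) (c j) g (Polynomial.C y) (Polynomial.C b)).1 u v -
        Polynomial.C ((centreCfg S V j).1 u v)).coeff n ∈ maximalIdeal V ∧
      ((specialPair (S j) (c j) g (Polynomial.C y) (Polynomial.C b)).2 u v -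
        Polynomial.C ((centreCfg S V j).2 u v)).coeff n ∈ maximalIdeal V := by
  have hnf := near_frame h2 hc (j := j) (V := V) hty
  set σ := S j
  set F₀ := frameIn σ (c j) V
  set w : V := (σ.q : V) * algebraMap O V (σ.sign (c j)) with hwd
  set w' : V := algebraMap O V (σ.sign (c j)) with hw'd
  let ρ : Polynomial V →+* Polynomial (V ⧸ maximalIdeal V) :=
    Polynomial.mapRingHom (Ideal.Quotient.mk _)
  have hscal : ∀ (g : (Mat (Polynomial V))ˣ) (a a' v : V), a - a' ∈ maximalIdeal V →
      v ∈ maximalIdeal V → (cj g (upT (Polynomial.C a) (Polynomial.C a') (Polynomial.C v))).map ρ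
        = ρ (Polynomial.C a) • 1 := by
    intro g a a' v ha hv
    have e1 : Ideal.Quotient.mk (maximalIdeal V) a = Ideal.Quotient.mk _ a' :=
      Ideal.Quotient.eq.mpr ha
    have e2 : Ideal.Quotient.mk (maximalIdeal V) v = 0 := Ideal.Quotient.eq_zero_iff_mem.mpr hv
    rw [map_cj, map_upT]
    simp only [ρ, Polynomial.coe_mapRingHom, Polynomial.map_C, ← e1, e2, map_zero]
    rw [upT_scalar, cj_smul_one]
  have hcc : ∀ a b, ∀ M N : Mat (Polynomial V), M.map ρ = N.map ρ →
      (M a b - N a b).coeff n ∈ maximalIdeal V := by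
    intro a b M N hMN
    have h1 : ρ (M a b - N a b) = 0 := by
      rw [map_sub, sub_eq_zero]; exact congrFun (congrFun hMN a) b
    have h2 := congrArg (fun q => Polynomial.coeff q n) h1
    simp only [ρ, Polynomial.coe_mapRingHom, Polynomial.coeff_map, Polynomial.coeff_zero] at h2
    exact Ideal.Quotient.eq_zero_iff_mem.mp h2
  have hC : ∀ M N : Mat V, MemMax (M - N) →
      (M.map Polynomial.C).map ρ = (N.map Polynomial.C).map ρ := by
    intro M N h
    refine Matrix.ext fun a b => ?_
    simp only [Matrix.map_apply, ρ, Polynomial.coe_mapRingHom, Polynomial.map_C]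
    exact congrArg Polynomial.C (Ideal.Quotient.eq.mpr (h a b))
  have hone : (1 : V) - 1 ∈ maximalIdeal V := by simp
  refine ⟨hcc u v _ ((centreCfg S V j).1.map Polynomial.C) ?_,
    hcc u v _ ((centreCfg S V j).2.map Polynomial.C) ?_⟩
  · have e1 : (specialPair σ (c j) g (Polynomial.C y) (Polynomial.C b)).1 =
        cj g (upT (Polynomial.C w) (Polynomial.C w') (Polynomial.C y)) := by
      simp [specialPair, up, hwd, hw'd, Polynomial.algebraMap_apply]
    rw [e1, hscal _ _ _ _ hw hy, ← hC _ _ hnf.1]
    simp only [specialPair, up]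
    rw [map_cj Polynomial.C, map_upT, ← hwd, ← hw'd, hscal _ _ _ _ hw hy₁]
  · have e1 : (specialPair σ (c j) g (Polynomial.C y) (Polynomial.C b)).2 =
        cj g (upT (Polynomial.C 1) (Polynomial.C 1) (Polynomial.C b)) := by
      simp [specialPair, up]
    rw [e1, hscal _ _ _ _ hone hb, ← hC _ _ hnf.2]
    simp only [specialPair, up]
    rw [map_cj Polynomial.C, map_upT, hscal _ _ _ _ hone hb₁]

variable [DecidableEq J]

omit h2 hc in
/-- A polynomial family at one site, constant elsewhere. -/
theorem killed_move {y : J → Mat V × Mat V} {z : τ → V} {j : J}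
    (hy : ∀ i, i ≠ j → Near S i (y i)) (hz : ∀ t, z t ∈ maximalIdeal V)
    (P : Mat (Polynomial V) × Mat (Polynomial V))
    (hP1 : ∀ a b n, (P.1 a b - Polynomial.C ((centreCfg S V j).1 a b)).coeff n ∈ maximalIdeal V)
    (hP2 : ∀ a b n, (P.2 a b - Polynomial.C ((centreCfg S V j).2 a b)).coeff n ∈ maximalIdeal V)
    (h : ∀ t ∈ maximalIdeal V,
      Killed S c (Function.update y j (P.1.map (Polynomial.eval t), P.2.map (Polynomial.eval t)), z))
    (a : V) :
    Killed S c (Function.update y j (P.1.map (Polynomial.eval a), P.2.map (Polynomial.eval a)), z) := by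
  let Q : Cfg J τ (Polynomial V) :=
    (Function.update (fun i => ((y i).1.map Polynomial.C, (y i).2.map Polynomial.C)) j P,
      fun t => Polynomial.C (z t))
  have hev : ∀ t : V, mapCfg ((Polynomial.aeval t).restrictScalars O) Q =
      (Function.update y j (P.1.map (Polynomial.eval t), P.2.map (Polynomial.eval t)), z) := by
    intro t
    refine Prod.ext (funext fun i => ?_) (funext fun _ => by simp [mapCfg, Q])
    by_cases hi : i = j
    · subst hi
      simp only [mapCfg, Q, Function.update_self]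
      refine Prod.ext ?_ ?_ <;>
        (ext u v; simp [Polynomial.coe_aeval_eq_eval])
    · simp only [mapCfg, Q, Function.update_of_ne hi]
      refine Prod.ext ?_ ?_ <;> (ext u v; simp)
  rw [← hev]
  refine killed_of_family Q ?_ (fun t ht => by rw [hev]; exact h t ht) a
  have hcen : ∀ i, centreCfg S (Polynomial V) i =
      ((centreCfg S V i).1.map Polynomial.C, (centreCfg S V i).2.map Polynomial.C) := fun i => by
    refine Prod.ext ?_ ?_ <;> (ext u v; simp [centreCfg, Polynomial.algebraMap_apply])
  rintro (⟨i, s, u, v⟩ | t) n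
  · by_cases hi : i = j
    · subst hi
      cases s
      · simpa [coordsOf, Q, hcen] using hP1 u v n
      · simpa [coordsOf, Q, hcen] using hP2 u v n
    · cases s
      all_goals
        simp only [coordsOf, Q, hcen, Function.update_of_ne hi, Matrix.sub_apply, Matrix.map_apply,
          ← map_sub, Polynomial.coeff_C]
        split
      · exact (hy i hi).1 u v
      · exact zero_mem _
      · exact (hy i hi).2 u v
      · exact zero_mem _
  · simp only [coordsOf, Q, Polynomial.coeff_C]
    split
    · exact hz t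
    · exact zero_mem _

theorem killed_update {y : J → Mat V × Mat V} {z : τ → V} {j : J}
    (hy : ∀ i, i ≠ j → Near S i (y i)) (hz : ∀ t, z t ∈ maximalIdeal V)
    (hbase : ∀ a : Fin 3 → V, (∀ i, a i ∈ maximalIdeal V) →
      Killed S c (Function.update y j (chartPair (S j) (c j) a), z))
    (hinj : Function.Injective (algebraMap O V)) [CharZero O]
    {p : Mat V × Mat V} (hp : Near S j p) (hpt : (S j).IsType (c j) p) :
    Killed S c (Function.update y j p, z) := by
  set σ := S j with hσ
  by_cases hty : c j = .unram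
  · -- the unramified component is a graph
    obtain ⟨hdet, h1⟩ : p.1.det = (σ.q : V) ∧ p.2 = 1 := by rw [hty] at hpt; exact hpt
    set x₀ := p.1 0 0 - algebraMap O V ((σ.q : O) * σ.sgn)
    set x₁ := p.1 0 1 - algebraMap O V σ.y₀
    have hx : ∀ i, ![x₀, x₁, p.1 1 0] i ∈ maximalIdeal V := by
      intro i
      fin_cases i
      · simpa [x₀, centreCfg, Site.centre, upT, σ] using hp.1 0 0
      · simpa [x₁, centreCfg, Site.centre, upT, σ] using hp.1 0 1
      · simpa [centreCfg, Site.centre, upT] using hp.1 1 0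
    have e : p = chartPair σ (c j) ![x₀, x₁, p.1 1 0] := by
      rw [hty]
      have hu := isUnit_chart_zero (A := V) σ (hx 0)
      simp only [chartPair]
      refine Prod.ext ?_ h1
      rw [Matrix.det_fin_two] at hdet
      simp only [Matrix.cons_val_zero, Matrix.cons_val_one, Matrix.cons_val, x₀, x₁,
        add_sub_cancel] at hu ⊢
      have h11 : p.1 1 1 = ((σ.q : V) + p.1 0 1 * p.1 1 0) * Ring.inverse (p.1 0 0) := by
        refine hu.mul_right_cancel ?_
        rw [mul_assoc, Ring.inverse_mul_cancel _ hu, mul_one]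
        linear_combination hdet
      ext u v
      fin_cases u <;> fin_cases v <;> simp [h11]
    rw [e]
    exact hbase _ hx
  obtain ⟨g, yy, bb, hg⟩ := exists_specialPair h2 hinj hty hpt
  set F₀ := frameIn σ (c j) V with hF₀
  set w : V := (σ.q : V) * algebraMap O V (σ.sign (c j)) with hw
  set w' : V := algebraMap O V (σ.sign (c j)) with hw'
  set y₁ := algebraMap O V (σ.corner (c j)) with hy₁
  set b₁ := algebraMap O V (σ.mono (c j)) with hb₁
  have hnf := near_frame h2 hc (j := j) (V := V) hty
  -- residual comparison in the frame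
  have hres : ∀ (h : (Mat V)ˣ) (y' b' : V), Near S j (specialPair σ (c j) (F₀ * h) y' b') →
      MemMax (cj h (upT w w' y') - upT w w' y₁) ∧ MemMax (cj h (upT 1 1 b') - upT 1 1 b₁) := by
    intro h y' b' hn
    have k : ∀ M N K : Mat V, MemMax (cj (F₀ * h) M - K) → MemMax (cj F₀ N - K) →
        MemMax (cj h M - N) := by
      intro M N K hM hN
      have hd : MemMax (cj F₀ (cj h M - N)) := by
        rw [cj_sub, ← cj_mul]
        intro u v
        have := sub_mem (hM u v) (hN u v)
        simpa [Matrix.sub_apply] using this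
      have e : cj h M - N = cj F₀⁻¹ (cj F₀ (cj h M - N)) := by
        rw [← cj_mul, inv_mul_cancel, cj_one]
      rw [e]
      exact (hd.mul_left _).mul_right _
    exact ⟨k _ _ _ hn.1 hnf.1, k _ _ _ hn.2 hnf.2⟩
  -- first column with unit head
  have caseA : ∀ (h : (Mat V)ˣ), IsUnit ((h : Mat V) 0 0) → ∀ y' b' : V,
      Near S j (specialPair σ (c j) (F₀ * h) y' b') →
      Killed S c (Function.update y j (specialPair σ (c j) (F₀ * h) y' b'), z) := by
    intro h hP y' b' hn
    obtain ⟨P, hP⟩ := hP
    set u := (h : Mat V) 1 0 * ((P⁻¹ : Vˣ) : V) with hu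
    have hdetu : IsUnit ((h : Mat V) 0 0 * (h : Mat V) 1 1 - (h : Mat V) 0 1 * (h : Mat V) 1 0) := by
      rw [← Matrix.det_fin_two]
      exact (Matrix.isUnit_iff_isUnit_det _).mp h.isUnit
    obtain ⟨D, hD⟩ : IsUnit ((h : Mat V) 1 1 - u * (h : Mat V) 0 1) := by
      refine (IsUnit.mul_iff.mp (show IsUnit ((P : V) * ((h : Mat V) 1 1 - u * (h : Mat V) 0 1))
        from ?_)).2
      have e : (P : V) * ((h : Mat V) 1 1 - u * (h : Mat V) 0 1) =
          (h : Mat V) 0 0 * (h : Mat V) 1 1 - (h : Mat V) 0 1 * (h : Mat V) 1 0 := by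
        rw [hu, ← hP]
        linear_combination (-((h : Mat V) 1 0 * (h : Mat V) 0 1)) * Units.mul_inv P
      rwa [e]
    set e := (h : Mat V) 0 1 * ((D⁻¹ : Vˣ) : V) with he
    have hheq : h = uL u * uU e * uD P D := by
      ext i k
      fin_cases i <;> fin_cases k <;>
        simp only [Units.val_mul, uL, uU, uD, Matrix.mul_apply, Fin.sum_univ_two] <;> simp
      · exact hP.symm
      · show (h : Mat V) 0 1 = e * (D : V)
        rw [he, mul_assoc, Units.inv_mul, mul_one]
      · show (h : Mat V) 1 0 = u * (P : V)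
        rw [hu, mul_assoc, Units.inv_mul, mul_one]
      · show (h : Mat V) 1 1 = (u * e + 1) * (D : V)
        linear_combination (-1 : V) * hD - u * (h : Mat V) 0 1 * Units.inv_mul D
    set y'' := (P : V) * y' * ((D⁻¹ : Vˣ) : V) + e * (w' - w) with hy''
    set b'' := (P : V) * b' * ((D⁻¹ : Vˣ) : V) with hb''
    have heq : specialPair σ (c j) (F₀ * h) y' b' = specialPair σ (c j) (F₀ * uL u) y'' b'' := by
      have h1 : cj h (upT w w' y') = cj (uL u) (upT w w' y'') := by
        rw [hheq, cj_mul, cj_mul, cj_uD_upT, cj_uU_upT]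
      have h2 : cj h (upT 1 1 b') = cj (uL u) (upT 1 1 b'') := by
        rw [hheq, cj_mul, cj_mul, cj_uD_upT, cj_uU_upT, sub_self, mul_zero, add_zero]
      simp only [specialPair, up, cj_mul, ← hw, ← hw', h1, h2]
    rw [heq] at hn ⊢
    obtain ⟨r1, r2⟩ := hres _ _ _ hn
    rw [cj_uL_upT] at r1 r2
    have ry : y'' - y₁ ∈ maximalIdeal V := by simpa [upT] using r1 0 1
    have rb : b'' - b₁ ∈ maximalIdeal V := by simpa [upT] using r2 0 1
    have chart : ∀ t ∈ maximalIdeal V,
        Killed S c (Function.update y j (specialPair σ (c j) (F₀ * uL t) y'' b''), z) := by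
      intro t htm
      have e' : chartPair σ (c j) ![t, y'' - y₁, b'' - b₁] =
          specialPair σ (c j) (F₀ * uL t) y'' b'' := by
        cases hty' : c j
        · exact absurd hty' hty
        all_goals
          simp only [chartPair, Matrix.cons_val_zero, Matrix.cons_val_one, Matrix.cons_val]
          simp [hy₁, hb₁, hty', F₀]
      rw [← e']
      exact hbase _ (by intro i; fin_cases i <;> simp [ry, rb, htm, -mem_maximalIdeal, -mem_nonunits_iff])
    by_cases hum : u ∈ maximalIdeal V
    · exact chart u hum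
    obtain ⟨U, hU⟩ : IsUnit u := not_not.mp hum
    have uy : u * y'' ∈ maximalIdeal V := by simpa [upT] using r1 0 0
    have ub : u * b'' ∈ maximalIdeal V := by simpa [upT] using r2 0 0
    have cancel : ∀ v, u * v ∈ maximalIdeal V → v ∈ maximalIdeal V := fun v hv => by
      have := Ideal.mul_mem_left _ ((U⁻¹ : Vˣ) : V) hv
      rwa [← mul_assoc, ← hU, Units.inv_mul, one_mul] at this
    have y0 := cancel _ uy
    have b0 := cancel _ ub
    have hww : w - w' ∈ maximalIdeal V := cancel _ (by
      have h10 := r1 1 0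
      simp [upT, -mem_maximalIdeal, -mem_nonunits_iff] at h10
      have := Ideal.mul_mem_left _ (u * u) y0
      have := add_mem h10 this
      rwa [sub_add_cancel] at this)
    let T : Polynomial V := Polynomial.X
    let g₁ : (Mat (Polynomial V))ˣ := frameIn σ (c j) (Polynomial V) * uL T
    let Pp : Mat (Polynomial V) × Mat (Polynomial V) :=
      specialPair σ (c j) g₁ (Polynomial.C y'') (Polynomial.C b'')
    have hev : ∀ t : V, (Pp.1.map (Polynomial.eval t), Pp.2.map (Polynomial.eval t)) =
        specialPair σ (c j) (F₀ * uL t) y'' b'' := by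
      intro t
      have := map_specialPair ((Polynomial.aeval t).restrictScalars O : Polynomial V →ₐ[O] V)
        σ (c j) g₁ (Polynomial.C y'') (Polynomial.C b'')
      rw [show g₁ = frameIn σ (c j) (Polynomial V) * uL T from rfl, map_units_frameIn_mul, map_units_uL] at this
      simpa [Pp, T, F₀, Polynomial.coe_aeval_eq_eval] using this
    rw [← hev]
    have y1m : y₁ ∈ maximalIdeal V := by simpa using sub_mem y0 ry
    have b1m : b₁ ∈ maximalIdeal V := by simpa using sub_mem b0 rb
    exact killed_move hy hz Pp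
      (fun a b n => (coeff_family_mem h2 hc hty g₁ y0 b0 hww y1m b1m a b n).1)
      (fun a b n => (coeff_family_mem h2 hc hty g₁ y0 b0 hww y1m b1m a b n).2)
      (fun t ht => by rw [hev]; exact chart t ht) u
  -- the general case
  obtain ⟨hh, rfl⟩ : ∃ hh, g = F₀ * hh := ⟨F₀⁻¹ * g, (mul_inv_cancel_left F₀ g).symm⟩
  rw [hg] at hp ⊢
  by_cases hP : IsUnit ((hh : Mat V) 0 0)
  · exact caseA hh hP _ _ hp
  have hdetu : IsUnit ((hh : Mat V) 0 0 * (hh : Mat V) 1 1 - (hh : Mat V) 0 1 * (hh : Mat V) 1 0) := by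
    rw [← Matrix.det_fin_two]
    exact (Matrix.isUnit_iff_isUnit_det _).mp hh.isUnit
  have hPm : (hh : Mat V) 0 0 ∈ maximalIdeal V := hP
  have hru : IsUnit ((hh : Mat V) 1 0) := by
    have := isUnit_of_sub_mem (a := -((hh : Mat V) 0 1 * (hh : Mat V) 1 0)) (by
      rw [show -((hh : Mat V) 0 1 * (hh : Mat V) 1 0) - ((hh : Mat V) 0 0 * (hh : Mat V) 1 1 -
        (hh : Mat V) 0 1 * (hh : Mat V) 1 0) = -((hh : Mat V) 0 0 * (hh : Mat V) 1 1) by ring]
      exact neg_mem (Ideal.mul_mem_right _ _ hPm)) hdetu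
    exact (IsUnit.mul_iff.mp ((IsUnit.neg_iff _).mp this)).2
  obtain ⟨R, hR⟩ := hru
  set v := (hh : Mat V) 0 0 * ((R⁻¹ : Vˣ) : V) with hv
  have hvm : v ∈ maximalIdeal V := Ideal.mul_mem_right _ _ hPm
  set d := -(hh : Mat V) 0 1 + v * (hh : Mat V) 1 1 with hd
  have hPv : (hh : Mat V) 0 0 = v * (R : V) := by rw [hv, mul_assoc, Units.inv_mul, mul_one]
  obtain ⟨D, hD⟩ : IsUnit d := by
    refine (IsUnit.mul_iff.mp (show IsUnit ((R : V) * d) from ?_)).2
    have : (R : V) * d = (hh : Mat V) 0 0 * (hh : Mat V) 1 1 - (hh : Mat V) 0 1 * (hh : Mat V) 1 0 := by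
      rw [hd, hPv, hR]; ring
    rwa [this]
  set e := (hh : Mat V) 1 1 * ((D⁻¹ : Vˣ) : V) with he
  have hheq : hh = uV v * uU e * uD R D := by
    ext i k
    fin_cases i <;> fin_cases k <;>
      simp only [Units.val_mul, uV, uU, uD, Matrix.mul_apply, Fin.sum_univ_two] <;> simp
    · exact hPv
    · show (hh : Mat V) 0 1 = (v * e + -1) * (D : V)
      linear_combination hD + hd - v * (hh : Mat V) 1 1 * Units.inv_mul D
    · exact hR.symm
    · show (hh : Mat V) 1 1 = e * (D : V)
      rw [he, mul_assoc, Units.inv_mul, mul_one]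
  set y'' := (R : V) * yy * ((D⁻¹ : Vˣ) : V) + e * (w' - w) with hy''
  set b'' := (R : V) * bb * ((D⁻¹ : Vˣ) : V) with hb''
  have heq : specialPair σ (c j) (F₀ * hh) yy bb = specialPair σ (c j) (F₀ * uV v) y'' b'' := by
    have h1 : cj hh (upT w w' yy) = cj (uV v) (upT w w' y'') := by
      rw [hheq, cj_mul, cj_mul, cj_uD_upT, cj_uU_upT]
    have h2 : cj hh (upT 1 1 bb) = cj (uV v) (upT 1 1 b'') := by
      rw [hheq, cj_mul, cj_mul, cj_uD_upT, cj_uU_upT, sub_self, mul_zero, add_zero]
    simp only [specialPair, up, cj_mul, ← hw, ← hw', h1, h2]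
  rw [heq] at hp ⊢
  obtain ⟨r1, r2⟩ := hres _ _ _ hp
  rw [cj_uV_upT] at r1 r2
  have y0 : y'' ∈ maximalIdeal V := by simpa [upT] using r1 1 0
  have b0 : b'' ∈ maximalIdeal V := by simpa [upT] using r2 1 0
  have hww : w - w' ∈ maximalIdeal V := by
    have h00 := r1 0 0
    simp [upT, -mem_maximalIdeal, -mem_nonunits_iff] at h00
    have := neg_mem (add_mem h00 (Ideal.mul_mem_left _ v y0))
    convert this using 1
    ring
  have y1m : y₁ ∈ maximalIdeal V := by
    have h01 := r1 0 1
    simp [upT, -mem_maximalIdeal, -mem_nonunits_iff] at h01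
    have := sub_mem (add_mem (Ideal.mul_mem_left _ v hww) (Ideal.mul_mem_left _ (v * v) y0)) h01
    rwa [sub_sub_cancel] at this
  have b1m : b₁ ∈ maximalIdeal V := by
    have h01 := r2 0 1
    simp [upT, -mem_maximalIdeal, -mem_nonunits_iff] at h01
    have := sub_mem (Ideal.mul_mem_left _ (v * v) b0) h01
    rwa [sub_sub_cancel] at this
  let g₁ : (Mat (Polynomial V))ˣ := frameIn σ (c j) (Polynomial V) * uV (1 + Polynomial.X)
  let Pp : Mat (Polynomial V) × Mat (Polynomial V) :=
    specialPair σ (c j) g₁ (Polynomial.C y'') (Polynomial.C b'')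
  have hev : ∀ t : V, (Pp.1.map (Polynomial.eval t), Pp.2.map (Polynomial.eval t)) =
      specialPair σ (c j) (F₀ * uV (1 + t)) y'' b'' := by
    intro t
    let f : Polynomial V →ₐ[O] V := (Polynomial.aeval t).restrictScalars O
    have hU : Units.map f.toRingHom.mapMatrix.toMonoidHom (uV (1 + Polynomial.X)) = uV (1 + t) := by
      ext a b
      fin_cases a <;> fin_cases b <;> simp [uV, f]
    have := map_specialPair f σ (c j) g₁ (Polynomial.C y'') (Polynomial.C b'')
    rw [show g₁ = frameIn σ (c j) (Polynomial V) * uV (1 + Polynomial.X) from rfl, map_units_frameIn_mul,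
      hU] at this
    simpa [Pp, F₀, f, Polynomial.coe_aeval_eq_eval] using this
  have hv' : specialPair σ (c j) (F₀ * uV v) y'' b'' =
      (Pp.1.map (Polynomial.eval (v - 1)), Pp.2.map (Polynomial.eval (v - 1))) := by
    rw [hev, add_sub_cancel]
  rw [hv']
  have hcoef := coeff_family_mem h2 hc hty g₁ y0 b0 hww y1m b1m
  refine killed_move hy hz Pp (fun a b n => (hcoef a b n).1) (fun a b n => (hcoef a b n).2)
    (fun t ht => ?_) (v - 1)
  rw [hev]
  have h1t : IsUnit (1 + t) := isUnit_of_sub_mem (b := 1) (by simpa using ht) isUnit_one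
  refine caseA (uV (1 + t)) (by simpa [uV] using h1t) _ _ ?_
  rw [← hev]
  have hev' : ∀ p : Polynomial V, (∀ n, p.coeff n ∈ maximalIdeal V) → p.eval t ∈ maximalIdeal V :=
    fun p hp => by
      rw [Polynomial.eval_eq_sum_range]
      exact sum_mem fun m _ => Ideal.mul_mem_right _ _ (hp m)
  refine ⟨fun a b => ?_, fun a b => ?_⟩
  · simpa using hev' _ fun n => (hcoef a b n).1
  · simpa using hev' _ fun n => (hcoef a b n).2

omit [DecidableEq J] in
theorem killed_of_isType (hinj : Function.Injective (algebraMap O V)) [CharZero O]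
    {x : Cfg J τ V} (hx : ∀ j, Near S j (x.1 j)) (ht : ∀ t, x.2 t ∈ maximalIdeal V)
    (h : ∀ j, (S j).IsType (c j) (x.1 j)) : Killed S c x := by
  classical
  have hfin : Set.Finite (Set.univ : Set J) := Set.finite_univ
  suffices key : ∀ (s : Finset J) (y : J → Mat V × Mat V),
      (∀ j ∈ s, Near S j (y j) ∧ (S j).IsType (c j) (y j)) →
      (∀ j, j ∉ s → ∃ a : Fin 3 → V, (∀ i, a i ∈ maximalIdeal V) ∧
        y j = chartPair (S j) (c j) a) → Killed S c (y, x.2) from
    key hfin.toFinset x.1 (fun j _ => ⟨hx j, h j⟩)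
      (fun j hj => absurd (hfin.mem_toFinset.mpr trivial) hj)
  intro s
  induction s using Finset.induction_on with
  | empty => exact fun y _ hy => killed_of_chart h2 hc ht fun j => hy j (Finset.notMem_empty j)
  | insert j s hj ih =>
    intro y hadm hy
    rw [show y = Function.update y j (y j) from (Function.update_eq_self j y).symm]
    refine killed_update h2 hc (fun i hi => ?_) ht (fun a ha => ?_) hinj
      (hadm j (Finset.mem_insert_self j s)).1 (hadm j (Finset.mem_insert_self j s)).2
    · by_cases his : i ∈ s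
      · exact (hadm i (Finset.mem_insert_of_mem his)).1
      · obtain ⟨a, ha, hya⟩ := hy i (by simp [hi, his])
        rw [hya]
        exact chartPair_mem S i (c i) h2 (hc i) a ha
    · refine ih _ (fun i hi => ?_) fun i hi => ?_
      · have : i ≠ j := fun e => hj (e ▸ hi)
        simpa [Function.update_of_ne this] using hadm i (Finset.mem_insert_of_mem hi)
      · rcases eq_or_ne i j with rfl | hij
        · exact ⟨a, ha, Function.update_self ..⟩
        · simpa [Function.update_of_ne hij] using hy i (by simp [hi, hij])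

end Killed

end Fermat.Agent.Lifting.Algebra
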