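import Fermat.Agent.Lifting.Algebra.Special
import Fermat.Agent.Lifting.Algebra.KernelFinite

/-!
# The dimension of the special prime
-/

set_option autoImplicit false
set_option linter.unusedSectionVars false

noncomputable section

namespace Fermat.Agent.Lifting.Algebra

open IsLocalRing Matrix Fermat.Agent.RT.LocalRing

variable {O : Type} [CommRing O] [IsLocalRing O] [IsNoetherianRing O]
  [IsAdicComplete (maximalIdeal O) O] [Finite (ResidueField O)]
  {J τ : Type} [Finite J] [Finite τ] [DecidableEq J] {S : J → Site O} {c : J → Ty} {D : Finset J}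

/-- The variables of the chart of the special prime. -/
abbrev SpecialIdx (D : Finset J) : Type := {i : J × Fin 3 // ¬ (i.1 ∈ D ∧ i.2 = 2)}

/-- The inclusion of the variables of the special prime. -/
def specialEmb (τ : Type) (D : Finset J) (i : SpecialIdx D ⊕ τ) : (J × Fin 3) ⊕ τ :=
  i.map Subtype.val id

theorem specialEmb_injective : Function.Injective (specialEmb τ D) :=
  Sum.map_injective.mpr ⟨Subtype.val_injective, Function.injective_id⟩

/-- Two endomorphisms of the special fibre agreeing on the variables are equal. -/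
theorem algHom_ext_X_kSeries' {F G : KSeries J τ O →ₐ[O] KSeries J τ O}
    (hF : ∀ i, F (MvPowerSeries.X i) ∈ maximalIdeal (KSeries J τ O))
    (h : ∀ i, F (MvPowerSeries.X i) = G (MvPowerSeries.X i)) : F = G := by
  have := isAdicComplete_kSeries (O := O) (J := J) (τ := τ)
  have hlin : ∀ H : KSeries J τ O →ₐ[O] KSeries J τ O, ∀ r : ResidueField O,
      H (algebraMap (ResidueField O) (KSeries J τ O) r) = algebraMap _ _ r := fun H r => by
    obtain ⟨a, rfl⟩ := residue_surjective r
    have e : algebraMap (ResidueField O) (KSeries J τ O) (residue O a) =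
        algebraMap O (KSeries J τ O) a := by
      rw [algebraMap_kSeries, MvPowerSeries.algebraMap_apply]; rfl
    rw [e]
    exact H.commutes a
  let lin : (KSeries J τ O →ₐ[O] KSeries J τ O) →
      (KSeries J τ O →ₐ[ResidueField O] KSeries J τ O) :=
    fun H => { H.toRingHom with commutes' := hlin H }
  have := algHom_ext_X (F := lin F) (G := lin G) hF h
  exact AlgHom.ext fun x => AlgHom.congr_fun this x

variable (h2 : IsUnit (2 : O)) (hc : ∀ j, (S j).Allowed (c j))
include h2 hc

/-- Test functions for the variables of the special prime. -/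
theorem exists_witness (G : PSR J τ O →ₐ[O] KSeries J τ O)
    (hG : ∀ i, G (MvPowerSeries.X i) = coordsOf S (specialCfg S τ c D) i)
    (i : SpecialIdx D ⊕ τ) :
    ∃ w : PSR J τ O, G w = MvPowerSeries.X (specialEmb τ D i) ∨
      ∃ (k : SpecialIdx D) (j : J) (b : O), i = Sum.inl k ∧ k.1 = (j, 0) ∧
        G w = MvPowerSeries.X (Sum.inl (j, 0)) *
          (algebraMap O (KSeries J τ O) b + MvPowerSeries.X (Sum.inl (j, 1))) := by
  rcases i with ⟨⟨j, i⟩, hji⟩ | t
  swap
  · exact ⟨MvPowerSeries.X (Sum.inr t), Or.inl (hG _)⟩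
  have hv : specialVar (O := O) τ D j i = MvPowerSeries.X (Sum.inl (j, i)) := by
    rw [specialVar, if_neg hji]
  have h0 : specialVar (O := O) τ D j 0 = MvPowerSeries.X (Sum.inl (j, (0 : Fin 3))) := by
    simp [specialVar]
  have h1 : specialVar (O := O) τ D j 1 = MvPowerSeries.X (Sum.inl (j, (1 : Fin 3))) := by
    simp [specialVar]
  have hp := map_chartHom_univPair hG j
  by_cases hty : c j = .unram
  · have e : ∀ a b : Fin 2, G (MvPowerSeries.X (Sum.inl (j, false, a, b))) =
        (chartPair (S j) .unram (specialVar (O := O) τ D j)).1 a b -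
          (centreCfg S (KSeries J τ O) j).1 a b := fun a b => by
      rw [hG, ← hty]; rfl
    match i, hji, hv with
    | 0, _, hv =>
      exact ⟨MvPowerSeries.X (Sum.inl (j, false, 0, 0)), Or.inl (by
        rw [e]; simp [chartPair, centreCfg, Site.centre, upT, h0, specialEmb])⟩
    | 1, _, hv =>
      exact ⟨MvPowerSeries.X (Sum.inl (j, false, 0, 1)), Or.inl (by
        rw [e]; simp [chartPair, centreCfg, Site.centre, upT, h1, specialEmb])⟩
    | 2, _, hv =>
      exact ⟨MvPowerSeries.X (Sum.inl (j, false, 1, 0)), Or.inl (by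
        rw [e]; simp [chartPair, centreCfg, Site.centre, upT, hv, specialEmb])⟩
  have eA : ∀ a b, G (frameA (S j) (c j) (univPair S τ j) a b) =
      frameA (S j) (c j) (chartPair (S j) (c j) (specialVar (O := O) τ D j)) a b := fun a b => by
    have h := congrFun (congrFun (map_frameA (σ := S j) (ty := c j) G (univPair S τ j)) a) b
    rw [Matrix.map_apply] at h
    rw [h, hp]; rfl
  have eN : ∀ a b, G (frameN (S j) (c j) (univPair S τ j) a b) =
      frameN (S j) (c j) (chartPair (S j) (c j) (specialVar (O := O) τ D j)) a b := fun a b => by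
    have h := congrFun (congrFun (map_frameN (σ := S j) (ty := c j) G (univPair S τ j)) a) b
    rw [Matrix.map_apply] at h
    rw [h, hp]; rfl
  match i, hji, hv with
  | 0, hji, hv =>
    refine ⟨frameA (S j) (c j) (univPair S τ j) 1 1,
      Or.inr ⟨_, j, (S j).corner (c j), rfl, rfl, ?_⟩⟩
    rw [eA, frameA_chartPair hty]
    simp [h0, h1]
  | 1, _, hv =>
    refine ⟨frameA (S j) (c j) (univPair S τ j) 0 1 - algebraMap O _ ((S j).corner (c j)),
      Or.inl ?_⟩
    rw [map_sub, G.commutes, eA, frameA_chartPair hty]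
    simp [h1, specialEmb]
  | 2, _, hv =>
    refine ⟨frameN (S j) (c j) (univPair S τ j) 0 1 - algebraMap O _ ((S j).mono (c j)),
      Or.inl ?_⟩
    rw [map_sub, G.commutes, eN, frameN_chartPair hty]
    simp [hv, specialEmb]

theorem card_le_ringKrullDim_special :
    ((Nat.card (SpecialIdx D ⊕ τ) : ℕ) : WithBot ℕ∞) ≤
      ringKrullDim (PSR J τ O ⧸ specialPrime S τ c D) := by
  classical
  have : IsDomain (KSeries J τ O) := NoZeroDivisors.to_isDomain _
  have := isAdicComplete_kSeries (O := O) (J := J) (τ := τ)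
  obtain ⟨G, hG⟩ := exists_specialHom (τ := τ) (D := D) h2 hc
  choose T hT using fun K : Finset (SpecialIdx D ⊕ τ) =>
    exists_killHom (O := O) (J := J) (τ := τ) (K.image (specialEmb τ D))
  have hT' : ∀ K i, T K (MvPowerSeries.X (specialEmb τ D i)) =
      if i ∈ K then 0 else MvPowerSeries.X (specialEmb τ D i) := fun K i => by
    rw [hT]; simp [specialEmb_injective.eq_iff]
  have hlift : ∀ K, ∀ x ∈ specialPrime S τ c D, ((T K).comp G : PSR J τ O →+* KSeries J τ O) x = 0 := by
    intro K x hx
    rw [specialPrime_eq_ker h2 hc G hG, RingHom.mem_ker] at hx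
    simp [hx]
  let φ := fun K => Ideal.Quotient.lift (specialPrime S τ c D) _ (hlift K)
  let p : Finset (SpecialIdx D ⊕ τ) → PrimeSpectrum (PSR J τ O ⧸ specialPrime S τ c D) :=
    fun K => ⟨RingHom.ker (φ K), RingHom.ker_isPrime _⟩
  refine card_le_krullDim p
    (fun K => ∀ (k k' : SpecialIdx D) (j : J), k.1 = (j, 1) → k'.1 = (j, 0) →
      Sum.inl k ∈ K → Sum.inl k' ∈ K)
    (fun k k' j _ _ h => absurd h (Finset.notMem_empty _)) fun K hgood hex => ?_
  have hstrict : ∀ i, i ∉ K →
      (∀ (k : SpecialIdx D) (j : J), i = Sum.inl k → k.1 = (j, 0) →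
        ∀ k' : SpecialIdx D, k'.1 = (j, 1) → Sum.inl k' ∉ K) →
      p K < p (insert i K) := by
    intro i hi hu
    rw [← PrimeSpectrum.asIdeal_lt_asIdeal]
    refine lt_of_le_of_ne (fun x hx => ?_) fun heq => ?_
    · obtain ⟨y, rfl⟩ := Ideal.Quotient.mk_surjective x
      have hx' : T K (G y) = 0 := hx
      have hcomp : (T (insert i K)).comp (T K) = T (insert i K) := by
        refine algHom_ext_X_kSeries' (fun v => ?_) fun v => ?_
        · rw [AlgHom.comp_apply, hT]
          split_ifs
          · rw [map_zero]; exact zero_mem _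
          · rw [hT]; split_ifs
            · exact zero_mem _
            · exact X_mem_kSeries _
        · rw [AlgHom.comp_apply, hT]
          split_ifs with h
          · rw [map_zero, hT, if_pos]
            exact Finset.image_subset_image (Finset.subset_insert _ _) h
          · rfl
      show T (insert i K) (G y) = 0
      rw [← hcomp, AlgHom.comp_apply, hx', map_zero]
    · obtain ⟨w, hw⟩ := exists_witness h2 hc G hG i
      have hkill : T (insert i K) (G w) = 0 := by
        rcases hw with hw | ⟨k, j, b, rfl, hk, hw⟩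
        · rw [hw, hT', if_pos (Finset.mem_insert_self _ _)]
        · have : specialEmb τ D (Sum.inl k) = Sum.inl (j, 0) := by simp [specialEmb, hk]
          rw [hw, map_mul, ← this, hT', if_pos (Finset.mem_insert_self _ _), zero_mul]
      have hne : T K (G w) ≠ 0 := by
        rcases hw with hw | ⟨k, j, b, rfl, hk, hw⟩
        · rw [hw, hT', if_neg hi]
          exact fun h => by
            simpa using congrArg (MvPowerSeries.coeff (Finsupp.single (specialEmb τ D i) 1)) h
        · set k1 : SpecialIdx D := ⟨(j, 1), fun h => absurd h.2 (show (1 : Fin 3) ≠ 2 by decide)⟩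
          have e0 : specialEmb τ D (Sum.inl k) = Sum.inl (j, 0) := by simp [specialEmb, hk]
          have e1 : specialEmb τ D (Sum.inl k1) = Sum.inl (j, 1) := rfl
          rw [hw, map_mul, map_add, AlgHom.commutes, ← e0, ← e1, hT', hT', if_neg hi,
            if_neg (hu k j rfl hk k1 rfl), e0, e1]
          refine mul_ne_zero (fun h => ?_) (const_add_X_ne_zero _ _)
          simpa using congrArg
            (MvPowerSeries.coeff (Finsupp.single (Sum.inl (j, (0 : Fin 3))) 1)) h
      have hmem : Ideal.Quotient.mk (specialPrime S τ c D) w ∈ (p (insert i K)).asIdeal := hkill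
      rw [← heq] at hmem
      exact hne hmem
  by_cases hu : ∃ (k : SpecialIdx D) (j : J), k.1 = (j, 0) ∧ Sum.inl k ∉ K
  · obtain ⟨k, j, hk, hkK⟩ := hu
    refine ⟨Sum.inl k, hkK, fun a a' j' ha ha' h => ?_, hstrict _ hkK ?_⟩
    · rcases Finset.mem_insert.mp h with h | h
      · have : a = k := Sum.inl_injective h
        rw [this, hk] at ha
        simp at ha
      · exact Finset.mem_insert_of_mem (hgood a a' j' ha ha' h)
    · intro k₀ j₀ h0 hk0 k' hk' hk'K
      obtain rfl : k = k₀ := Sum.inl_injective h0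
      exact hkK (hgood k' k j₀ hk' hk0 hk'K)
  · push Not at hu
    obtain ⟨i, hi⟩ := hex
    refine ⟨i, hi, fun a a' j' _ ha' _ => Finset.mem_insert_of_mem (hu a' j' ha'),
      hstrict i hi fun k j hik hk => absurd (hu k j hk) (hik ▸ hi)⟩

theorem not_le_specialPrime' [CharZero O]
    (hD : ∀ j ∈ D, c j = .same ∧ (S j).b₀ ∈ maximalIdeal O) {τ' : Type} [Finite τ']
    (hcard : Nat.card τ' < Nat.card τ) (I : Ideal (PSR J τ O))
    (ι : PSR J τ' O →ₐ[O] PSR J τ O)
    (hι : ∀ x, ι (MvPowerSeries.X (Sum.inl x)) = MvPowerSeries.X (Sum.inl x))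
    (hι' : ∀ t, ι (MvPowerSeries.X (Sum.inr t)) ∈ maximalIdeal (PSR J τ O))
    (hsurj : Function.Surjective
      ((Ideal.Quotient.mk (I ⊔ kernel S τ c)).comp ι.toRingHom)) :
    ¬ I ≤ specialPrime S τ c D := by
  intro hI
  choose g hg hsite using exists_siteGens (τ := τ) h2 hc
  have := mvPowerSeries_isAdicComplete (O := O) (σ := Idx J τ)
  have := mvPowerSeries_isAdicComplete (O := O) (σ := SpecialIdx D ⊕ τ')
  have := isLocalHom_algebraMap_psr (J := J) (τ := τ) (O := O)
  have := finite_residueField_psr (O := O) (σ := Idx J τ)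
  set 𝔔 := specialPrime S τ c D with h𝔔
  have hQp : 𝔔.IsPrime := specialPrime_isPrime' h2 hc
  have hQm : (maximalIdeal O).map (algebraMap O (PSR J τ O)) ≤ 𝔔 :=
    map_maximalIdeal_le_specialPrime' h2 hc
  have hIk : I ⊔ kernel S τ c ≤ 𝔔 := sup_le hI (kernel_le_specialPrime' h2 hc)
  obtain ⟨G, hG⟩ := exists_specialHom (τ := τ) (D := D) h2 hc
  have hDsig : ∀ j ∈ D, ∀ a b, MvPowerSeries.X (Sum.inl (j, true, a, b)) ∈ 𝔔 := by
    intro j hj a b
    rw [h𝔔, specialPrime_eq_ker h2 hc G hG, RingHom.mem_ker, hG]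
    show ((chartPair (S j) (c j) (specialVar (O := O) τ D j)).2 -
      (centreCfg S (KSeries J τ O) j).2) a b = 0
    rw [special_snd_eq_one h2 hc hj (hD j hj).1 (hD j hj).2]
    fin_cases a <;> fin_cases b <;>
      simp [centreCfg, Site.centre, upT, algebraMap_kSeries_eq_zero (hD j hj).2]
  let x : SpecialIdx D ⊕ τ' → PSR J τ O :=
    Sum.elim (fun i => g i.1.1 i.1.2) fun t => ι (MvPowerSeries.X (Sum.inr t))
  have hxm : ∀ i, x i ∈ maximalIdeal (PSR J τ O) := by
    rintro (i | t)
    · exact hg _ _
    · exact hι' t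
  obtain ⟨ψ, hψ⟩ := RT.exists_eval (L := O) (R := PSR J τ O) x hxm
  have hfin : ((Ideal.Quotient.mk 𝔔).comp ψ.toRingHom).Finite := by
    refine finite_mk_comp_of_forall_prime _ ?_ _ fun 𝔭 h𝔭 hk hmap => ?_
    · rw [Ideal.map_le_iff_le_comap]
      refine maximalIdeal_le_of_X_mem _ ?_ fun i => ?_
      · rw [Ideal.map_le_iff_le_comap]
        intro a ha
        show ψ (algebraMap O _ a) ∈ maximalIdeal _
        rw [ψ.commutes]
        exact map_nonunit (algebraMap O (PSR J τ O)) a ha
      · show ψ (MvPowerSeries.X i) ∈ maximalIdeal _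
        rw [hψ]
        exact hxm i
    · have hx : ∀ i, x i ∈ 𝔭 := fun i => hψ i ▸ hmap (Ideal.mem_map_of_mem _ (by
        rw [RT.mem_maximalIdeal_mvPowerSeries, MvPowerSeries.constantCoeff_X]; exact zero_mem _))
      have hm := hQm.trans hk
      have hK : kernel S τ c ≤ 𝔭 := (le_sup_right.trans hIk).trans hk
      have hsiteX : ∀ j s a b, MvPowerSeries.X (Sum.inl (j, s, a, b)) ∈ 𝔭 := by
        intro j
        refine (hsite j 𝔭 h𝔭 hK hm).1 fun i => ?_
        by_cases hji : j ∈ D ∧ i = 2
        · obtain ⟨hj, rfl⟩ := hji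
          exact (hsite j 𝔭 h𝔭 hK hm).2 (hD j hj).1 (hD j hj).2 fun a b => hk (hDsig j hj a b)
        · exact hx (Sum.inl ⟨(j, i), hji⟩)
      have hιm : maximalIdeal (PSR J τ' O) ≤ 𝔭.comap ι.toRingHom := by
        refine maximalIdeal_le_of_X_mem _ ?_ ?_
        · rw [Ideal.map_le_iff_le_comap]
          intro a ha
          show ι (algebraMap O _ a) ∈ 𝔭
          rw [ι.commutes]
          exact hm (Ideal.mem_map_of_mem _ ha)
        · rintro (⟨j, s, a, b⟩ | t)
          · show ι (MvPowerSeries.X _) ∈ 𝔭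
            rw [hι]
            exact hsiteX j s a b
          · exact hx (Sum.inr t)
      refine maximalIdeal_le_of_X_mem 𝔭 hm ?_
      rintro (⟨j, s, a, b⟩ | t)
      · exact hsiteX j s a b
      · obtain ⟨y, hy⟩ := hsurj (Ideal.Quotient.mk _ (MvPowerSeries.X (Sum.inr t)))
        have hd : ι y - MvPowerSeries.X (Sum.inr t) ∈ 𝔔 := hIk (Ideal.Quotient.eq.mp hy)
        have hym : y ∈ maximalIdeal (PSR J τ' O) := fun hu => by
          have hu' : IsUnit (ι y) := hu.map ι
          refine notMem_maximalIdeal.mpr hu' ?_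
          have := add_mem (IsLocalRing.le_maximalIdeal hQp.ne_top hd) (X_mem_maximalIdeal (Sum.inr t))
          rwa [sub_add_cancel] at this
        have := sub_mem (show ι y ∈ 𝔭 from hιm hym) (hk hd)
        rwa [sub_sub_cancel] at this
  have : Nontrivial (PSR J τ O ⧸ 𝔔) := Ideal.Quotient.nontrivial_iff.mpr hQp.ne_top
  have hup : ringKrullDim (PSR J τ O ⧸ 𝔔) ≤ (Nat.card (SpecialIdx D ⊕ τ') : ℕ) := by
    refine ringKrullDim_le_card_of_finite hfin MvPowerSeries.X (fun i => ?_) ?_
    · rw [RT.mem_maximalIdeal_mvPowerSeries, MvPowerSeries.constantCoeff_X]; exact zero_mem _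
    · refine maximalIdeal_le_of_X_mem _ ?_ fun i =>
        Submodule.mem_sup_right (Ideal.subset_span ⟨i, rfl⟩)
      rw [Ideal.map_le_iff_le_comap]
      intro a ha
      refine Submodule.mem_sup_left ?_
      rw [RingHom.mem_ker, RingHom.comp_apply, AlgHom.toRingHom_eq_coe, RingHom.coe_coe,
        ψ.commutes, Ideal.Quotient.eq_zero_iff_mem]
      exact hQm (Ideal.mem_map_of_mem _ ha)
  have h := Nat.cast_le.mp ((card_le_ringKrullDim_special (τ := τ) (D := D) h2 hc).trans hup)
  rw [Nat.card_sum, Nat.card_sum] at h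
  omega

end Fermat.Agent.Lifting.Algebra
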