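import Fermat.Agent.Lifting.Algebra.Chart
import Fermat.Agent.Lifting.Algebra.Points
import Fermat.Agent.Lifting.Algebra.KernelFinite
import Fermat.Agent.Lifting.Algebra.SpecialDim
import Fermat.Agent.Lifting.Algebra.Annihilator
import Mathlib.RingTheory.MvPowerSeries.NoZeroDivisors

/-!
# Components at the primes of `Σ`: the output used by the lifting argument

For a choice `c` of component at every site, `kernel S τ c` is a prime of characteristic zero of
`P = O⟦coordinates of (Φ_j, Σ_j), free variables⟧`, `P / kernel` is finite over a power series ring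
in `3 |J| + |τ|` variables and every point of type `c` kills it. `specialPrime S τ c D` is a prime
over `p` on the component `c` and, at the sites of `D`, also on the unramified one; it avoids all
other components.
-/

set_option autoImplicit false
set_option linter.unusedSectionVars false

noncomputable section

namespace Fermat.Agent.Lifting.Algebra

open IsLocalRing Fermat.Agent.RT.LocalRing

variable {O : Type} [CommRing O] [IsDomain O] [IsDiscreteValuationRing O]
  [IsAdicComplete (maximalIdeal O) O] [Finite (ResidueField O)] [CharZero O]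
  {J τ : Type} [Finite J] [Finite τ] (S : J → Site O) (h2 : IsUnit (2 : O)) {c : J → Ty}

section Points

variable {V : Type} [CommRing V] [IsDomain V] [IsDiscreteValuationRing V]
  [IsAdicComplete (maximalIdeal V) V] [Algebra O V] [IsLocalHom (algebraMap O V)]

theorem near_familyOf {v : Idx J τ → V} (hv : ∀ i, v i ∈ maximalIdeal V) (j : J) :
    Near S j ((familyOf S v).1 j) := by
  refine ⟨fun a b => ?_, fun a b => ?_⟩
  · simpa [familyOf] using hv (Sum.inl (j, false, a, b))
  · simpa [familyOf] using hv (Sum.inl (j, true, a, b))

include h2 in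
/-- A point in the residual disc satisfying the common relations lies on a component through the
centre. -/
theorem exists_type (hinj : Function.Injective (algebraMap O V)) (v : Idx J τ → V)
    (hv : ∀ i, v i ∈ maximalIdeal V) (j : J) (h : (S j).IsLocalPair ((familyOf S v).1 j)) :
    ∃ ty, (S j).Allowed ty ∧ (S j).IsType ty ((familyOf S v).1 j) :=
  exists_type' h2 hinj (near_familyOf S hv j) h

include h2 in
/-- A point of type `ty` in the residual disc shows that `ty` passes through the centre. -/
theorem allowed_of_isType (hinj : Function.Injective (algebraMap O V)) (v : Idx J τ → V)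
    (hv : ∀ i, v i ∈ maximalIdeal V) (j : J) {ty : Ty}
    (h : (S j).IsType ty ((familyOf S v).1 j)) : (S j).Allowed ty :=
  allowed_of_isType' h2 hinj (near_familyOf S hv j) h

include h2 in
/-- Every point of type `c` kills the kernel of `c`. -/
theorem kernel_le_ker_of_isType (hinj : Function.Injective (algebraMap O V))
    (F : PSR J τ O →ₐ[O] V) (hF : ∀ i, F (MvPowerSeries.X i) ∈ maximalIdeal V)
    (h : ∀ j, (S j).IsType (c j) ((familyOf S (F ∘ MvPowerSeries.X)).1 j)) :
    kernel S τ c ≤ RingHom.ker F :=
  killed_of_isType h2 (fun j => allowed_of_isType S h2 hinj _ hF j (h j)) hinj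
    (fun j => near_familyOf S hF j) (fun t => hF (Sum.inr t)) h F
    (fun i => by rw [coordsOf_familyOf])

end Points

section Kernel

include h2 in
theorem kernel_isPrime (hc : ∀ j, (S j).Allowed (c j)) : (kernel S τ c).IsPrime := by
  obtain ⟨F, hF⟩ := exists_chartHom (τ := τ) h2 hc
  rw [kernel_eq_ker h2 hc F hF]
  have : IsDomain (Om J τ O) := NoZeroDivisors.to_isDomain _
  exact RingHom.ker_isPrime _

include h2 in
theorem eq_zero_of_algebraMap_mem_kernel (hc : ∀ j, (S j).Allowed (c j)) (a : O)
    (ha : algebraMap O (PSR J τ O) a ∈ kernel S τ c) : a = 0 := by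
  obtain ⟨F, hF⟩ := exists_chartHom (τ := τ) h2 hc
  rw [kernel_eq_ker h2 hc F hF, RingHom.mem_ker, F.commutes, MvPowerSeries.algebraMap_apply] at ha
  simpa using congrArg MvPowerSeries.constantCoeff ha

include h2 in
/-- `P / kernel` is finite over a power series ring in `3 |J| + |τ|` variables. -/
theorem exists_finite_kernel (hc : ∀ j, (S j).Allowed (c j)) :
    ∃ ψ : MvPowerSeries ((J × Fin 3) ⊕ τ) O →ₐ[O] PSR J τ O,
      ((Ideal.Quotient.mk (kernel S τ c)).comp ψ.toRingHom).Finite := by
  exact exists_finite_kernel' h2 hc

end Kernel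

section Special

variable [DecidableEq J] {D : Finset J}

include h2 in
theorem specialPrime_isPrime (hc : ∀ j, (S j).Allowed (c j)) :
    (specialPrime S τ c D).IsPrime := by
  exact specialPrime_isPrime' h2 hc

include h2 in
theorem map_maximalIdeal_le_specialPrime (hc : ∀ j, (S j).Allowed (c j)) :
    (maximalIdeal O).map (algebraMap O (PSR J τ O)) ≤ specialPrime S τ c D := by
  exact map_maximalIdeal_le_specialPrime' h2 hc

include h2 in
theorem kernel_le_specialPrime (hc : ∀ j, (S j).Allowed (c j)) :
    kernel S τ c ≤ specialPrime S τ c D := by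
  exact kernel_le_specialPrime' h2 hc

include h2 in
/-- At the sites of `D` (of type `same`, residually unramified) the special prime is also on the
unramified component. -/
theorem kernel_le_specialPrime_of_unram (hc : ∀ j, (S j).Allowed (c j))
    (hD : ∀ j ∈ D, c j = .same ∧ (S j).b₀ ∈ maximalIdeal O) {c' : J → Ty}
    (hc' : ∀ j, c' j = c j ∨ (j ∈ D ∧ c' j = .unram)) :
    kernel S τ c' ≤ specialPrime S τ c D := by
  exact kernel_le_specialPrime_of_unram' h2 hc hD hc'

include h2 in
/-- `tr Φ - s (q + 1)` lies in the special prime at the special sites. -/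
theorem trace_sub_mem_specialPrime (hc : ∀ j, (S j).Allowed (c j)) {j : J} (hj : c j = .same) :
    ((universalFamily S τ).1 j).1.trace -
        algebraMap O (PSR J τ O) ((S j).sgn * (((S j).q : O) + 1)) ∈ specialPrime S τ c D := by
  exact trace_sub_mem_specialPrime' h2 hc hj

include h2 in
/-- The special prime avoids every component differing from `c` outside `D`. -/
theorem not_kernel_le_specialPrime (hc : ∀ j, (S j).Allowed (c j)) {c' : J → Ty}
    (hc' : ∀ j, (S j).Allowed (c' j)) {j : J} (hj : j ∉ D) (hne : c' j ≠ c j) :
    ¬ kernel S τ c' ≤ specialPrime S τ c D := by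
  exact not_kernel_le_specialPrime' h2 hc hc' hj hne

include h2 in
/-- Dimension lemma: if `P / (I ⊔ kernel c)` is generated over the local coordinates by fewer free
variables than `P` has, then `I` is not contained in the special prime. -/
theorem not_le_specialPrime (hc : ∀ j, (S j).Allowed (c j))
    (hD : ∀ j ∈ D, c j = .same ∧ (S j).b₀ ∈ maximalIdeal O) {τ' : Type} [Finite τ']
    (hcard : Nat.card τ' < Nat.card τ) (I : Ideal (PSR J τ O))
    (ι : PSR J τ' O →ₐ[O] PSR J τ O)
    (hι : ∀ x, ι (MvPowerSeries.X (Sum.inl x)) = MvPowerSeries.X (Sum.inl x))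
    (hι' : ∀ t, ι (MvPowerSeries.X (Sum.inr t)) ∈ maximalIdeal (PSR J τ O))
    (hsurj : Function.Surjective
      ((Ideal.Quotient.mk (I ⊔ kernel S τ c)).comp ι.toRingHom)) :
    ¬ I ≤ specialPrime S τ c D := by
  exact not_le_specialPrime' h2 hc hD hcard I ι hι hι' hsurj

end Special

end Fermat.Agent.Lifting.Algebra
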