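import Fermat.Agent.Lifting.Algebra.Site
import Fermat.Agent.RT.LocalRing.Scalar
import Mathlib.Tactic.FinCases

/-!
# The charts of the components and their kernels
-/

set_option autoImplicit false

noncomputable section

namespace Fermat.Agent.Lifting.Algebra

open IsLocalRing Matrix Fermat.Agent.RT.LocalRing

variable {J τ O : Type} [CommRing O]

/-- Variables of the special fibre. -/
abbrev KSeries (J τ O : Type) [CommRing O] [IsLocalRing O] : Type :=
  MvPowerSeries ((J × Fin 3) ⊕ τ) (ResidueField O)

/-- The universal point of the component `c`. -/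
def chartCfg (S : J → Site O) (τ : Type) (c : J → Ty) : Cfg J τ (Om J τ O) :=
  (fun j => chartPair (S j) (c j) fun i => MvPowerSeries.X (Sum.inl (j, i)),
    fun t => MvPowerSeries.X (Sum.inr t))

/-- The kernel of the chart of the component `c`. -/
def kernel (S : J → Site O) (τ : Type) (c : J → Ty) : Ideal (PSR J τ O) :=
  ⨅ F : {F : PSR J τ O →ₐ[O] Om J τ O //
    ∀ i, F (MvPowerSeries.X i) = coordsOf S (chartCfg S τ c) i}, RingHom.ker F.1

/-- The variables of the special prime: at the sites of `D` the monodromy is specialised to `0`. -/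
def specialVar [IsLocalRing O] [DecidableEq J] (τ : Type) (D : Finset J) (j : J) (i : Fin 3) :
    KSeries J τ O :=
  if j ∈ D ∧ i = 2 then 0 else MvPowerSeries.X (Sum.inl (j, i))

/-- The universal point of the special prime. -/
def specialCfg [IsLocalRing O] [DecidableEq J] (S : J → Site O) (τ : Type) (c : J → Ty)
    (D : Finset J) : Cfg J τ (KSeries J τ O) :=
  (fun j => chartPair (S j) (c j) (specialVar τ D j), fun t => MvPowerSeries.X (Sum.inr t))

/-- The special prime over `p` of the component `c`, on which also `Σ = 1` at the sites of `D`. -/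
def specialPrime [IsLocalRing O] [DecidableEq J] (S : J → Site O) (τ : Type) (c : J → Ty)
    (D : Finset J) : Ideal (PSR J τ O) :=
  ⨅ F : {F : PSR J τ O →ₐ[O] KSeries J τ O //
    ∀ i, F (MvPowerSeries.X i) = coordsOf S (specialCfg S τ c D) i}, RingHom.ker F.1

section Natural

variable {A B : Type} [CommRing A] [CommRing B] [Algebra O A] [Algebra O B]

theorem map_upT' (f : A →ₐ[O] B) (w w' b : A) :
    (upT w w' b).map f = upT (f w) (f w') (f b) :=
  map_upT (f : A →+* B) w w' b

theorem map_units_frameIn (f : A →ₐ[O] B) (σ : Site O) (ty : Ty) :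
    Units.map f.toRingHom.mapMatrix.toMonoidHom (frameIn σ ty A) = frameIn σ ty B := by
  ext a b
  show f (algebraMap O A _) = algebraMap O B _
  rw [f.commutes]

theorem map_units_uL (f : A →ₐ[O] B) (u : A) :
    Units.map f.toRingHom.mapMatrix.toMonoidHom (uL u) = uL (f u) := by
  ext a b
  fin_cases a <;> fin_cases b <;> simp [uL]

theorem map_specialPair (f : A →ₐ[O] B) (σ : Site O) (ty : Ty) (g : (Mat A)ˣ) (y b : A) :
    ((specialPair σ ty g y b).1.map f, (specialPair σ ty g y b).2.map f) =
      specialPair σ ty (Units.map f.toRingHom.mapMatrix.toMonoidHom g) (f y) (f b) := by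
  simp only [specialPair, up]
  refine Prod.ext ?_ ?_
  all_goals
    show Matrix.map (cj g _) (f.toRingHom : A →+* B) = _
    rw [map_cj, map_upT]
    simp

theorem map_chartPair (f : A →ₐ[O] B) (σ : Site O) (ty : Ty) (x : Fin 3 → A)
    (hu : ty = .unram → IsUnit (algebraMap O A ((σ.q : O) * σ.sgn) + x 0)) :
    ((chartPair σ ty x).1.map f, (chartPair σ ty x).2.map f) = chartPair σ ty (f ∘ x) := by
  have hs : ∀ ty', ((specialPair σ ty' (frameIn σ ty' A * uL (x 0))
      (algebraMap O A (σ.corner ty') + x 1) (algebraMap O A (σ.mono ty') + x 2)).1.map f,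
      (specialPair σ ty' (frameIn σ ty' A * uL (x 0))
      (algebraMap O A (σ.corner ty') + x 1) (algebraMap O A (σ.mono ty') + x 2)).2.map f) =
      specialPair σ ty' (frameIn σ ty' B * uL (f (x 0)))
      (algebraMap O B (σ.corner ty') + f (x 1)) (algebraMap O B (σ.mono ty') + f (x 2)) := by
    intro ty'
    rw [map_specialPair, map_mul, map_units_frameIn, map_units_uL, map_add, map_add, f.commutes,
      f.commutes]
  cases ty
  · obtain ⟨v, hv⟩ := hu rfl
    have hv' : algebraMap O B ((σ.q : O) * σ.sgn) + f (x 0) =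
        Units.map f.toRingHom.toMonoidHom v := by
      simp [hv, map_add]
    simp only [chartPair, Function.comp_apply]
    refine Prod.ext ?_ ?_
    · ext a b
      fin_cases a <;> fin_cases b <;> simp [map_add, map_mul]
      congr 1
      rw [← map_natCast (algebraMap O A), ← map_mul, ← hv, Ring.inverse_unit,
        ← map_natCast (algebraMap O B), ← map_mul, hv', Ring.inverse_unit]
      rfl
    · exact f.toRingHom.mapMatrix.map_one
  · exact hs .same
  · exact hs .opp

theorem map_centreCfg (f : A →ₐ[O] B) (S : J → Site O) (j : J) :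
    ((centreCfg S A j).1.map f, (centreCfg S A j).2.map f) = centreCfg S B j := by
  refine Prod.ext ?_ ?_ <;> (ext a b; exact f.commutes _)

theorem map_coordsOf (f : A →ₐ[O] B) (S : J → Site O) (x : Cfg J τ A) (i : Idx J τ) :
    f (coordsOf S x i) = coordsOf S (mapCfg f x) i := by
  rcases i with ⟨j, s, a, b⟩ | t
  · have h := map_centreCfg f S j
    cases s
    · simp only [coordsOf, mapCfg, Matrix.sub_apply, map_sub, Matrix.map_apply, ← h]
    · simp only [coordsOf, mapCfg, Matrix.sub_apply, map_sub, Matrix.map_apply, ← h]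
  · rfl

theorem familyOf_coordsOf (S : J → Site O) (x : Cfg J τ A) : familyOf S (coordsOf S x) = x := by
  refine Prod.ext (funext fun j => Prod.ext ?_ ?_) (funext fun t => rfl)
  · ext a b; simp [familyOf, coordsOf]
  · ext a b; simp [familyOf, coordsOf]

theorem coordsOf_familyOf (S : J → Site O) (v : Idx J τ → A) : coordsOf S (familyOf S v) = v := by
  funext i
  rcases i with ⟨j, s, a, b⟩ | t
  · cases s <;> simp [familyOf, coordsOf]
  · rfl

/-- The image of the universal family under a homomorphism. -/
theorem mapCfg_universalFamily (S : J → Site O) (F : PSR J τ O →ₐ[O] A) :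
    mapCfg F (universalFamily S τ) = familyOf S (F ∘ MvPowerSeries.X) := by
  rw [← familyOf_coordsOf S (mapCfg F (universalFamily S τ))]
  congr 1
  funext i
  rw [← map_coordsOf, universalFamily, coordsOf_familyOf, Function.comp_apply]

/-- At the origin every chart is at the centre. -/
theorem chartPair_zero (σ : Site O) (ty : Ty) (h2 : IsUnit (2 : O))
    (hu : ty = .unram → algebraMap O A σ.b₀ = 0)
    (ho : ty = .opp → algebraMap O A σ.b₀ = 0 ∧ (σ.q : A) = -1) :
    chartPair σ ty (fun _ => (0 : A)) =
      (σ.centre.1.map (algebraMap O A), σ.centre.2.map (algebraMap O A)) := by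
  have hs : algebraMap O A σ.sgn * algebraMap O A σ.sgn = 1 := by
    rw [← map_mul, σ.sgn_sq, map_one]
  have e1 : (upT (1 : A) 1 0) = 1 := by
    ext a b; fin_cases a <;> fin_cases b <;> simp [upT]
  simp only [Site.centre, map_upT, map_mul, map_natCast, map_one]
  cases ty
  · have hq : IsUnit ((σ.q : A) * algebraMap O A σ.sgn) := by
      refine (IsUnit.mul ?_ (IsUnit.of_mul_eq_one _ hs))
      simpa using σ.q_unit.map (algebraMap O A)
    refine Prod.ext ?_ ?_
    · have hi : (σ.q : A) * Ring.inverse ((σ.q : A) * algebraMap O A σ.sgn) =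
          algebraMap O A σ.sgn := by
        refine hq.mul_right_cancel ?_
        rw [mul_assoc, Ring.inverse_mul_cancel _ hq, mul_one]
        linear_combination (-(σ.q : A)) * hs
      ext a b
      fin_cases a <;> fin_cases b <;> simp [chartPair, upT, hi]
    · show (1 : Mat A) = _
      rw [hu rfl, e1]
  · have hg : frameIn σ .same A * uL (0 : A) = 1 := by
      ext a b
      fin_cases a <;> fin_cases b <;>
        simp [frameIn, Site.frame, uL, Matrix.mul_apply, Fin.sum_univ_two]
    simp only [chartPair, add_zero, hg, specialPair, up, cj_one, Site.sign, Site.corner, Site.mono]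
  · obtain ⟨hb, hq⟩ := ho rfl
    have hg : frameIn σ .opp A * uL (0 : A) =
        uU (algebraMap O A (σ.y₀ * σ.sgn * Ring.inverse 2)) * uS A := by
      ext a b
      fin_cases a <;> fin_cases b <;>
        simp [frameIn, Site.frame, oppFrame, uL, uU, uS, Matrix.mul_apply, Fin.sum_univ_two]
    have h2' : (2 : A) * algebraMap O A (Ring.inverse 2) = 1 := by
      rw [show (2 : A) = algebraMap O A 2 from (map_ofNat _ 2).symm, ← map_mul, Ring.mul_inverse_cancel _ h2, map_one]
    simp only [chartPair, add_zero, hg, Site.sign, Site.corner, Site.mono, map_zero, map_neg,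
      specialPair, up_mul_uS, up_mul_uU, hb, hq]
    simp only [up, cj_one, map_mul]
    refine Prod.ext ?_ ?_
    · show cj _ _ = _
      rw [cj_uU]
      ext a b
      fin_cases a <;> fin_cases b <;> simp [upT]
      linear_combination algebraMap O A σ.y₀ * (2 : A) * algebraMap O A (Ring.inverse 2) * hs +
        algebraMap O A σ.y₀ * h2'
    · show cj _ _ = _
      rw [cj_uU]
      ext a b
      fin_cases a <;> fin_cases b <;> simp [upT]

end Natural

section Local

variable [IsLocalRing O] {A : Type} [CommRing A] [Algebra O A] [IsLocalRing A]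
  [IsLocalHom (algebraMap O A)]

theorem algebraMap_mem {a : O} (ha : a ∈ maximalIdeal O) : algebraMap O A a ∈ maximalIdeal A :=
  map_nonunit (algebraMap O A) _ ha

theorem isUnit_chart_zero (σ : Site O) {x : A} (hx : x ∈ maximalIdeal A) :
    IsUnit (algebraMap O A ((σ.q : O) * σ.sgn) + x) :=
  isUnit_of_sub_mem (by simpa using hx)
    ((σ.q_unit.mul (IsUnit.of_mul_eq_one _ σ.sgn_sq)).map (algebraMap O A))

/-- Near the origin an allowed chart stays in the residual disc. -/
theorem chartPair_mem (S : J → Site O) (j : J) (ty : Ty) (h2 : IsUnit (2 : O))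
    (hty : (S j).Allowed ty) (x : Fin 3 → A) (hx : ∀ i, x i ∈ maximalIdeal A) :
    MemMax ((chartPair (S j) ty x).1 - (centreCfg S A j).1) ∧
      MemMax ((chartPair (S j) ty x).2 - (centreCfg S A j).2) := by
  set π := Ideal.Quotient.mkₐ O (maximalIdeal A) with hπ
  have h0 : π ∘ x = fun _ => 0 := funext fun i => Ideal.Quotient.eq_zero_iff_mem.mpr (hx i)
  have hz : ∀ a ∈ maximalIdeal O, algebraMap O (A ⧸ maximalIdeal A) a = 0 := fun a ha => by
    rw [← π.commutes]
    exact Ideal.Quotient.eq_zero_iff_mem.mpr (algebraMap_mem ha)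
  have e : ((chartPair (S j) ty x).1.map π, (chartPair (S j) ty x).2.map π) =
      centreCfg S _ j := by
    rw [map_chartPair π (S j) ty x fun _ => isUnit_chart_zero (S j) (hx 0), h0]
    refine chartPair_zero (S j) ty h2 (fun h => ?_) (fun h => ?_)
    · subst h
      exact hz _ hty
    · subst h
      refine ⟨hz _ hty.1, ?_⟩
      have := hz _ hty.2
      rw [map_add, map_natCast, map_one] at this
      linear_combination this
  rw [← map_centreCfg π S j] at e
  refine ⟨fun a b => ?_, fun a b => ?_⟩
  · exact (Ideal.Quotient.eq (I := maximalIdeal A)).mp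
      (congrFun (congrFun (congrArg Prod.fst e) a) b)
  · exact (Ideal.Quotient.eq (I := maximalIdeal A)).mp
      (congrFun (congrFun (congrArg Prod.snd e) a) b)

theorem coordsOf_mem {S : J → Site O} {x : Cfg J τ A}
    (h : ∀ j, MemMax ((x.1 j).1 - (centreCfg S A j).1) ∧ MemMax ((x.1 j).2 - (centreCfg S A j).2))
    (ht : ∀ t, x.2 t ∈ maximalIdeal A) (i : Idx J τ) : coordsOf S x i ∈ maximalIdeal A := by
  rcases i with ⟨j, s, a, b⟩ | t
  · cases s
    · exact (h j).1 a b
    · exact (h j).2 a b
  · exact ht t

end Local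

section Kernel

variable [IsLocalRing O] [IsAdicComplete (maximalIdeal O) O] [Finite J] [Finite τ]
  {S : J → Site O} {c : J → Ty}

theorem exists_chartHom (h2 : IsUnit (2 : O)) (hc : ∀ j, (S j).Allowed (c j)) :
    ∃ F : PSR J τ O →ₐ[O] Om J τ O,
      ∀ i, F (MvPowerSeries.X i) = coordsOf S (chartCfg S τ c) i := by
  have := mvPowerSeries_isAdicComplete (O := O) (σ := (J × Fin 3) ⊕ τ)
  have := isLocalHom_algebraMap_mv (O := O) (σ := (J × Fin 3) ⊕ τ)
  exact RT.exists_eval (L := O) (R := Om J τ O) (coordsOf S (chartCfg S τ c))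
    (coordsOf_mem (fun j => chartPair_mem S j (c j) h2 (hc j) _ fun i => X_mem_om (Sum.inl (j, i)))
      fun t => X_mem_om (Sum.inr t))

/-- The kernel is the kernel of any chart homomorphism. -/
theorem kernel_eq_ker (h2 : IsUnit (2 : O)) (hc : ∀ j, (S j).Allowed (c j))
    (F : PSR J τ O →ₐ[O] Om J τ O)
    (hF : ∀ i, F (MvPowerSeries.X i) = coordsOf S (chartCfg S τ c) i) :
    kernel S τ c = RingHom.ker F := by
  have := mvPowerSeries_isAdicComplete (O := O) (σ := (J × Fin 3) ⊕ τ)
  have := isLocalHom_algebraMap_mv (O := O) (σ := (J × Fin 3) ⊕ τ)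
  have hm : ∀ i, F (MvPowerSeries.X i) ∈ maximalIdeal (Om J τ O) := fun i => by
    rw [hF]
    exact coordsOf_mem (A := Om J τ O)
      (fun j => chartPair_mem S j (c j) h2 (hc j) _ fun i => X_mem_om (Sum.inl (j, i)))
      (fun t => X_mem_om (Sum.inr t)) i
  have huniq : ∀ G : PSR J τ O →ₐ[O] Om J τ O,
      (∀ i, G (MvPowerSeries.X i) = coordsOf S (chartCfg S τ c) i) → F = G := fun G hG =>
    algHom_ext_X hm fun i => (hF i).trans (hG i).symm
  apply le_antisymm
  · exact iInf_le_of_le ⟨F, hF⟩ le_rfl
  · refine le_iInf fun G => ?_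
    rw [← huniq G.1 G.2]

end Kernel

end Fermat.Agent.Lifting.Algebra
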