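import Fermat.Agent.Lifting.Algebra.Chart
import Fermat.Agent.Lifting.Algebra.Forms

/-!
# Coordinates in the frame of a component
-/

set_option autoImplicit false
set_option linter.unusedSectionVars false

noncomputable section

namespace Fermat.Agent.Lifting.Algebra

open IsLocalRing Matrix Fermat.Agent.RT.LocalRing

variable {O : Type} [CommRing O] {A B : Type} [CommRing A] [CommRing B] [Algebra O A] [Algebra O B]
  {σ : Site O} {ty : Ty}

/-- The difference of the two eigenvalues of Frobenius on a special component. -/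
def Site.gap (σ : Site O) (ty : Ty) : O := (σ.q : O) * σ.sign ty - σ.sign ty

/-- The nilpotent part of Frobenius in the frame of `ty`. -/
def frameA (σ : Site O) (ty : Ty) (p : Mat A × Mat A) : Mat A :=
  cj (frameIn σ ty A)⁻¹ p.1 - algebraMap O A (σ.sign ty) • 1

/-- The nilpotent part of inertia in the frame of `ty`. -/
def frameN (σ : Site O) (ty : Ty) (p : Mat A × Mat A) : Mat A :=
  cj (frameIn σ ty A)⁻¹ p.2 - 1

theorem frame_injective {p p' : Mat A × Mat A} (h1 : frameA σ ty p = frameA σ ty p')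
    (h2 : frameN σ ty p = frameN σ ty p') : p = p' := by
  have key : ∀ M M' : Mat A, cj (frameIn σ ty A)⁻¹ M = cj (frameIn σ ty A)⁻¹ M' → M = M' := by
    intro M M' h
    have := congrArg (cj (frameIn σ ty A)) h
    rwa [← cj_mul, ← cj_mul, mul_inv_cancel, cj_one, cj_one] at this
  exact Prod.ext (key _ _ (sub_left_injective h1)) (key _ _ (sub_left_injective h2))

theorem map_cj_frame (f : A →ₐ[O] B) (M : Mat A) :
    (cj (frameIn σ ty A)⁻¹ M).map f = cj (frameIn σ ty B)⁻¹ (M.map f) := by
  show (cj (frameIn σ ty A)⁻¹ M).map (f.toRingHom : A →+* B) = _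
  rw [map_cj, map_inv, map_units_frameIn]
  rfl

theorem map_frameA (f : A →ₐ[O] B) (p : Mat A × Mat A) :
    (frameA σ ty p).map f = frameA σ ty (p.1.map f, p.2.map f) := by
  rw [frameA, frameA, ← map_cj_frame]
  ext a b
  fin_cases a <;> fin_cases b <;> simp

theorem map_frameN (f : A →ₐ[O] B) (p : Mat A × Mat A) :
    (frameN σ ty p).map f = frameN σ ty (p.1.map f, p.2.map f) := by
  rw [frameN, frameN, ← map_cj_frame]
  ext a b
  fin_cases a <;> fin_cases b <;> simp

/-- The equations of a special component in its frame. -/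
structure FrameRel (c : A) (M N : Mat A) : Prop where
  trA : M 0 0 + M 1 1 = c
  detA : M 0 0 * M 1 1 - M 0 1 * M 1 0 = 0
  trN : N 0 0 + N 1 1 = 0
  detN : N 0 0 * N 1 1 - N 0 1 * N 1 0 = 0
  mulAN : ∀ a b, M a 0 * N 0 b + M a 1 * N 1 b = c * N a b
  mulNA : ∀ a b, N a 0 * M 0 b + N a 1 * M 1 b = 0

theorem FrameRel.of_ker_le {C : Type} [CommRing C] {F : A →+* B} {G : A →+* C}
    (hle : RingHom.ker F ≤ RingHom.ker G) {c : A} {M N : Mat A}
    (h : FrameRel (F c) (M.map F) (N.map F)) : FrameRel (G c) (M.map G) (N.map G) := by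
  have key : ∀ {x y : A}, F x = F y → G x = G y := fun {x y} e => by
    have : x - y ∈ RingHom.ker G := hle (by rw [RingHom.mem_ker, map_sub, e, sub_self])
    rwa [RingHom.mem_ker, map_sub, sub_eq_zero] at this
  obtain ⟨h1, h2, h3, h4, h5, h6⟩ := h
  simp only [Matrix.map_apply, ← map_mul, ← map_add, ← map_sub, ← map_zero F] at h1 h2 h3 h4 h5 h6
  constructor
  · simpa using key h1
  · simpa using key h2
  · simpa using key h3
  · simpa using key h4
  · exact fun a b => by simpa using key (h5 a b)
  · exact fun a b => by simpa using key (h6 a b)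

theorem chartPair_special (hty : ty ≠ .unram) (x : Fin 3 → A) :
    chartPair σ ty x = specialPair σ ty (frameIn σ ty A * uL (x 0))
      (algebraMap O A (σ.corner ty) + x 1) (algebraMap O A (σ.mono ty) + x 2) := by
  cases ty
  · exact absurd rfl hty
  · rfl
  · rfl

theorem frameA_chartPair (hty : ty ≠ .unram) (x : Fin 3 → A) :
    frameA σ ty (chartPair σ ty x) =
      let y := algebraMap O A (σ.corner ty) + x 1
      let c := algebraMap O A (σ.gap ty)
      !![c - x 0 * y, y; x 0 * c - x 0 * x 0 * y, x 0 * y] := by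
  simp only [chartPair_special hty, frameA, specialPair, up, cj_mul]
  rw [← cj_mul, inv_mul_cancel, cj_one, cj_uL_upT]
  ext a b
  fin_cases a <;> fin_cases b <;>
    simp [Site.gap, map_sub, map_mul, map_natCast, Matrix.smul_apply, Matrix.one_apply, Algebra.algebraMap_eq_smul_one] <;> ring

theorem frameN_chartPair (hty : ty ≠ .unram) (x : Fin 3 → A) :
    frameN σ ty (chartPair σ ty x) =
      let b := algebraMap O A (σ.mono ty) + x 2
      !![-(x 0 * b), b; -(x 0 * x 0 * b), x 0 * b] := by
  simp only [chartPair_special hty, frameN, specialPair, up, cj_mul]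
  rw [← cj_mul, inv_mul_cancel, cj_one, cj_uL_upT]
  ext a b
  fin_cases a <;> fin_cases b <;> simp

theorem frameRel_chartPair (hty : ty ≠ .unram) (x : Fin 3 → A) :
    FrameRel (algebraMap O A (σ.gap ty)) (frameA σ ty (chartPair σ ty x))
      (frameN σ ty (chartPair σ ty x)) := by
  rw [frameA_chartPair hty, frameN_chartPair hty]
  refine ⟨?_, ?_, ?_, ?_, fun a b => ?_, fun a b => ?_⟩
  all_goals try (fin_cases a <;> fin_cases b)
  all_goals simp
  all_goals ring

section Domain

variable {D : Type} [CommRing D] [IsDomain D] {c y b : D} {M N : Mat D}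

theorem FrameRel.centre_of_corner_ne (h : FrameRel c M N) (hy : y ≠ 0) (h01 : M 0 1 = y)
    (h00 : M 0 0 = c) (hb : N 0 1 = b) : M = !![c, y; 0, 0] ∧ N = !![0, b; 0, 0] := by
  have a11 : M 1 1 = 0 := by linear_combination h.trA - h00
  have a10 : M 1 0 = 0 := mul_left_cancel₀ hy (by linear_combination c * a11 - h.detA + M 1 1 * h00 - M 1 0 * h01)
  have n00 : N 0 0 = 0 := mul_right_cancel₀ hy (by
    linear_combination h.mulNA 0 1 - N 0 0 * h01 - N 0 1 * a11)
  have n11 : N 1 1 = 0 := by linear_combination h.trN - n00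
  have n10 : N 1 0 = 0 := mul_right_cancel₀ hy (by
    linear_combination h.mulNA 1 1 - N 1 0 * h01 - N 1 1 * a11)
  constructor <;> ext i k <;> fin_cases i <;> fin_cases k <;> simp [*]

theorem FrameRel.centre_of_mono_ne (h : FrameRel c M N) (hb0 : b ≠ 0) (h01 : M 0 1 = y)
    (hb : N 0 1 = b) (n00 : N 0 0 = 0) : M = !![c, y; 0, 0] ∧ N = !![0, b; 0, 0] := by
  have n11 : N 1 1 = 0 := by linear_combination h.trN - n00
  have n10 : N 1 0 = 0 := mul_left_cancel₀ hb0 (by
    linear_combination N 1 1 * n00 - h.detN - N 1 0 * hb)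
  have a10 : M 1 0 = 0 := mul_left_cancel₀ hb0 (by
    linear_combination h.mulNA 0 0 - M 1 0 * hb - M 0 0 * n00)
  have a11 : M 1 1 = 0 := mul_left_cancel₀ hb0 (by
    linear_combination h.mulNA 0 1 - M 1 1 * hb - M 0 1 * n00)
  have a00 : M 0 0 = c := by linear_combination h.trA - a11
  constructor <;> ext i k <;> fin_cases i <;> fin_cases k <;> simp [*]

theorem FrameRel.centre_of_gap_ne (h : FrameRel c M N) (hc : c ≠ 0) (h00 : M 0 0 ≠ 0)
    (h01 : M 0 1 = 0) (hb : N 0 1 = 0) (a10 : M 1 0 = 0) :
    M = !![c, 0; 0, 0] ∧ N = !![0, 0; 0, 0] := by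
  have a11 : M 1 1 = 0 := mul_left_cancel₀ h00 (by linear_combination h.detA + M 0 1 * a10)
  have a00 : M 0 0 = c := by linear_combination h.trA - a11
  have n11 : N 1 1 = 0 := by
    refine mul_self_eq_zero.mp ?_
    linear_combination N 1 1 * h.trN - h.detN - N 1 0 * hb
  have n00 : N 0 0 = 0 := by linear_combination h.trN - n11
  have n10 : N 1 0 = 0 := mul_left_cancel₀ hc (by
    linear_combination N 1 0 * a11 + N 0 0 * a10 - h.mulAN 1 0)
  constructor <;> ext i k <;> fin_cases i <;> fin_cases k <;> simp [*]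

theorem FrameRel.centre_of_zero (h : FrameRel c M N) (hc : c = 0) (h01 : M 0 1 = 0)
    (hs : M 1 0 + N 0 1 = 0) (n10 : N 1 0 = 0) :
    M = !![c, 0; 0, 0] ∧ N = !![0, 0; 0, 0] := by
  have a00 : M 0 0 = 0 := by
    refine mul_self_eq_zero.mp ?_
    linear_combination M 0 0 * h.trA + M 0 0 * hc - h.detA - M 1 0 * h01
  have a11 : M 1 1 = 0 := by linear_combination h.trA + hc - a00
  have n00 : N 0 0 = 0 := by
    refine mul_self_eq_zero.mp ?_
    linear_combination N 0 0 * h.trN - h.detN - N 0 1 * n10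
  have n11 : N 1 1 = 0 := by linear_combination h.trN - n00
  have hp : M 1 0 * N 0 1 = 0 := by
    linear_combination h.mulAN 1 1 - M 1 1 * n11 + N 1 1 * hc
  have a10 : M 1 0 = 0 := by
    refine mul_self_eq_zero.mp ?_
    linear_combination M 1 0 * hs - hp
  have n01 : N 0 1 = 0 := by linear_combination hs - a10
  constructor <;> ext i k <;> fin_cases i <;> fin_cases k <;> simp [*]

end Domain

end Fermat.Agent.Lifting.Algebra
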