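import Fermat.Agent.Lifting.Algebra.Main

/-!
# The prime of characteristic zero used by the raising step

For a component `c` and a set `D` of sites of type `same` at residually unramified places, the
generic point of the locus of `c` on which also `Σ = 1` at the sites of `D`. Unlike the prime over
`p` it avoids the component of opposite sign at the sites of `D`, whatever `q mod p` is.
-/

set_option autoImplicit false
set_option linter.unusedSectionVars false

noncomputable section

namespace Fermat.Agent.Lifting.Algebra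

open IsLocalRing Matrix Fermat.Agent.RT.LocalRing

variable {O : Type} [CommRing O] [IsDomain O] [IsDiscreteValuationRing O]
  [IsAdicComplete (maximalIdeal O) O] [Finite (ResidueField O)] [CharZero O]
  {J τ : Type} [Finite J] [Finite τ] [DecidableEq J]

/-- The variables: at the sites of `D` the monodromy corner is specialised to zero. -/
def genericVar (S : J → Site O) (τ : Type) (D : Finset J) (j : J) (i : Fin 3) : Om J τ O :=
  if j ∈ D ∧ i = 2 then -algebraMap O (Om J τ O) (S j).b₀ else MvPowerSeries.X (Sum.inl (j, i))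

/-- The universal point. -/
def genericCfg (S : J → Site O) (τ : Type) (c : J → Ty) (D : Finset J) : Cfg J τ (Om J τ O) :=
  (fun j => chartPair (S j) (c j) (genericVar S τ D j), fun t => MvPowerSeries.X (Sum.inr t))

/-- The prime. -/
def genericPrime (S : J → Site O) (τ : Type) (c : J → Ty) (D : Finset J) : Ideal (PSR J τ O) :=
  ⨅ F : {F : PSR J τ O →ₐ[O] Om J τ O //
    ∀ i, F (MvPowerSeries.X i) = coordsOf S (genericCfg S τ c D) i}, RingHom.ker F.1

variable {S : J → Site O} {c : J → Ty} {D : Finset J}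

/-- Homomorphisms whose pairs lie in the charts of a component kill its kernel. -/
theorem kernel_le_ker_of_chart (h2 : IsUnit (2 : O)) {c' : J → Ty} (hc' : ∀ j, (S j).Allowed (c' j))
    {A : Type} [CommRing A] [IsLocalRing A] [IsNoetherianRing A]
    [IsAdicComplete (maximalIdeal A) A] [Algebra O A] [IsLocalHom (algebraMap O A)]
    {y : Cfg J τ A} (ht : ∀ t, y.2 t ∈ maximalIdeal A) (G : PSR J τ O →ₐ[O] A)
    (hG : ∀ i, G (MvPowerSeries.X i) = coordsOf S y i)
    (hy : ∀ j, ∃ x : Fin 3 → A, (∀ i, x i ∈ maximalIdeal A) ∧ y.1 j = chartPair (S j) (c' j) x) :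
    kernel S τ c' ≤ RingHom.ker G := by
  choose x hx hyx using hy
  obtain ⟨T, hT⟩ := RT.exists_eval (L := O) (R := A) (σ := (J × Fin 3) ⊕ τ)
    (Sum.elim (fun i => x i.1 i.2) y.2) (by
      rintro (⟨j, i⟩ | t)
      · exact hx j i
      · exact ht t)
  obtain ⟨C, hC⟩ := exists_chartHom (τ := τ) h2 hc'
  have hmap : mapCfg T (chartCfg S τ c') = y := by
    refine Prod.ext (funext fun j => ?_) (funext fun t => hT _)
    show ((chartPair (S j) (c' j) _).1.map T, (chartPair (S j) (c' j) _).2.map T) = _
    rw [map_chartPair T (S j) (c' j) _ fun _ => ?_, hyx j]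
    · congr 1
      exact funext fun i => hT _
    · have := isLocalHom_algebraMap_mv (O := O) (σ := (J × Fin 3) ⊕ τ)
      exact isUnit_chart_zero (S j) (X_mem_om (Sum.inl (j, 0)))
  have hGT : G = T.comp C := by
    refine algHom_ext_X (fun i => ?_) fun i => ?_
    · rw [hG]
      exact coordsOf_mem (fun j => by rw [hyx j]; exact chartPair_mem S j (c' j) h2 (hc' j) _ (hx j))
        ht i
    · rw [hG, AlgHom.comp_apply, hC, map_coordsOf, hmap]
  intro f hf
  rw [kernel_eq_ker h2 hc' C hC, RingHom.mem_ker] at hf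
  rw [RingHom.mem_ker, hGT, AlgHom.comp_apply, hf, map_zero]

variable (h2 : IsUnit (2 : O)) (hc : ∀ j, (S j).Allowed (c j))
  (hD : ∀ j ∈ D, c j = .same ∧ (S j).b₀ ∈ maximalIdeal O)
include h2 hc hD

theorem genericVar_mem (j : J) (i : Fin 3) :
    genericVar S τ D j i ∈ maximalIdeal (Om J τ O) := by
  have := isLocalHom_algebraMap_mv (O := O) (σ := (J × Fin 3) ⊕ τ)
  rw [genericVar]
  split_ifs with h
  · exact neg_mem (algebraMap_mem (hD j h.1).2)
  · exact X_mem_om _

theorem coordsOf_genericCfg_mem (i : Idx J τ) :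
    coordsOf S (genericCfg S τ c D) i ∈ maximalIdeal (Om J τ O) := by
  have := isLocalHom_algebraMap_mv (O := O) (σ := (J × Fin 3) ⊕ τ)
  exact coordsOf_mem (fun j => chartPair_mem S j (c j) h2 (hc j) _ (genericVar_mem h2 hc hD j))
    (fun t => X_mem_om (Sum.inr t)) i

theorem exists_genericHom : ∃ G : PSR J τ O →ₐ[O] Om J τ O,
    ∀ i, G (MvPowerSeries.X i) = coordsOf S (genericCfg S τ c D) i := by
  have := mvPowerSeries_isAdicComplete (O := O) (σ := (J × Fin 3) ⊕ τ)
  exact RT.exists_eval (L := O) (R := Om J τ O) _ (coordsOf_genericCfg_mem h2 hc hD)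

theorem genericPrime_eq_ker (G : PSR J τ O →ₐ[O] Om J τ O)
    (hG : ∀ i, G (MvPowerSeries.X i) = coordsOf S (genericCfg S τ c D) i) :
    genericPrime S τ c D = RingHom.ker G := by
  have := mvPowerSeries_isAdicComplete (O := O) (σ := (J × Fin 3) ⊕ τ)
  apply le_antisymm
  · exact iInf_le_of_le ⟨G, hG⟩ le_rfl
  · refine le_iInf fun G' => ?_
    rw [← algHom_ext_X (F := G) (G := G'.1) (fun i => hG i ▸ coordsOf_genericCfg_mem h2 hc hD i)
      fun i => (hG i).trans (G'.2 i).symm]

theorem genericPrime_isPrime : (genericPrime S τ c D).IsPrime := by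
  obtain ⟨G, hG⟩ := exists_genericHom (τ := τ) h2 hc hD
  rw [genericPrime_eq_ker h2 hc hD G hG]
  have : IsDomain (Om J τ O) := NoZeroDivisors.to_isDomain _
  exact RingHom.ker_isPrime _

theorem genericPrime_le_specialPrime : genericPrime S τ c D ≤ specialPrime S τ c D := by
  have hloc := isLocalHom_algebraMap_mv (O := O) (σ := (J × Fin 3) ⊕ τ)
  obtain ⟨G₀, hG₀⟩ := exists_genericHom (τ := τ) h2 hc hD
  rw [genericPrime_eq_ker h2 hc hD G₀ hG₀]
  obtain ⟨G, hG⟩ := exists_specialHom (τ := τ) (D := D) h2 hc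
  rw [specialPrime_eq_ker h2 hc G hG]
  let red : Om J τ O →ₐ[O] KSeries J τ O :=
    MvPowerSeries.mapAlgHom (Algebra.ofId O (ResidueField O))
  have hred : ∀ i, red (MvPowerSeries.X i) = MvPowerSeries.X i := fun i =>
    MvPowerSeries.map_X _ i
  have hmap : mapCfg red (genericCfg S τ c D) = specialCfg S τ c D := by
    refine Prod.ext (funext fun j => ?_) (funext fun t => hred _)
    show ((chartPair (S j) (c j) _).1.map red, (chartPair (S j) (c j) _).2.map red) = _
    rw [map_chartPair red (S j) (c j) _ fun _ => ?_]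
    · show _ = chartPair (S j) (c j) (specialVar τ D j)
      congr 1
      funext i
      simp only [Function.comp_apply, genericVar, specialVar]
      split_ifs with h
      · rw [map_neg, red.commutes, algebraMap_kSeries_eq_zero (hD j h.1).2, neg_zero]
      · exact hred _
    · exact isUnit_chart_zero (S j) (genericVar_mem h2 hc hD j 0)
  have hGT : G = red.comp G₀ := by
    have := isAdicComplete_kSeries (O := O) (J := J) (τ := τ)
    refine algHom_ext_X (fun i => hG i ▸ coordsOf_specialCfg_mem h2 hc i) fun i => ?_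
    rw [hG, AlgHom.comp_apply, hG₀, map_coordsOf, hmap]
  intro f hf
  rw [RingHom.mem_ker] at hf ⊢
  rw [hGT, AlgHom.comp_apply, hf, map_zero]

theorem kernel_le_genericPrime : kernel S τ c ≤ genericPrime S τ c D := by
  have := mvPowerSeries_isAdicComplete (O := O) (σ := (J × Fin 3) ⊕ τ)
  have := isLocalHom_algebraMap_mv (O := O) (σ := (J × Fin 3) ⊕ τ)
  obtain ⟨G, hG⟩ := exists_genericHom (τ := τ) h2 hc hD
  rw [genericPrime_eq_ker h2 hc hD G hG]
  exact kernel_le_ker_of_chart h2 hc (y := genericCfg S τ c D) (fun t => X_mem_om (Sum.inr t)) G hG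
    fun j => ⟨_, genericVar_mem h2 hc hD j, rfl⟩

theorem generic_snd_eq_one {j : J} (hj : j ∈ D) :
    (chartPair (S j) (c j) (genericVar S τ D j)).2 = 1 := by
  rw [(hD j hj).1]
  simp [chartPair, specialPair, up, Site.mono, genericVar, hj, upT_one, cj_one']

/-- At the sites of `D` the prime is also on the unramified component. -/
theorem kernel_le_genericPrime_of_unram {c' : J → Ty}
    (hc'' : ∀ j, c' j = c j ∨ (j ∈ D ∧ c' j = .unram)) :
    kernel S τ c' ≤ genericPrime S τ c D := by
  have := mvPowerSeries_isAdicComplete (O := O) (σ := (J × Fin 3) ⊕ τ)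
  have := isLocalHom_algebraMap_mv (O := O) (σ := (J × Fin 3) ⊕ τ)
  obtain ⟨G, hG⟩ := exists_genericHom (τ := τ) h2 hc hD
  have hc' : ∀ j, (S j).Allowed (c' j) := fun j => by
    rcases hc'' j with h | ⟨hj, h⟩
    · rw [h]; exact hc j
    · rw [h]; exact (hD j hj).2
  rw [genericPrime_eq_ker h2 hc hD G hG]
  refine kernel_le_ker_of_chart h2 hc' (y := genericCfg S τ c D) (fun t => X_mem_om (Sum.inr t)) G hG
    fun j => ?_
  rcases hc'' j with h | ⟨hj, h⟩
  · exact ⟨_, genericVar_mem h2 hc hD j, by rw [h]; rfl⟩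
  obtain ⟨m1, -⟩ := chartPair_mem (A := Om J τ O) S j (c j) h2 (hc j) _ (genericVar_mem h2 hc hD j)
  have hdet : (chartPair (S j) (c j) (genericVar S τ D j)).1.det = ((S j).q : Om J τ O) := by
    rw [(hD j hj).1]
    simp only [chartPair, specialPair, up, det_cj, det_upT, Site.sign]
    rw [mul_assoc, ← map_mul, (S j).sgn_sq, map_one, mul_one]
  have hsnd := generic_snd_eq_one (τ := τ) h2 hc hD hj
  set p := chartPair (S j) (c j) (genericVar S τ D j) with hp
  set x₀ := p.1 0 0 - algebraMap O (Om J τ O) (((S j).q : O) * (S j).sgn)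
  set x₁ := p.1 0 1 - algebraMap O (Om J τ O) (S j).y₀
  have hx : ∀ i, ![x₀, x₁, p.1 1 0] i ∈ maximalIdeal (Om J τ O) := by
    intro i
    fin_cases i
    · simpa [x₀, centreCfg, Site.centre, upT] using m1 0 0
    · simpa [x₁, centreCfg, Site.centre, upT] using m1 0 1
    · simpa [centreCfg, Site.centre, upT] using m1 1 0
  refine ⟨_, hx, ?_⟩
  show p = _
  rw [h]
  have hu := isUnit_chart_zero (A := Om J τ O) (S j) (hx 0)
  simp only [chartPair]
  refine Prod.ext ?_ hsnd
  rw [Matrix.det_fin_two] at hdet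
  simp only [Matrix.cons_val_zero, Matrix.cons_val_one, Matrix.cons_val, x₀, x₁,
    add_sub_cancel] at hu ⊢
  have h11 : p.1 1 1 = (((S j).q : Om J τ O) + p.1 0 1 * p.1 1 0) * Ring.inverse (p.1 0 0) := by
    refine hu.mul_right_cancel ?_
    rw [mul_assoc, Ring.inverse_mul_cancel _ hu, mul_one]
    linear_combination hdet
  ext u v
  fin_cases u <;> fin_cases v <;> simp [h11]

theorem trace_sub_mem_genericPrime {j : J} (hj : c j = .same) :
    ((universalFamily S τ).1 j).1.trace -
        algebraMap O (PSR J τ O) ((S j).sgn * (((S j).q : O) + 1)) ∈ genericPrime S τ c D := by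
  obtain ⟨G, hG⟩ := exists_genericHom (τ := τ) h2 hc hD
  rw [genericPrime_eq_ker h2 hc hD G hG, RingHom.mem_ker, map_sub, G.commutes]
  have h1 := congrArg Prod.fst (map_chartHom_univPair hG j)
  have ht : G (univPair S τ j).1.trace = ((univPair S τ j).1.map G).trace :=
    AddMonoidHom.map_trace G.toRingHom.toAddMonoidHom _
  show G (univPair S τ j).1.trace - _ = 0
  dsimp only at h1
  rw [ht, h1]
  simp only [genericCfg, hj, chartPair, specialPair, up, trace_cj, trace_upT, Site.sign,
    map_mul, map_add, map_natCast, map_one]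
  ring

/-- The opposite sign is avoided at the sites of `D`. -/
theorem not_kernel_le_genericPrime_of_opp {c' : J → Ty} (hc' : ∀ j, (S j).Allowed (c' j)) {j : J}
    (hj : j ∈ D) (hopp : c' j = .opp) : ¬ kernel S τ c' ≤ genericPrime S τ c D := by
  obtain ⟨G, hG⟩ := exists_genericHom (τ := τ) h2 hc hD
  obtain ⟨C, hC⟩ := exists_chartHom (τ := τ) h2 hc'
  intro h
  set γ : O := (S j).sgn * (((S j).q : O) + 1)
  have hw : (univPair S τ j).1.trace + algebraMap O (PSR J τ O) γ ∈ kernel S τ c' := by
    have h1 := congrArg Prod.fst (map_chartHom_univPair hC j)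
    have ht : C (univPair S τ j).1.trace = ((univPair S τ j).1.map C).trace :=
      AddMonoidHom.map_trace C.toRingHom.toAddMonoidHom _
    dsimp only at h1
    rw [kernel_eq_ker h2 hc' C hC, RingHom.mem_ker, map_add, C.commutes, ht, h1]
    simp only [chartCfg, hopp, chartPair, specialPair, up, trace_cj, trace_upT, Site.sign, γ,
      map_neg, map_mul, map_add, map_natCast, map_one]
    ring
  have h3 := Ideal.sub_mem _ (h hw) (trace_sub_mem_genericPrime (τ := τ) h2 hc hD (hD j hj).1)
  rw [add_sub_sub_cancel, ← map_add, genericPrime_eq_ker h2 hc hD G hG, RingHom.mem_ker,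
    G.commutes, MvPowerSeries.algebraMap_apply, Algebra.algebraMap_self, RingHom.id_apply] at h3
  have h4 : γ + γ = 0 := by
    have := congrArg MvPowerSeries.constantCoeff h3
    rwa [MvPowerSeries.constantCoeff_C, map_zero] at this
  have hγ : γ ≠ 0 := by
    refine mul_ne_zero (left_ne_zero_of_mul_eq_one (S j).sgn_sq) ?_
    exact_mod_cast Nat.succ_ne_zero (S j).q
  exact hγ (by rw [← two_mul] at h4; exact h2.mul_right_eq_zero.mp h4)

/-- The only component through the prime which is special at every site of `D` is `c`. -/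
theorem eq_of_kernel_le_genericPrime {c' : J → Ty} (hc' : ∀ j, (S j).Allowed (c' j))
    (hne : ∀ j ∈ D, c' j ≠ .unram) (hle : kernel S τ c' ≤ genericPrime S τ c D) : c' = c := by
  funext j
  by_cases hj : j ∈ D
  · rw [(hD j hj).1]
    cases h : c' j
    · exact absurd h (hne j hj)
    · rfl
    · exact absurd hle (not_kernel_le_genericPrime_of_opp h2 hc hD hc' hj h)
  · by_contra h
    exact not_kernel_le_specialPrime S h2 hc hc' hj h
      (hle.trans (genericPrime_le_specialPrime h2 hc hD))

/-- The dimension lemma. -/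
theorem not_le_genericPrime {τ' : Type} [Finite τ'] (hcard : Nat.card τ' < Nat.card τ)
    (I : Ideal (PSR J τ O)) (ι : PSR J τ' O →ₐ[O] PSR J τ O)
    (hι : ∀ x, ι (MvPowerSeries.X (Sum.inl x)) = MvPowerSeries.X (Sum.inl x))
    (hι' : ∀ t, ι (MvPowerSeries.X (Sum.inr t)) ∈ maximalIdeal (PSR J τ O))
    (hsurj : Function.Surjective
      ((Ideal.Quotient.mk (I ⊔ kernel S τ c)).comp ι.toRingHom)) :
    ¬ I ≤ genericPrime S τ c D := fun h =>
  not_le_specialPrime S h2 hc hD hcard I ι hι hι' hsurj
    (h.trans (genericPrime_le_specialPrime h2 hc hD))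

end Fermat.Agent.Lifting.Algebra

end
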