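import Fermat.Agent.RT.LocalRing.Basic

/-!
# Local conditions and charts at a prime of `Σ`

A site has residual centre `Φ = (q s, y₀; 0, s)`, `Σ = (1, b₀; 0, 1)` with `s = ±1`. The three
components are: unramified, special with sign `s`, special with sign `-s`.
-/

set_option autoImplicit false

noncomputable section

namespace Fermat.Agent.Lifting.Algebra

open IsLocalRing Matrix Fermat.Agent.RT.LocalRing

/-- The data at a prime `q`. -/
structure Site (O : Type) [CommRing O] where
  q : ℕ
  q_two_le : 2 ≤ q
  q_unit : IsUnit (q : O)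
  sgn : O
  sgn_sq : sgn * sgn = 1
  y₀ : O
  b₀ : O

/-- The kinds of components. -/
inductive Ty : Type
  | unram
  | same
  | opp
  deriving DecidableEq

instance : Fintype Ty := ⟨{.unram, .same, .opp}, fun x => by cases x <;> simp⟩

variable {O : Type} [CommRing O]

/-- The residual centre. -/
def Site.centre (σ : Site O) : Mat O × Mat O :=
  (upT ((σ.q : O) * σ.sgn) σ.sgn σ.y₀, upT 1 1 σ.b₀)

/-- The sign of a special component. -/
def Site.sign (σ : Site O) : Ty → O
  | .opp => -σ.sgn
  | _ => σ.sgn

/-- The components which pass through the residual centre. -/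
def Site.Allowed [IsLocalRing O] (σ : Site O) : Ty → Prop
  | .unram => σ.b₀ ∈ maximalIdeal O
  | .same => True
  | .opp => σ.b₀ ∈ maximalIdeal O ∧ (σ.q : O) + 1 ∈ maximalIdeal O

section Conditions

variable {B : Type} [CommRing B] [Algebra O B]

/-- `(Φ, Σ)` lies on the component `ty`. -/
def Site.IsType (σ : Site O) (ty : Ty) (x : Mat B × Mat B) : Prop :=
  x.1.det = (σ.q : B) ∧
    match ty with
    | .unram => x.2 = 1
    | ty => x.1 * x.2 = x.2 ^ σ.q * x.1 ∧ x.2.det = 1 ∧ x.2.trace = 2 ∧
        x.1.trace = algebraMap O B (σ.sign ty) * ((σ.q : B) + 1)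

/-- The relations common to all components. -/
def Site.IsLocalPair (σ : Site O) (x : Mat B × Mat B) : Prop :=
  x.1 * x.2 = x.2 ^ σ.q * x.1 ∧ x.1.det = (σ.q : B) ∧ x.2.det = 1 ∧ x.2.trace = 2

end Conditions

section Charts

variable {A : Type} [CommRing A] [Algebra O A]

/-- The basis adapted to the component `opp`. -/
def oppFrame (σ : Site O) : (Mat O)ˣ :=
  uU (σ.y₀ * σ.sgn * Ring.inverse 2) * uS O

/-- The frame of a special component. -/
def Site.frame (σ : Site O) : Ty → (Mat O)ˣ
  | .opp => oppFrame σ
  | _ => 1

/-- The corner of Frobenius of a special component. -/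
def Site.corner (σ : Site O) : Ty → O
  | .opp => 0
  | _ => σ.y₀

/-- The corner of inertia of a special component. -/
def Site.mono (σ : Site O) : Ty → O
  | .opp => 0
  | _ => σ.b₀

/-- A special pair in the basis `g`. -/
def specialPair (σ : Site O) (ty : Ty) (g : (Mat A)ˣ) (y b : A) : Mat A × Mat A :=
  up g 1 1 ((σ.q : A) * algebraMap O A (σ.sign ty)) (algebraMap O A (σ.sign ty)) b y

/-- The frame over an algebra. -/
def frameIn (σ : Site O) (ty : Ty) (A : Type) [CommRing A] [Algebra O A] : (Mat A)ˣ :=
  Units.map (algebraMap O A).mapMatrix.toMonoidHom (σ.frame ty)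

/-- The chart of the component `ty`. -/
def chartPair (σ : Site O) : Ty → (Fin 3 → A) → Mat A × Mat A
  | .unram, x =>
    let a := algebraMap O A ((σ.q : O) * σ.sgn) + x 0
    (!![a, algebraMap O A σ.y₀ + x 1;
        x 2, ((σ.q : A) + (algebraMap O A σ.y₀ + x 1) * x 2) * Ring.inverse a], 1)
  | ty, x =>
    specialPair σ ty (frameIn σ ty A * uL (x 0)) (algebraMap O A (σ.corner ty) + x 1)
      (algebraMap O A (σ.mono ty) + x 2)

end Charts

variable {J τ : Type}

/-- The family of centres. -/
def centreCfg (S : J → Site O) (B : Type) [CommRing B] [Algebra O B] (j : J) : Mat B × Mat B :=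
  ((S j).centre.1.map (algebraMap O B), (S j).centre.2.map (algebraMap O B))

/-- The coordinates of a family relative to the centres. -/
def coordsOf (S : J → Site O) {B : Type} [CommRing B] [Algebra O B] (x : Cfg J τ B) :
    Idx J τ → B
  | Sum.inl (j, false, a, b) => ((x.1 j).1 - (centreCfg S B j).1) a b
  | Sum.inl (j, true, a, b) => ((x.1 j).2 - (centreCfg S B j).2) a b
  | Sum.inr t => x.2 t

/-- The family with given coordinates. -/
def familyOf (S : J → Site O) {B : Type} [CommRing B] [Algebra O B] (v : Idx J τ → B) :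
    Cfg J τ B :=
  (fun j => ((centreCfg S B j).1 + Matrix.of fun a b => v (Sum.inl (j, false, a, b)),
    (centreCfg S B j).2 + Matrix.of fun a b => v (Sum.inl (j, true, a, b))),
    fun t => v (Sum.inr t))

/-- The universal family over `P`. -/
def universalFamily (S : J → Site O) (τ : Type) : Cfg J τ (PSR J τ O) :=
  familyOf S MvPowerSeries.X

/-- A choice of component at every site, through the residual centres. -/
def Comp [IsLocalRing O] (S : J → Site O) : Type := {c : J → Ty // ∀ j, (S j).Allowed (c j)}

end Fermat.Agent.Lifting.Algebra
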