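import Fermat.Agent.Lifting.Algebra.SiteGens
import Fermat.Agent.RT.Global.FrameRing
import Mathlib.RingTheory.MvPowerSeries.NoZeroDivisors
import Mathlib.RingTheory.DiscreteValuationRing.Basic

/-!
# The special prime over `p` of a component
-/

set_option autoImplicit false
set_option linter.unusedSectionVars false

noncomputable section

namespace Fermat.Agent.Lifting.Algebra

open IsLocalRing Matrix Fermat.Agent.RT.LocalRing

variable {O : Type} [CommRing O] [IsLocalRing O] {J τ : Type} [Finite J] [Finite τ]

theorem isAdicComplete_kSeries : IsAdicComplete (maximalIdeal (KSeries J τ O)) (KSeries J τ O) := by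
  have : IsAdicComplete (maximalIdeal (ResidueField O)) (ResidueField O) := by
    rw [IsLocalRing.maximalIdeal_eq_bot]; infer_instance
  exact mvPowerSeries_isAdicComplete

theorem X_mem_kSeries (i : (J × Fin 3) ⊕ τ) :
    (MvPowerSeries.X i : KSeries J τ O) ∈ maximalIdeal (KSeries J τ O) := by
  rw [RT.mem_maximalIdeal_mvPowerSeries, MvPowerSeries.constantCoeff_X]
  exact zero_mem _

theorem algebraMap_kSeries (a : O) :
    algebraMap O (KSeries J τ O) a = MvPowerSeries.C (residue O a) := by
  rw [IsScalarTower.algebraMap_apply O (ResidueField O) (KSeries J τ O),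
    MvPowerSeries.algebraMap_apply]
  rfl

theorem algebraMap_kSeries_eq_zero {a : O} (ha : a ∈ maximalIdeal O) :
    algebraMap O (KSeries J τ O) a = 0 := by
  rw [algebraMap_kSeries, (residue_eq_zero_iff a).mpr ha, map_zero]

theorem isLocalHom_kSeries : IsLocalHom (algebraMap O (KSeries J τ O)) :=
  ⟨fun a ha => by
    rw [algebraMap_kSeries, MvPowerSeries.isUnit_iff_constantCoeff,
      MvPowerSeries.constantCoeff_C] at ha
    by_contra h
    exact ha.ne_zero ((residue_eq_zero_iff a).mpr h)⟩

theorem map_smul_algebraMap {A B : Type} [CommRing A] [CommRing B] [Algebra O A] [Algebra O B]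
    (f : A →ₐ[O] B) (r : O) (M : Mat A) :
    (algebraMap O A r • M).map f = algebraMap O B r • M.map f := by
  ext a b
  simp only [Matrix.map_apply, Matrix.smul_apply, smul_eq_mul, map_mul, AlgHom.commutes]

theorem const_add_X_ne_zero (a : O) (i : (J × Fin 3) ⊕ τ) :
    algebraMap O (KSeries J τ O) a + MvPowerSeries.X i ≠ 0 := by
  classical
  intro h
  have h1 := congrArg (MvPowerSeries.coeff (Finsupp.single i 1)) h
  rw [algebraMap_kSeries, map_add, MvPowerSeries.coeff_C, MvPowerSeries.coeff_X, if_pos rfl,
    if_neg (by simp), zero_add, map_zero] at h1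
  exact one_ne_zero h1

/-- Specialisation of the variables in `K` to `0`. -/
theorem exists_killHom [DecidableEq J] [DecidableEq τ] (K : Finset ((J × Fin 3) ⊕ τ)) :
    ∃ T : KSeries J τ O →ₐ[O] KSeries J τ O,
      ∀ i, T (MvPowerSeries.X i) = if i ∈ K then 0 else MvPowerSeries.X i := by
  have := isAdicComplete_kSeries (O := O) (J := J) (τ := τ)
  obtain ⟨T, hT⟩ := RT.exists_eval (L := ResidueField O) (R := KSeries J τ O)
    (fun i => if i ∈ K then (0 : KSeries J τ O) else MvPowerSeries.X i) (fun i => by
      split_ifs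
      · exact zero_mem _
      · exact X_mem_kSeries i)
  exact ⟨T.restrictScalars O, hT⟩

variable [DecidableEq J] {S : J → Site O} {c : J → Ty} {D : Finset J}

theorem specialVar_mem (j : J) (i : Fin 3) :
    specialVar (O := O) τ D j i ∈ maximalIdeal (KSeries J τ O) := by
  rw [specialVar]
  split_ifs
  · exact zero_mem _
  · exact X_mem_kSeries _

variable (h2 : IsUnit (2 : O)) (hc : ∀ j, (S j).Allowed (c j))
include h2 hc

theorem coordsOf_specialCfg_mem (i : Idx J τ) :
    coordsOf S (specialCfg S τ c D) i ∈ maximalIdeal (KSeries J τ O) := by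
  have := isLocalHom_kSeries (O := O) (J := J) (τ := τ)
  exact coordsOf_mem (fun j => chartPair_mem S j (c j) h2 (hc j) _ (specialVar_mem j))
    (fun t => X_mem_kSeries (Sum.inr t)) i

variable [IsAdicComplete (maximalIdeal O) O]

theorem exists_specialHom :
    ∃ G : PSR J τ O →ₐ[O] KSeries J τ O,
      ∀ i, G (MvPowerSeries.X i) = coordsOf S (specialCfg S τ c D) i := by
  have := isAdicComplete_kSeries (O := O) (J := J) (τ := τ)
  exact RT.exists_eval (L := O) (R := KSeries J τ O) _ (coordsOf_specialCfg_mem h2 hc)

theorem specialPrime_eq_ker (G : PSR J τ O →ₐ[O] KSeries J τ O)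
    (hG : ∀ i, G (MvPowerSeries.X i) = coordsOf S (specialCfg S τ c D) i) :
    specialPrime S τ c D = RingHom.ker G := by
  have := isAdicComplete_kSeries (O := O) (J := J) (τ := τ)
  apply le_antisymm
  · exact iInf_le_of_le ⟨G, hG⟩ le_rfl
  · refine le_iInf fun G' => ?_
    rw [← algHom_ext_X (F := G) (G := G'.1) (fun i => hG i ▸ coordsOf_specialCfg_mem h2 hc i)
      fun i => (hG i).trans (G'.2 i).symm]

theorem specialPrime_isPrime' : (specialPrime S τ c D).IsPrime := by
  obtain ⟨G, hG⟩ := exists_specialHom (τ := τ) (D := D) h2 hc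
  rw [specialPrime_eq_ker h2 hc G hG]
  have : IsDomain (KSeries J τ O) := NoZeroDivisors.to_isDomain _
  exact RingHom.ker_isPrime _

theorem map_maximalIdeal_le_specialPrime' :
    (maximalIdeal O).map (algebraMap O (PSR J τ O)) ≤ specialPrime S τ c D := by
  obtain ⟨G, hG⟩ := exists_specialHom (τ := τ) (D := D) h2 hc
  rw [specialPrime_eq_ker h2 hc G hG, Ideal.map_le_iff_le_comap]
  intro a ha
  show G (algebraMap O _ a) = 0
  rw [G.commutes, algebraMap_kSeries_eq_zero ha]

/-- A component whose chart covers the special point at every site contains the special prime. -/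
theorem kernel_le_specialPrime_of_forall {c' : J → Ty} (hc' : ∀ j, (S j).Allowed (c' j))
    (h : ∀ j, ∃ x : Fin 3 → KSeries J τ O, (∀ i, x i ∈ maximalIdeal _) ∧
      chartPair (S j) (c j) (specialVar τ D j) = chartPair (S j) (c' j) x) :
    kernel S τ c' ≤ specialPrime S τ c D := by
  choose x hx hcx using h
  obtain ⟨G, hG⟩ := exists_specialHom (τ := τ) (D := D) h2 hc
  obtain ⟨C, hC⟩ := exists_chartHom (τ := τ) h2 hc'
  have := isAdicComplete_kSeries (O := O) (J := J) (τ := τ)
  obtain ⟨T, hT⟩ := RT.exists_eval (L := O) (R := KSeries J τ O) (σ := (J × Fin 3) ⊕ τ)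
    (Sum.elim (fun i : J × Fin 3 => x i.1 i.2) fun t => MvPowerSeries.X (Sum.inr t)) (by
      rintro (⟨j, i⟩ | t)
      · exact hx j i
      · exact X_mem_kSeries _)
  have hmap : mapCfg T (chartCfg S τ c') = specialCfg S τ c D := by
    refine Prod.ext (funext fun j => ?_) (funext fun t => hT _)
    show ((chartPair (S j) (c' j) _).1.map T, (chartPair (S j) (c' j) _).2.map T) = _
    rw [map_chartPair T (S j) (c' j) _ fun _ => ?_]
    · show _ = chartPair (S j) (c j) (specialVar τ D j)
      rw [hcx j]
      congr 1
      exact funext fun i => hT _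
    · have := isLocalHom_algebraMap_mv (O := O) (σ := (J × Fin 3) ⊕ τ)
      exact isUnit_chart_zero (S j) (X_mem_om (Sum.inl (j, 0)))
  have hGT : G = T.comp C := by
    refine algHom_ext_X (fun i => hG i ▸ coordsOf_specialCfg_mem h2 hc i) fun i => ?_
    rw [hG, AlgHom.comp_apply, hC, map_coordsOf, hmap]
  intro f hf
  rw [kernel_eq_ker h2 hc' C hC, RingHom.mem_ker] at hf
  rw [specialPrime_eq_ker h2 hc G hG, RingHom.mem_ker, hGT, AlgHom.comp_apply, hf, map_zero]

theorem kernel_le_specialPrime' : kernel S τ c ≤ specialPrime S τ c D :=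
  kernel_le_specialPrime_of_forall h2 hc hc fun j => ⟨_, specialVar_mem j, rfl⟩

theorem special_snd_eq_one {j : J} (hj : j ∈ D) (hcj : c j = .same)
    (hb : (S j).b₀ ∈ maximalIdeal O) :
    (chartPair (S j) (c j) (specialVar (O := O) τ D j)).2 = 1 := by
  rw [hcj]
  simp [chartPair, specialPair, up, Site.mono, specialVar, hj, algebraMap_kSeries_eq_zero hb,
    upT_one, cj_one']

theorem kernel_le_specialPrime_of_unram' (hD : ∀ j ∈ D, c j = .same ∧ (S j).b₀ ∈ maximalIdeal O)
    {c' : J → Ty} (hc'' : ∀ j, c' j = c j ∨ (j ∈ D ∧ c' j = .unram)) :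
    kernel S τ c' ≤ specialPrime S τ c D := by
  have hloc := isLocalHom_kSeries (O := O) (J := J) (τ := τ)
  have hc' : ∀ j, (S j).Allowed (c' j) := fun j => by
    rcases hc'' j with h | ⟨hj, h⟩
    · rw [h]; exact hc j
    · rw [h]; exact (hD j hj).2
  refine kernel_le_specialPrime_of_forall h2 hc hc' fun j => ?_
  rcases hc'' j with h | ⟨hj, h⟩
  · exact ⟨_, specialVar_mem j, by rw [h]⟩
  obtain ⟨hcj, hb⟩ := hD j hj
  obtain ⟨m1, -⟩ := chartPair_mem (A := KSeries J τ O) S j (c j) h2 (hc j) _ (specialVar_mem j)
  have hdet : (chartPair (S j) (c j) (specialVar (O := O) τ D j)).1.det =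
      ((S j).q : KSeries J τ O) := by
    rw [hcj]
    simp only [chartPair, specialPair, up, det_cj, det_upT, Site.sign]
    rw [mul_assoc, ← map_mul, (S j).sgn_sq, map_one, mul_one]
  have hsnd := special_snd_eq_one (τ := τ) h2 hc hj hcj hb
  set p := chartPair (S j) (c j) (specialVar (O := O) τ D j) with hp
  set x₀ := p.1 0 0 - algebraMap O (KSeries J τ O) (((S j).q : O) * (S j).sgn)
  set x₁ := p.1 0 1 - algebraMap O (KSeries J τ O) (S j).y₀
  have hx : ∀ i, ![x₀, x₁, p.1 1 0] i ∈ maximalIdeal (KSeries J τ O) := by
    intro i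
    fin_cases i
    · simpa [x₀, centreCfg, Site.centre, upT] using m1 0 0
    · simpa [x₁, centreCfg, Site.centre, upT] using m1 0 1
    · simpa [centreCfg, Site.centre, upT] using m1 1 0
  refine ⟨_, hx, ?_⟩
  rw [h]
  have hu := isUnit_chart_zero (A := KSeries J τ O) (S j) (hx 0)
  simp only [chartPair]
  refine Prod.ext ?_ hsnd
  rw [Matrix.det_fin_two] at hdet
  simp only [Matrix.cons_val_zero, Matrix.cons_val_one, Matrix.cons_val, x₀, x₁,
    add_sub_cancel] at hu ⊢
  have h11 : p.1 1 1 = (((S j).q : KSeries J τ O) + p.1 0 1 * p.1 1 0) * Ring.inverse (p.1 0 0) := by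
    refine hu.mul_right_cancel ?_
    rw [mul_assoc, Ring.inverse_mul_cancel _ hu, mul_one]
    linear_combination hdet
  ext u v
  fin_cases u <;> fin_cases v <;> simp [h11]

theorem trace_sub_mem_specialPrime' {j : J} (hj : c j = .same) :
    ((universalFamily S τ).1 j).1.trace -
        algebraMap O (PSR J τ O) ((S j).sgn * (((S j).q : O) + 1)) ∈ specialPrime S τ c D := by
  obtain ⟨G, hG⟩ := exists_specialHom (τ := τ) (D := D) h2 hc
  rw [specialPrime_eq_ker h2 hc G hG, RingHom.mem_ker, map_sub, G.commutes]
  have h1 := congrArg Prod.fst (map_chartHom_univPair hG j)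
  have ht : G (univPair S τ j).1.trace = ((univPair S τ j).1.map G).trace :=
    AddMonoidHom.map_trace G.toRingHom.toAddMonoidHom _
  show G (univPair S τ j).1.trace - _ = 0
  dsimp only at h1
  rw [ht, h1]
  simp only [specialCfg, hj, chartPair, specialPair, up, trace_cj, trace_upT, Site.sign,
    map_mul, map_add, map_natCast, map_one]
  ring

theorem not_kernel_le_specialPrime' {c' : J → Ty} (hc' : ∀ j, (S j).Allowed (c' j)) {j : J}
    (hj : j ∉ D) (hne : c' j ≠ c j) : ¬ kernel S τ c' ≤ specialPrime S τ c D := by
  classical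
  have : IsDomain (KSeries J τ O) := NoZeroDivisors.to_isDomain _
  have hloc := isLocalHom_kSeries (O := O) (J := J) (τ := τ)
  obtain ⟨G, hG⟩ := exists_specialHom (τ := τ) (D := D) h2 hc
  obtain ⟨C, hC⟩ := exists_chartHom (τ := τ) h2 hc'
  rw [specialPrime_eq_ker h2 hc G hG, kernel_eq_ker h2 hc' C hC]
  have hG1 : (univPair S τ j).1.map G = (chartPair (S j) (c j) (specialVar τ D j)).1 :=
    congrArg Prod.fst (map_chartHom_univPair hG j)
  have hG2 : (univPair S τ j).2.map G = (chartPair (S j) (c j) (specialVar τ D j)).2 :=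
    congrArg Prod.snd (map_chartHom_univPair hG j)
  have hC1 : (univPair S τ j).1.map C = ((chartCfg S τ c').1 j).1 :=
    congrArg Prod.fst (map_chartHom_univPair hC j)
  have hC2 : (univPair S τ j).2.map C = ((chartCfg S τ c').1 j).2 :=
    congrArg Prod.snd (map_chartHom_univPair hC j)
  have hv : ∀ i, specialVar (O := O) τ D j i = MvPowerSeries.X (Sum.inl (j, i)) := fun i => by
    simp [specialVar, hj]
  suffices ∃ w, C w = 0 ∧ G w ≠ 0 by
    obtain ⟨w, h1, h2⟩ := this
    exact fun h => h2 (h h1)
  by_cases hty : c j = .unram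
  · -- the trace separates the unramified component
    have hty' : c' j ≠ .unram := fun h => hne (h.trans hty.symm)
    set γ : O := (S j).sign (c' j) * (((S j).q : O) + 1)
    refine ⟨(univPair S τ j).1.trace - algebraMap O _ γ, ?_, ?_⟩
    · have ht : C (univPair S τ j).1.trace = ((univPair S τ j).1.map C).trace :=
        AddMonoidHom.map_trace C.toRingHom.toAddMonoidHom _
      rw [map_sub, C.commutes, ht, hC1]
      simp only [chartCfg, chartPair_special hty', specialPair, up, trace_cj, trace_upT, γ,
        map_mul, map_add, map_natCast, map_one]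
      ring
    · have ht : G (univPair S τ j).1.trace = ((univPair S τ j).1.map G).trace :=
        AddMonoidHom.map_trace G.toRingHom.toAddMonoidHom _
      rw [map_sub, G.commutes, ht, hG1, hty]
      simp only [chartPair, hv]
      intro h
      set α : O := ((S j).q : O) * (S j).sgn
      set a : KSeries J τ O := algebraMap O _ α + MvPowerSeries.X (Sum.inl (j, 0)) with ha
      have hu : IsUnit a := isUnit_chart_zero (S j) (X_mem_kSeries _)
      rw [Matrix.trace_fin_two_of] at h
      have key : algebraMap O (KSeries J τ O) (α * α - γ * α + ((S j).q : O)) +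
          MvPowerSeries.C (residue O (α + α - γ)) * MvPowerSeries.X (Sum.inl (j, 0)) +
          MvPowerSeries.X (Sum.inl (j, 0)) ^ 2 +
          (algebraMap O _ (S j).y₀ + MvPowerSeries.X (Sum.inl (j, 1))) *
            MvPowerSeries.X (Sum.inl (j, 2)) = 0 := by
        rw [← algebraMap_kSeries]
        simp only [map_add, map_sub, map_mul, map_natCast]
        linear_combination a * h - (((S j).q : KSeries J τ O) +
          (algebraMap O _ (S j).y₀ + MvPowerSeries.X (Sum.inl (j, 1))) *
            MvPowerSeries.X (Sum.inl (j, 2))) * Ring.mul_inverse_cancel _ hu +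
          (algebraMap O (KSeries J τ O) γ - a - algebraMap O _ α -
            MvPowerSeries.X (Sum.inl (j, 0))) * ha
      have h1 := congrArg (MvPowerSeries.coeff (Finsupp.single (Sum.inl (j, (0 : Fin 3))) 2)) key
      have h0 : MvPowerSeries.coeff (Finsupp.single (Sum.inl (j, (0 : Fin 3))) 2)
          ((algebraMap O (KSeries J τ O) (S j).y₀ + MvPowerSeries.X (Sum.inl (j, 1))) *
            MvPowerSeries.X (Sum.inl (j, 2))) = 0 :=
        MvPowerSeries.X_dvd_iff.mp (dvd_mul_left _ _) _ (by simp)
      rw [map_add, map_add, map_add, map_zero, h0, algebraMap_kSeries, MvPowerSeries.coeff_C,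
        MvPowerSeries.coeff_C_mul, MvPowerSeries.coeff_X, MvPowerSeries.coeff_X_pow, if_pos rfl,
        if_neg (by simp), if_neg (by simp [Finsupp.single_eq_single_iff])] at h1
      simp at h1
  by_cases hty' : c' j = .unram
  · refine ⟨frameN (S j) (c j) (univPair S τ j) 0 1, ?_, ?_⟩
    · have h := congrFun (congrFun (map_frameN (σ := S j) (ty := c j) C (univPair S τ j)) 0) 1
      rw [Matrix.map_apply] at h
      rw [h]
      simp only [frameN, hC2, chartCfg, hty', chartPair, cj_one', sub_self, Matrix.zero_apply]
    · have h := congrFun (congrFun (map_frameN (σ := S j) (ty := c j) G (univPair S τ j)) 0) 1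
      rw [Matrix.map_apply] at h
      rw [h, map_chartHom_univPair hG j]
      show frameN (S j) (c j) (chartPair (S j) (c j) (specialVar τ D j)) 0 1 ≠ 0
      rw [frameN_chartPair hty]
      simpa [hv] using const_add_X_ne_zero _ _
  · -- opposite signs
    have hsgn : (S j).sign (c j) = -(S j).sign (c' j) := by
      cases h : c j <;> cases h' : c' j <;> simp_all [Site.sign]
    set t' : O := (S j).sign (c' j) with ht'
    set W : Mat (PSR J τ O) := ((univPair S τ j).2 - 1) * (univPair S τ j).1 -
      algebraMap O (PSR J τ O) t' • ((univPair S τ j).2 - 1) with hW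
    refine ⟨cj (frameIn (S j) (c j) (PSR J τ O))⁻¹ W 0 1, ?_, ?_⟩
    · have h := congrFun (congrFun (map_cj_frame (σ := S j) (ty := c j) C W) 0) 1
      rw [Matrix.map_apply] at h
      rw [h]
      have hW' : W.map C = 0 := by
        have e0 : W.map C = (((univPair S τ j).2.map C) - 1) * (univPair S τ j).1.map C -
            algebraMap O (Om J τ O) t' • (((univPair S τ j).2.map C) - 1) := by
          show C.toRingHom.mapMatrix W = _
          rw [hW, map_sub, map_mul, map_sub, map_one]
          congr 1
          show (algebraMap O (PSR J τ O) t' • ((univPair S τ j).2 - 1)).map C = _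
          rw [map_smul_algebraMap]
          congr 1
          show C.toRingHom.mapMatrix _ = _
          rw [map_sub, map_one]
          rfl
        rw [e0, hC1, hC2]
        simp only [chartCfg, chartPair_special hty', specialPair, up, ← ht']
        conv_lhs => rw [← cj_one' (R := Om J τ O)
          (frameIn (S j) (c' j) (Om J τ O) * uL (MvPowerSeries.X (Sum.inl (j, 0))))]
        rw [← cj_sub, cj_mul_cj]
        have z : ∀ b y : Om J τ O, (upT 1 1 b - 1) *
            upT (((S j).q : Om J τ O) * algebraMap O _ t') (algebraMap O _ t') y =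
            algebraMap O (Om J τ O) t' • (upT (1 : Om J τ O) 1 b - 1) := by
          intro b y
          ext u v
          fin_cases u <;> fin_cases v <;> simp [upT, Matrix.mul_apply, Fin.sum_univ_two, mul_comm]
        rw [z]
        simp [cj]
      rw [hW']
      simp [cj]
    · have h := congrFun (congrFun (map_cj_frame (σ := S j) (ty := c j) G W) 0) 1
      rw [Matrix.map_apply] at h
      rw [h]
      set p := chartPair (S j) (c j) (specialVar (O := O) τ D j) with hp
      set F := (frameIn (S j) (c j) (KSeries J τ O))⁻¹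
      have hW' : W.map G = (p.2 - 1) * p.1 - algebraMap O (KSeries J τ O) t' • (p.2 - 1) := by
        show G.toRingHom.mapMatrix W = _
        rw [hW, map_sub, map_mul, map_sub, map_one, ← hG1, ← hG2]
        congr 1
        show (algebraMap O (PSR J τ O) t' • ((univPair S τ j).2 - 1)).map G = _
        rw [map_smul_algebraMap]
        congr 1
        show G.toRingHom.mapMatrix _ = _
        rw [map_sub, map_one]
        rfl
      have eN : cj F (p.2 - 1) = frameN (S j) (c j) p := by
        rw [cj_sub, cj_one', frameN]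
      have eA : cj F p.1 =
          frameA (S j) (c j) p + algebraMap O (KSeries J τ O) ((S j).sign (c j)) • 1 := by
        rw [frameA, sub_add_cancel]
      have es : cj F (algebraMap O (KSeries J τ O) t' • (p.2 - 1)) =
          algebraMap O (KSeries J τ O) t' • cj F (p.2 - 1) := by
        simp only [cj, mul_smul_comm, smul_mul_assoc]
      rw [hW', cj_sub, ← cj_mul_cj, es, eN, eA, hp, frameN_chartPair hty, frameA_chartPair hty,
        hsgn]
      have h2' : IsUnit (2 * algebraMap O (KSeries J τ O) t') := by
        rw [show (2 : KSeries J τ O) = algebraMap O _ 2 from (map_ofNat _ 2).symm, ← map_mul]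
        refine (h2.mul (IsUnit.of_mul_eq_one t' ?_)).map _
        rw [ht']
        cases c' j <;> simp [Site.sign, (S j).sgn_sq]
      intro h0
      refine const_add_X_ne_zero ((S j).mono (c j)) (Sum.inl (j, (2 : Fin 3)))
        (h2'.mul_right_eq_zero.mp ?_)
      simp only [hv, Matrix.mul_apply, Fin.sum_univ_two, Matrix.smul_apply, Matrix.add_apply,
        Matrix.sub_apply, smul_eq_mul, Matrix.one_apply, Matrix.of_apply, Matrix.cons_val',
        Matrix.cons_val_zero, Matrix.cons_val_one, Matrix.cons_val_fin_one, map_neg,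
        Fin.isValue, zero_ne_one, one_ne_zero, if_true, if_false, ite_true, ite_false] at h0
      linear_combination -h0

end Fermat.Agent.Lifting.Algebra
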